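/-
S56 / F / C / Defs : FLAT, irreducible case, block C (cohomological reduction + count).  Owner: helper55.

NOTATION.  `D = Dq p`, `I = Iq p`, `|x| = nrm p x`, `Ω = Om p` the residue field of the standard place,
`ϖ ∈ Qbar` with `ϖ^(p²-1) = -p`, `r = |ϖ|`, `IL = {s ∈ I : s ϖ = ϖ}` (so `Fix IL = K^nr(ϖ)`, a discretely
valued field with uniformiser `ϖ`, ramification index `e = p²-1`, residue field `Ω`), `W = Ad0 p k`,
`χ_B(s) = Tr_{k/𝔽_p} tr (B z(s))` for a cocycle `z` and `B ∈ W`.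

`Gen ϖ z B x`   : `x ∈ (Fix IL)^×` is a Kummer generator of the character `χ_B` of `IL`
`Lev ϖ z B j`   : `χ_B` has a Kummer generator `x` with `|x - 1| ≤ r^j`
`lc ϖ j x`      : leading coefficient `(x - 1)/ϖ^j mod 𝔪 ∈ Ω`
`NoLevel ϖ z j` : no Kummer generator of exact level `j`  (INPUT from blocks K + R for `j = 2, p+1`)
`Setup p M ϖ`   : INPUT from block T (tame characters)
-/
import Fermat.Agent.S56.TW.TrForm
import Fermat.Agent.S55.Places.Residue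
import Fermat.Agent.S55.Places.Norm
import Fermat.Agent.S55.Arith.Defs

set_option autoImplicit false

noncomputable section

namespace Fermat.Agent.S56.F.C

open Fermat.Agent.S55 Fermat.Agent.S55.Places ExtCitation Module Polynomial

/-- the residue field of the standard place above `p`. -/
abbrev Om (p : ℕ) [Fact p.Prime] : Type := ResidueKq p

/-- total reduction map `Qbar → Ω` (junk `0` on non integral elements). -/
def rd (p : ℕ) [Fact p.Prime] (x : Qbar) : Om p :=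
  if h : nrm p x ≤ 1 then residueRes p x h else 0

/-- `IL = {s ∈ I_p : s ϖ = ϖ}`. -/
def IL (p : ℕ) [Fact p.Prime] (ϖ : Qbar) : Subgroup GQ := Iq p ⊓ MulAction.stabilizer GQ ϖ

theorem mem_IL {p : ℕ} [Fact p.Prime] {ϖ : Qbar} {s : GQ} :
    s ∈ IL p ϖ ↔ s ∈ Iq p ∧ s ϖ = ϖ := Iff.rfl

/-- `FL = Fix IL = K^nr(ϖ)`. -/
abbrev FL (p : ℕ) [Fact p.Prime] (ϖ : Qbar) : NF := Places.Fix (IL p ϖ)

theorem mem_FL {p : ℕ} [Fact p.Prime] {ϖ x : Qbar} :
    x ∈ FL p ϖ ↔ ∀ s ∈ IL p ϖ, s x = x := mem_Fix_iff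

/-- leading coefficient at level `j`. -/
def lc (p : ℕ) [Fact p.Prime] (ϖ : Qbar) (j : ℕ) (x : Qbar) : Om p := rd p ((x - 1) / ϖ ^ j)

variable {p : ℕ} [Fact p.Prime] {k : Type} [Field k] [Algebra (ZMod p) k]

/-- the chosen primitive `p`-th root of unity, in `Qbar`. -/
abbrev zt (p : ℕ) [Fact p.Prime] : Qbar := ((zeta p : Qbarˣ) : Qbar)

/-- `χ_B(s) = Tr_{k/𝔽_p} tr (B z(s))`. -/
def chi (z : GQ → Ad0 p k) (B : Ad0 p k) (s : GQ) : ZMod p := TW.trForm p k B (z s)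

/-- `x` is a Kummer generator of the character `χ_B` of `IL`. -/
def Gen (ϖ : Qbar) (z : GQ → Ad0 p k) (B : Ad0 p k) (x : Qbar) : Prop :=
  x ∈ FL p ϖ ∧ ∃ y : Qbar, y ≠ 0 ∧ y ^ p = x ∧
    ∀ s ∈ IL p ϖ, s y = zt p ^ (chi z B s).val * y

/-- `χ_B` has a Kummer generator of level `≥ j`. -/
def Lev (ϖ : Qbar) (z : GQ → Ad0 p k) (B : Ad0 p k) (j : ℕ) : Prop :=
  ∃ x : Qbar, Gen ϖ z B x ∧ nrm p (x - 1) ≤ nrm p ϖ ^ j

/-- **INPUT from K + R**: no Kummer generator of exact level `j`. -/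
def NoLevel (ϖ : Qbar) (z : GQ → Ad0 p k) (j : ℕ) : Prop :=
  ∀ (B : Ad0 p k) (x y : Qbar), x ∈ FL p ϖ → y ^ p = x →
    (∀ s ∈ IL p ϖ, s y = zt p ^ (chi z B s).val * y) → nrm p (x - 1) ≠ nrm p ϖ ^ j

/-- `z : GQ → W` is a level cocycle on `D_p` (values outside `D_p` are irrelevant). -/
structure LocCoc (M : GQ →* M2 k) (z : GQ → Ad0 p k) : Prop where
  coc : ∀ g ∈ Dq p, ∀ h ∈ Dq p, z (g * h) = ad0 p M g (z h) + z g
  lev : ∃ U : Subgroup GQ, Lall.IsOpen U ∧ ∀ s ∈ U, s ∈ Dq p → z s = 0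

/-- **INPUT from T** (tame characters): `M` is trivial on `IL`, and on a generator `g0` of `I/IL` the
eigenvalues of `M g0` are `a, a^p`, where `a` corresponds to `θ0 = g0 ϖ/ϖ mod 𝔪` under `ι : k → Ω`. -/
structure Setup (p : ℕ) [Fact p.Prime] {k : Type} [Field k] (M : GQ →* M2 k) (ϖ : Qbar) where
  hϖ : ϖ ^ (p ^ 2 - 1) = -(p : Qbar)
  ker : ∀ s ∈ IL p ϖ, M s = 1
  ι : k →+* Om p
  g0 : GQ
  g0_mem : g0 ∈ Iq p
  prim : IsPrimitiveRoot (g0 ϖ / ϖ) (p ^ 2 - 1)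
  a : k
  char : (M g0).charpoly = (X - C a) * (X - C (a ^ p))
  ιa : ι a = rd p (g0 ϖ / ϖ)

/-- `θ0 = g0 ϖ/ϖ mod 𝔪`. -/
def Setup.θ0 {M : GQ →* M2 k} {ϖ : Qbar} (S : Setup p M ϖ) : Om p := rd p (S.g0 ϖ / ϖ)

/-- the twisted adjoint action of `g ∈ GQ` on `W` (`= dualT (ad0 p M)` via the trace form). -/
def T (M : GQ →* M2 k) (g : GQ) (B : Ad0 p k) : Ad0 p k := TW.twAd (TW.rGL M g) B

end Fermat.Agent.S56.F.C

end
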