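/-
S56 / F / C / EqA : the cubic identity satisfied by the twisted adjoint action.   (helper55; no sorry)
-/
import Fermat.Agent.S56.F.C.Defs

set_option autoImplicit false

noncomputable section

namespace Fermat.Agent.S56.F.C

open Fermat.Agent.S55 Fermat.Agent.S55.Places ExtCitation Module Polynomial

variable {p : ℕ} [Fact p.Prime] {k : Type} [Field k] [Algebra (ZMod p) k]

/-- `(T - a²)(T - b²)(T - ab) = 0` for `T = tw g`, `a, b` the eigenvalues of `g`, written with `t = a + b`, `d = ab`. -/
theorem tw_cubic (g : GL (Fin 2) k) (X : M2 k) :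
    GT.tw g (GT.tw g (GT.tw g X)) - (g.val.trace ^ 2 - g.val.det) • GT.tw g (GT.tw g X)
      + (g.val.det * (g.val.trace ^ 2 - g.val.det)) • GT.tw g X - g.val.det ^ 3 • X = 0 := by
  rw [GT.tw_def g X, GT.tw_def g, GT.tw_def g]
  ext i j
  fin_cases i <;> fin_cases j <;>
    simp [Matrix.trace_fin_two, Matrix.det_fin_two, Matrix.mul_apply, Fin.sum_univ_two,
      Matrix.adjugate_fin_two] <;> ring

/-- the same identity on `Ad0 p k`, when trace and determinant lie in the prime field. -/
theorem twAd_cubic (g : GL (Fin 2) k) (t d : ZMod p) (ht : algebraMap (ZMod p) k t = g.val.trace)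
    (hd : algebraMap (ZMod p) k d = g.val.det) (B : Ad0 p k) :
    TW.twAd g (TW.twAd g (TW.twAd g B)) - (t ^ 2 - d) • TW.twAd g (TW.twAd g B)
      + (d * (t ^ 2 - d)) • TW.twAd g B - d ^ 3 • B = 0 := by
  apply Subtype.ext
  have h := tw_cubic g (B : M2 k)
  rw [← ht, ← hd, ← map_pow, ← map_sub, ← map_mul, ← map_pow, algebraMap_smul, algebraMap_smul,
    algebraMap_smul] at h
  simpa using h

end Fermat.Agent.S56.F.C

end
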