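/-
S56 / F / C / Rd : the total reduction map `rd p : Qbar → Ω`.      TASK S56/FC-Rd  (EASY, ~120 lines)

All proofs: `unfold rd`, `rw [dif_pos h]`, then `residueRes` is `IsLocalRing.residue (padicPlace p) ⟨x, _⟩`
(`S55/Places/Residue.lean`: `residueRes_eq_iff`, `residueRes_pow`, `residueRes_surjective`), a ring hom.
`mem_Iq_iff` (`S55/Places/Norm.lean`) : `g ∈ Iq q ↔ g ∈ Dq q ∧ ∀ x, nrm q x ≤ 1 → nrm q (g x - x) < 1`.
`IsFrob` is in `S55/Places/Residue.lean`.
-/
import Fermat.Agent.S56.F.C.Defs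

set_option autoImplicit false

noncomputable section

namespace Fermat.Agent.S56.F.C

open Fermat.Agent.S55 Fermat.Agent.S55.Places

variable {p : ℕ} [Fact p.Prime]

theorem Rd_of_le {x : Qbar} (hx : nrm p x ≤ 1) :
    rd p x = IsLocalRing.residue (padicPlace p) ⟨x, (mem_padicPlace_iff_nrm p).2 hx⟩ := by
  unfold rd
  rw [dif_pos hx]
  rfl

theorem Rd_of_not_le {x : Qbar} (hx : ¬ nrm p x ≤ 1) : rd p x = 0 := by
  unfold rd
  rw [dif_neg hx]

theorem rd_eq_iff {x y : Qbar} (hx : nrm p x ≤ 1) (hy : nrm p y ≤ 1) :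
    rd p x = rd p y ↔ nrm p (x - y) < 1 := by
  unfold rd
  rw [dif_pos hx, dif_pos hy]
  exact residueRes_eq_iff p hx hy

theorem rd_zero : rd p 0 = 0 := by
  rw [Rd_of_le (by rw [nrm_zero]; exact zero_le_one)]
  exact map_zero _

theorem rd_one : rd p 1 = 1 := by
  rw [Rd_of_le (by rw [nrm_one])]
  exact map_one _

theorem rd_add {x y : Qbar} (hx : nrm p x ≤ 1) (hy : nrm p y ≤ 1) :
    rd p (x + y) = rd p x + rd p y := by
  rw [Rd_of_le hx, Rd_of_le hy, Rd_of_le ((nrm_add_le_max p x y).trans (max_le hx hy)), ← map_add]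
  rfl

theorem rd_neg (x : Qbar) : rd p (-x) = - rd p x := by
  by_cases hx : nrm p x ≤ 1
  · rw [Rd_of_le hx, Rd_of_le (by rw [nrm_neg]; exact hx), ← map_neg]
    rfl
  · rw [Rd_of_not_le hx, Rd_of_not_le (by rw [nrm_neg]; exact hx), neg_zero]

theorem rd_sub {x y : Qbar} (hx : nrm p x ≤ 1) (hy : nrm p y ≤ 1) :
    rd p (x - y) = rd p x - rd p y := by
  rw [sub_eq_add_neg, rd_add hx (by rw [nrm_neg]; exact hy), rd_neg, sub_eq_add_neg]

theorem rd_mul {x y : Qbar} (hx : nrm p x ≤ 1) (hy : nrm p y ≤ 1) :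
    rd p (x * y) = rd p x * rd p y := by
  rw [Rd_of_le hx, Rd_of_le hy,
    Rd_of_le (by rw [nrm_mul]; exact mul_le_one₀ hx (nrm_nonneg p y) hy), ← map_mul]
  rfl

theorem rd_pow {x : Qbar} (hx : nrm p x ≤ 1) (n : ℕ) : rd p (x ^ n) = rd p x ^ n := by
  rw [Rd_of_le hx, Rd_of_le (residue_nrm_pow_le_one p hx n), ← map_pow]
  rfl

theorem rd_eq_zero_iff {x : Qbar} (hx : nrm p x ≤ 1) : rd p x = 0 ↔ nrm p x < 1 := by
  have h := rd_eq_iff hx (y := 0) (by rw [nrm_zero]; exact zero_le_one)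
  rwa [rd_zero, sub_zero] at h

theorem rd_natCast (n : ℕ) : rd p (n : Qbar) = (n : Om p) := by
  rw [Rd_of_le (nrm_natCast_le_one p n), ← map_natCast (IsLocalRing.residue (padicPlace p)) n]
  rfl

theorem rd_surjective (w : Om p) : ∃ x : Qbar, nrm p x ≤ 1 ∧ rd p x = w := by
  obtain ⟨x, hx, h⟩ := residueRes_surjective p w
  refine ⟨x, hx, ?_⟩
  unfold rd
  rw [dif_pos hx, h]

/-- inertia acts trivially on the residue field. -/
theorem rd_map_of_mem_Iq {g : GQ} (hg : g ∈ Iq p) (x : Qbar) : rd p (g x) = rd p x := by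
  obtain ⟨hD, hI⟩ := (mem_Iq_iff p).1 hg
  by_cases hx : nrm p x ≤ 1
  · exact (rd_eq_iff (by rw [nrm_map_of_mem_Dq p hD]; exact hx) hx).2 (hI x hx)
  · rw [Rd_of_not_le hx, Rd_of_not_le (by rw [nrm_map_of_mem_Dq p hD]; exact hx)]

/-- a Frobenius element acts by `w ↦ w ^ p`. -/
theorem rd_map_of_isFrob {φ : GQ} (hφ : IsFrob p φ) (x : Qbar) : rd p (φ x) = rd p x ^ p := by
  by_cases hx : nrm p x ≤ 1
  · rw [← rd_pow hx]
    exact (rd_eq_iff (by rw [nrm_map_of_mem_Dq p hφ.1]; exact hx)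
      (residue_nrm_pow_le_one p hx p)).2 (hφ.2 x hx)
  · rw [Rd_of_not_le hx, Rd_of_not_le (by rw [nrm_map_of_mem_Dq p hφ.1]; exact hx),
      zero_pow (Fact.out : p.Prime).ne_zero]

/-- the fixed field of the Frobenius of `Ω` is the prime field (`X^p - X` has at most `p` roots; the
`p` elements `(n : Ω)`, `n : ZMod p`, are roots: `ZMod.pow_card`, `Polynomial.card_roots'`; or
`FiniteField`/`CharP` API: `(algebraMap (ZMod p) Ω).injective`). -/
theorem exists_zmod_of_pow_eq {F : Type} [Field F] [Algebra (ZMod p) F] {w : F} (hw : w ^ p = w) :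
    ∃ n : ZMod p, algebraMap (ZMod p) F n = w := by
  classical
  have hp : p.Prime := Fact.out
  let P : Polynomial F := Polynomial.X ^ p - Polynomial.X
  have hP0 : P ≠ 0 := FiniteField.X_pow_card_sub_X_ne_zero F hp.one_lt
  have hdeg : P.natDegree = p := FiniteField.X_pow_card_sub_X_natDegree_eq F hp.one_lt
  let S : Finset F := Finset.univ.image (algebraMap (ZMod p) F)
  have hScard : S.card = p := by
    rw [Finset.card_image_of_injective _ (algebraMap (ZMod p) F).injective, Finset.card_univ,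
      ZMod.card]
  have hsub : S ⊆ P.roots.toFinset := by
    intro x hx
    obtain ⟨n, -, rfl⟩ := Finset.mem_image.mp hx
    rw [Multiset.mem_toFinset, Polynomial.mem_roots hP0]
    simp [P, Polynomial.IsRoot, ← map_pow, ZMod.pow_card]
  have hle : P.roots.toFinset.card ≤ S.card := by
    rw [hScard, ← hdeg]
    exact (Multiset.toFinset_card_le _).trans (Polynomial.card_roots' P)
  have heq := Finset.eq_of_subset_of_card_le hsub hle
  have hw' : w ∈ P.roots.toFinset := by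
    rw [Multiset.mem_toFinset, Polynomial.mem_roots hP0]
    simp [P, Polynomial.IsRoot, hw]
  rw [← heq] at hw'
  obtain ⟨n, -, hn⟩ := Finset.mem_image.mp hw'
  exact ⟨n, hn⟩

end Fermat.Agent.S56.F.C

end
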