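/-
S56 / F / C / EqB : an additive function on `W` which is an eigenvector of `T(g)` for a non special eigenvalue vanishes.
TASK S56/FC-EqB
-/
import Fermat.Agent.S56.F.C.EqA
import Fermat.Agent.S56.F.C.Rd

set_option autoImplicit false

noncomputable section

namespace Fermat.Agent.S56.F.C

open Fermat.Agent.S55 Fermat.Agent.S55.Places ExtCitation Module Polynomial

variable {p : ℕ} [Fact p.Prime] {k : Type} [Field k] [Algebra (ZMod p) k]

/-- additive maps into a ring of characteristic `p` (it receives `k`) are `𝔽_p`-linear: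
`n • B = n.val • B` (`ZMod.natCast_zmod_val`, `Nat.cast_smul_eq_nsmul`), induction / `map_nsmul` for the `AddMonoidHom` made of `h`;
`ι (algebraMap n) = (n.val : Ω)` (`map_natCast`). -/
theorem map_zmod_smul {Ω : Type} [Field Ω] (ι : k →+* Ω) (h : Ad0 p k → Ω)
    (hadd : ∀ B B', h (B + B') = h B + h B') (n : ZMod p) (B : Ad0 p k) :
    h (n • B) = ι (algebraMap (ZMod p) k n) * h B := by
  let H : Ad0 p k →+ Ω := AddMonoidHom.mk' h hadd
  have h1 : n • B = n.val • B := by
    conv_lhs => rw [← ZMod.natCast_zmod_val n]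
    rw [Nat.cast_smul_eq_nsmul]
  have h2 : h (n.val • B) = n.val • h B := map_nsmul H n.val B
  rw [h1, h2, nsmul_eq_mul]
  congr 1
  conv_rhs => rw [← ZMod.natCast_zmod_val n]
  rw [map_natCast, map_natCast]

/-- from the characteristic polynomial: `Matrix.charpoly_fin_two`/`Matrix.trace_eq_neg_charpoly_coeff`, `Matrix.det_eq_sign_charpoly_coeff`,
or compare coefficients of `X^2 - C tr * X + C det = (X - C a)(X - C b)`. -/
theorem trace_det_of_charpoly {A : M2 k} {a b : k} (h : A.charpoly = (X - C a) * (X - C b)) :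
    A.trace = a + b ∧ A.det = a * b := by
  rw [Matrix.charpoly_fin_two] at h
  have e : (X - C a) * (X - C b) = X ^ 2 - C (a + b) * X + C (a * b) := by
    simp only [C_add, C_mul]
    ring
  rw [e] at h
  have h1 := congrArg (fun P => coeff P 1) h
  have h0 := congrArg (fun P => coeff P 0) h
  simp [coeff_X_pow, coeff_C] at h1 h0
  exact ⟨by linear_combination -h1, h0⟩

/-- **EQ lemma.**  `t = a + a^p`, `d = a^(p+1)` satisfy `t^p = t`, `d^p = d` (`add_pow_char`/`add_pow_expChar` in characteristic `p`: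
`CharP k p` from `charP_of_injective_algebraMap (algebraMap (ZMod p) k).injective p`; `a^(p^2) = a`), so `t = algebraMap t'`, `d = algebraMap d'`
(`exists_zmod_of_pow_eq`).  Apply `h` to `twAd_cubic g t' d' _ _ B` (`hadd` also gives `h 0 = 0`, `h (-B) = - h B`, `h (B - B') = ..`), use `hc` three
times and `map_zmod_smul`:   `(c^3 - (τ^2 - δ) c^2 + δ (τ^2 - δ) c - δ^3) * h B = 0`, `τ = ι t = α + α^p`, `δ = α^(p+1)`, `α = ι a`,
and the first factor is `(c - α^2) (c - α^(2p)) (c - α^(p+1)) ≠ 0` (`ring`). -/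
theorem eq_zero_of_equivariant {Ω : Type} [Field Ω] (ι : k →+* Ω) (g : GL (Fin 2) k) (a : k)
    (ha : a ^ (p ^ 2) = a) (hchar : g.val.charpoly = (X - C a) * (X - C (a ^ p)))
    (h : Ad0 p k → Ω) (hadd : ∀ B B', h (B + B') = h B + h B') (c : Ω)
    (hc : ∀ B, h (TW.twAd g B) = c * h B) (h1 : c ≠ ι a ^ 2) (h2 : c ≠ ι a ^ (2 * p))
    (h3 : c ≠ ι a ^ (p + 1)) : ∀ B, h B = 0 := by
  intro B
  have hp : p.Prime := Fact.out
  have : CharP k p := charP_of_injective_algebraMap (algebraMap (ZMod p) k).injective p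
  obtain ⟨htr, hdet⟩ := trace_det_of_charpoly hchar
  have ht : (a + a ^ p) ^ p = a + a ^ p := by
    rw [add_pow_char, ← pow_mul, ← sq, ha, add_comm]
  have hd : (a * a ^ p) ^ p = a * a ^ p := by
    rw [mul_pow, ← pow_mul, ← sq, ha, mul_comm]
  obtain ⟨t, ht'⟩ := exists_zmod_of_pow_eq ht
  obtain ⟨d, hd'⟩ := exists_zmod_of_pow_eq hd
  have hcub := twAd_cubic g t d (ht'.trans htr.symm) (hd'.trans hdet.symm) B
  let H : Ad0 p k →+ Ω := AddMonoidHom.mk' h hadd
  have hH : ∀ B, H B = h B := fun _ => rfl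
  have h4 := congrArg H hcub
  rw [map_zero, map_sub, map_add, map_sub] at h4
  simp only [hH, map_zmod_smul ι h hadd, hc] at h4
  simp only [map_sub, map_mul, map_pow, ht', hd', map_add] at h4
  have h5 : (c - ι a ^ 2) * (c - ι a ^ (2 * p)) * (c - ι a ^ (p + 1)) * h B = 0 := by
    rw [← h4]
    ring
  have h6 : (c - ι a ^ 2) * (c - ι a ^ (2 * p)) * (c - ι a ^ (p + 1)) ≠ 0 :=
    mul_ne_zero (mul_ne_zero (sub_ne_zero.2 h1) (sub_ne_zero.2 h2)) (sub_ne_zero.2 h3)
  exact (mul_eq_zero.1 h5).resolve_left h6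

end Fermat.Agent.S56.F.C

end
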