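/-
S56 / F / C / Pi : the tame field `FL = K^nr(ϖ)`, `ϖ^(p²-1) = -p`.

TASKS  S56/FC-PiA (first section, EASY, ~150 lines), S56/FC-PiB (`exists_prim`, MEDIUM, ~120 lines),
       S56/FC-PiC (`exists_zpow_of_mem_FL` + corollaries, MEDIUM, ~150 lines).
Tools: `S55/Places/Norm.lean` (`nrm_*`, `mem_Dq_iff`, `mem_Iq_iff`, `Iq_le_Dq`, `Iq_conj_mem`, `nrm_natCast_self`),
`S55/Places/Roots.lean` (`map_root_of_mem_Iq : Nat.Coprime m q → ζ ^ m = 1 → g ∈ Iq q → g ζ = ζ`, `Roots_coprime`),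
`S55/Places/Unram.lean` (`nrm_of_unramified`), `S55/Places/Cyclo.lean` (`cyclo_finiteDimensional_adjoin`,
`cyclo_mem_fixingSubgroup_adjoin`).
-/
import Fermat.Agent.S56.F.C.Defs
import Fermat.Agent.S55.Places.Roots
import Fermat.Agent.S55.Places.Unram
import Fermat.Agent.S55.Places.Cyclo

set_option autoImplicit false

noncomputable section

namespace Fermat.Agent.S56.F.C

open Fermat.Agent.S55 Fermat.Agent.S55.Places

variable {p : ℕ} [Fact p.Prime] {ϖ : Qbar}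

/-! ### PiA -/

theorem e_pos : 0 < p ^ 2 - 1 := by
  have h2 := (Fact.out : p.Prime).two_le
  have h4 : 4 ≤ p ^ 2 := by nlinarith
  omega

theorem e_coprime : Nat.Coprime (p ^ 2 - 1) p := by
  have hp : p.Prime := Fact.out
  refine Nat.Coprime.symm ((Nat.Prime.coprime_iff_not_dvd hp).mpr fun h => ?_)
  have h1 : p ∣ p ^ 2 := dvd_pow_self p two_ne_zero
  have h2 : p ∣ p ^ 2 - (p ^ 2 - 1) := Nat.dvd_sub h1 h
  have h3 : p ^ 2 - (p ^ 2 - 1) = 1 := by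
    have := e_pos (p := p)
    omega
  rw [h3] at h2
  exact hp.one_lt.ne' (Nat.dvd_one.mp h2)

theorem pi_ne_zero (hϖ : ϖ ^ (p ^ 2 - 1) = -(p : Qbar)) : ϖ ≠ 0 := by
  rintro rfl
  rw [zero_pow (e_pos (p := p)).ne'] at hϖ
  have hp0 : (p : Qbar) ≠ 0 := by exact_mod_cast (Fact.out : p.Prime).ne_zero
  exact hp0 (neg_eq_zero.mp hϖ.symm)

theorem nrm_pi_pow (hϖ : ϖ ^ (p ^ 2 - 1) = -(p : Qbar)) :
    nrm p ϖ ^ (p ^ 2 - 1) = (p : ℝ)⁻¹ := by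
  rw [← nrm_pow, hϖ, nrm_neg, nrm_natCast_self]

theorem nrm_pi_pos (hϖ : ϖ ^ (p ^ 2 - 1) = -(p : Qbar)) : 0 < nrm p ϖ :=
  (nrm_pos_iff p).mpr (pi_ne_zero hϖ)

theorem nrm_pi_lt_one (hϖ : ϖ ^ (p ^ 2 - 1) = -(p : Qbar)) : nrm p ϖ < 1 := by
  by_contra h
  rw [not_lt] at h
  have h1 : 1 ≤ nrm p ϖ ^ (p ^ 2 - 1) := one_le_pow₀ h
  rw [nrm_pi_pow hϖ] at h1
  have hp1 : (1 : ℝ) < p := by exact_mod_cast (Fact.out : p.Prime).one_lt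
  exact absurd h1 (not_le.mpr (inv_lt_one_of_one_lt₀ hp1))

/-- `θ(g) = g ϖ/ϖ` is a `(p²-1)`-th root of unity, for every `g ∈ GQ`. -/
theorem theta_pow (hϖ : ϖ ^ (p ^ 2 - 1) = -(p : Qbar)) (g : GQ) :
    (g ϖ / ϖ) ^ (p ^ 2 - 1) = 1 := by
  have hp0 : (p : Qbar) ≠ 0 := by exact_mod_cast (Fact.out : p.Prime).ne_zero
  rw [div_pow, ← map_pow, hϖ, map_neg, map_natCast, div_self (neg_ne_zero.mpr hp0)]

theorem nrm_theta (hϖ : ϖ ^ (p ^ 2 - 1) = -(p : Qbar)) (g : GQ) : nrm p (g ϖ / ϖ) = 1 :=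
  nrm_eq_one_of_pow_eq_one p (e_pos (p := p)).ne' (theta_pow hϖ g)

/-- `θ(g h) = θ(g) θ(h)` for `g ∈ I` (inertia fixes the roots of unity of order prime to `p`). -/
theorem theta_mul (hϖ : ϖ ^ (p ^ 2 - 1) = -(p : Qbar)) {g : GQ} (hg : g ∈ Iq p) (h : GQ) :
    (g * h) ϖ / ϖ = (g ϖ / ϖ) * (h ϖ / ϖ) := by
  have h0 := pi_ne_zero hϖ
  have h1 : g (h ϖ / ϖ) = h ϖ / ϖ := map_root_of_mem_Iq e_coprime (theta_pow hϖ h) hg
  have h2 : h ϖ = (h ϖ / ϖ) * ϖ := by field_simp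
  have h3 : (g * h) ϖ = g (h ϖ) := rfl
  rw [h3]
  conv_lhs => rw [h2, map_mul, h1]
  field_simp

theorem theta_pow' (hϖ : ϖ ^ (p ^ 2 - 1) = -(p : Qbar)) {g : GQ} (hg : g ∈ Iq p) (n : ℕ) :
    (g ^ n) ϖ / ϖ = (g ϖ / ϖ) ^ n := by
  induction n with
  | zero =>
    rw [pow_zero, pow_zero, AlgEquiv.one_apply, div_self (pi_ne_zero hϖ)]
  | succ n ih => rw [pow_succ', theta_mul hϖ hg, ih, pow_succ']

theorem IL_le_Iq : IL p ϖ ≤ Iq p := inf_le_left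

theorem pi_mem_FL : ϖ ∈ FL p ϖ := mem_FL.mpr fun _ hs => (mem_IL.mp hs).2

/-- elements fixed by inertia lie in `FL`. -/
theorem mem_FL_of_fixed {x : Qbar} (hx : ∀ s ∈ Iq p, s x = x) : x ∈ FL p ϖ :=
  mem_FL.mpr fun s hs => hx s (IL_le_Iq hs)

/-- `IL` is normal in `D`: `g⁻¹ ϖ = η ϖ` with `η` a root of unity fixed by `s ∈ I`. -/
theorem IL_conj_mem (hϖ : ϖ ^ (p ^ 2 - 1) = -(p : Qbar)) {g s : GQ} (hg : g ∈ Dq p)
    (hs : s ∈ IL p ϖ) : g * s * g⁻¹ ∈ IL p ϖ := by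
  obtain ⟨hsI, hsϖ⟩ := mem_IL.mp hs
  refine mem_IL.mpr ⟨Iq_conj_mem p hg hsI, ?_⟩
  have h0 := pi_ne_zero hϖ
  have h1 : s (g⁻¹ ϖ / ϖ) = g⁻¹ ϖ / ϖ := map_root_of_mem_Iq e_coprime (theta_pow hϖ g⁻¹) hsI
  have h2 : g⁻¹ ϖ = (g⁻¹ ϖ / ϖ) * ϖ := by field_simp
  have h3 : s (g⁻¹ ϖ) = g⁻¹ ϖ := by
    conv_lhs => rw [h2, map_mul, h1, hsϖ]
    exact h2.symm
  have h4 : (g * s * g⁻¹) ϖ = g (s (g⁻¹ ϖ)) := rfl
  rw [h4, h3, ← AlgEquiv.mul_apply, mul_inv_cancel, AlgEquiv.one_apply]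

theorem map_mem_FL (hϖ : ϖ ^ (p ^ 2 - 1) = -(p : Qbar)) {g : GQ} (hg : g ∈ Dq p) {x : Qbar}
    (hx : x ∈ FL p ϖ) : g x ∈ FL p ϖ := by
  refine mem_FL.mpr fun s hs => ?_
  have h1 : g⁻¹ * s * g⁻¹⁻¹ ∈ IL p ϖ := IL_conj_mem hϖ ((Dq p).inv_mem hg) hs
  have h2 := mem_FL.mp hx _ h1
  rw [inv_inv] at h2
  have h3 : (g⁻¹ * s * g) x = g⁻¹ (s (g x)) := rfl
  rw [h3] at h2
  have h4 : g (g⁻¹ (s (g x))) = s (g x) := by
    rw [← AlgEquiv.mul_apply, mul_inv_cancel, AlgEquiv.one_apply]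
  rw [← h4, h2]

/-- if `θ(g0)` is a primitive root, every `g ∈ I` is `g0 ^ i * s`, `s ∈ IL`, `i < p²-1`
(`IsPrimitiveRoot.eq_pow_of_pow_eq_one`, `theta_mul`, `theta_pow'`). -/
theorem exists_pow_mul (hϖ : ϖ ^ (p ^ 2 - 1) = -(p : Qbar)) {g0 : GQ} (hg0 : g0 ∈ Iq p)
    (hprim : IsPrimitiveRoot (g0 ϖ / ϖ) (p ^ 2 - 1)) {g : GQ} (hg : g ∈ Iq p) :
    ∃ i < p ^ 2 - 1, ∃ s ∈ IL p ϖ, g = g0 ^ i * s := by
  have : NeZero (p ^ 2 - 1) := ⟨(e_pos (p := p)).ne'⟩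
  obtain ⟨i, hi, hig⟩ := hprim.eq_pow_of_pow_eq_one (theta_pow hϖ g)
  have h0 := pi_ne_zero hϖ
  have hgi : g0 ^ i ∈ Iq p := (Iq p).pow_mem hg0 i
  have hmul : g = g0 ^ i * ((g0 ^ i)⁻¹ * g) := by group
  refine ⟨i, hi, (g0 ^ i)⁻¹ * g, mem_IL.mpr ⟨(Iq p).mul_mem ((Iq p).inv_mem hgi) hg, ?_⟩, hmul⟩
  have h1 := theta_mul hϖ hgi ((g0 ^ i)⁻¹ * g)
  rw [← hmul, theta_pow' hϖ hg0, hig] at h1
  have h2 : g ϖ / ϖ ≠ 0 := by
    intro h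
    have := theta_pow hϖ g
    rw [h, zero_pow (e_pos (p := p)).ne'] at this
    exact zero_ne_one this
  have h3 : ((g0 ^ i)⁻¹ * g) ϖ / ϖ = 1 := by
    have : (g ϖ / ϖ) * 1 = (g ϖ / ϖ) * (((g0 ^ i)⁻¹ * g) ϖ / ϖ) := by rw [mul_one]; exact h1
    exact (mul_left_cancel₀ h2 this).symm
  rwa [div_eq_one_iff_eq h0] at h3

theorem pow_e_mem_IL (hϖ : ϖ ^ (p ^ 2 - 1) = -(p : Qbar)) {g : GQ} (hg : g ∈ Iq p) :
    g ^ (p ^ 2 - 1) ∈ IL p ϖ := by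
  refine mem_IL.mpr ⟨(Iq p).pow_mem hg _, ?_⟩
  have h1 := theta_pow' hϖ hg (p ^ 2 - 1)
  rw [theta_pow hϖ g, div_eq_one_iff_eq (pi_ne_zero hϖ)] at h1
  exact h1

/-! ### PiB -/

/-- **`K^nr(ϖ)/K^nr` has degree `p²-1`**: some `g0 ∈ I` has `θ(g0)` primitive.
Proof.  `θ : I → μ_e(Qbar)`, `e = p²-1`, is a homomorphism (`theta_mul`); let `d` be the exponent (= order) of
its image, a subgroup of the cyclic group `μ_e`; `d ∣ e`.  Then `ϖ^d` is fixed by `I`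
(`g (ϖ^d) = θ(g)^d ϖ^d`), so `|ϖ|^d ∈ p^ℤ` (`nrm_of_unramified` for `E = ℚ⟮ϖ^d⟯`), while `|ϖ|^e = p⁻¹` and
`0 < d ≤ e`: so `d = e`.  A subgroup of order `e` of `μ_e` is everything, and contains a primitive root.
(Concretely: fix a primitive root `ξ` (`cyclo_exists_primitiveRoot`), write `θ(g) = ξ^{a(g)}`; let `d' = gcd` of `e`
and all `a(g)` ...; or use `IsCyclic`/`Subgroup.card` API on `rootsOfUnity`.) -/
theorem exists_prim (hϖ : ϖ ^ (p ^ 2 - 1) = -(p : Qbar)) :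
    ∃ g0 ∈ Iq p, IsPrimitiveRoot (g0 ϖ / ϖ) (p ^ 2 - 1) := by
  have he : 0 < p ^ 2 - 1 := e_pos
  have : NeZero (p ^ 2 - 1) := ⟨he.ne'⟩
  have hϖ0 : ϖ ≠ 0 := pi_ne_zero hϖ
  have hg0 : ∀ g : GQ, g ϖ / ϖ ≠ 0 := fun g =>
    div_ne_zero (by simpa using hϖ0) hϖ0
  -- the homomorphism `θ`
  let θ : Iq p →* Qbarˣ :=
    { toFun := fun g => Units.mk0 ((g : GQ) ϖ / ϖ) (hg0 g)
      map_one' := by
        ext
        simp [hϖ0]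
      map_mul' := fun g h => by
        ext
        simpa using theta_mul hϖ g.2 (h : GQ) }
  have hθval : ∀ g : Iq p, ((θ g : Qbarˣ) : Qbar) = (g : GQ) ϖ / ϖ := fun g => rfl
  have hθ : ∀ g, θ g ∈ rootsOfUnity (p ^ 2 - 1) Qbar := by
    intro g
    rw [mem_rootsOfUnity]
    ext
    rw [Units.val_pow_eq_pow_val, hθval, Units.val_one]
    exact theta_pow hϖ g
  let θ' : Iq p →* rootsOfUnity (p ^ 2 - 1) Qbar := θ.codRestrict _ hθ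
  have hcyc : IsCyclic θ'.range := inferInstance
  obtain ⟨⟨ζ, g0, rfl⟩, hgen⟩ := hcyc.exists_generator
  have hord : orderOf (θ' g0) = orderOf ((g0 : GQ) ϖ / ϖ) := by
    rw [← hθval, orderOf_units, ← Subgroup.orderOf_coe]
    rfl
  set d := orderOf ((g0 : GQ) ϖ / ϖ) with hd
  have hpow : ∀ g : Iq p, ((g : GQ) ϖ / ϖ) ^ d = 1 := by
    intro g
    obtain ⟨k, hk⟩ := Subgroup.mem_zpowers_iff.mp (hgen ⟨θ' g, g, rfl⟩)
    have hk' : (θ' g0) ^ k = θ' g := by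
      have := congrArg Subtype.val hk
      simpa using this
    have h1 : (θ' g) ^ d = 1 := by
      rw [← hk', ← zpow_natCast, ← zpow_mul, mul_comm, zpow_mul, zpow_natCast, ← hord,
        pow_orderOf_eq_one, one_zpow]
    have h2 := congrArg (fun x : rootsOfUnity (p ^ 2 - 1) Qbar => ((x : Qbarˣ) : Qbar)) h1
    simp only [SubmonoidClass.coe_pow, Units.val_pow_eq_pow_val, OneMemClass.coe_one,
      Units.val_one] at h2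
    exact h2
  -- `ϖ ^ d` is fixed by inertia
  have hfix : ∀ g ∈ Iq p, g (ϖ ^ d) = ϖ ^ d := by
    intro g hg
    have h1 := hpow ⟨g, hg⟩
    rw [div_pow, div_eq_one_iff_eq (pow_ne_zero d hϖ0)] at h1
    rw [map_pow]
    exact h1
  have := cyclo_finiteDimensional_adjoin (ϖ ^ d)
  obtain ⟨k, hk⟩ := nrm_of_unramified (q := p) (IntermediateField.adjoin ℚ {ϖ ^ d} : NF)
    (fun g hg => cyclo_mem_fixingSubgroup_adjoin (hfix g hg))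
    (IntermediateField.mem_adjoin_simple_self ℚ (ϖ ^ d)) (pow_ne_zero d hϖ0)
  have hp1 : (1 : ℝ) < p := by exact_mod_cast (Fact.out : p.Prime).one_lt
  have hp0 : (0 : ℝ) < p := by linarith
  have hkey : (p : ℝ) ^ (k * ((p ^ 2 - 1 : ℕ) : ℤ)) = (p : ℝ) ^ (-(d : ℤ)) := by
    rw [zpow_mul, ← hk, nrm_pow, zpow_natCast, ← pow_mul, mul_comm, pow_mul, nrm_pi_pow hϖ,
      zpow_neg, zpow_natCast, inv_pow]
  have hkd : k * ((p ^ 2 - 1 : ℕ) : ℤ) = -(d : ℤ) :=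
    zpow_right_injective₀ hp0 hp1.ne' hkey
  have hdvd1 : (p ^ 2 - 1) ∣ d := by
    have : ((p ^ 2 - 1 : ℕ) : ℤ) ∣ (d : ℤ) := ⟨-k, by linarith⟩
    exact_mod_cast this
  have hdvd2 : d ∣ (p ^ 2 - 1) := orderOf_dvd_of_pow_eq_one (theta_pow hϖ g0)
  have hde : d = p ^ 2 - 1 := Nat.dvd_antisymm hdvd2 hdvd1
  refine ⟨g0, g0.2, ?_⟩
  rw [← hde]
  exact IsPrimitiveRoot.orderOf _

/-! ### PiC -/

/-- the norm `∏_{i<e} g0^i x` is fixed by inertia. -/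
theorem Pi_norm_fixed (hϖ : ϖ ^ (p ^ 2 - 1) = -(p : Qbar)) {g0 : GQ} (hg0 : g0 ∈ Iq p)
    (hprim : IsPrimitiveRoot (g0 ϖ / ϖ) (p ^ 2 - 1)) {x : Qbar} (hx : x ∈ FL p ϖ)
    {g : GQ} (hg : g ∈ Iq p) :
    g (∏ i ∈ Finset.range (p ^ 2 - 1), (g0 ^ i) x) = ∏ i ∈ Finset.range (p ^ 2 - 1), (g0 ^ i) x := by
  classical
  have hϖ0 := pi_ne_zero hϖ
  have key : ∀ i : ℕ, ∃ j < p ^ 2 - 1, g ((g0 ^ i) x) = (g0 ^ j) x ∧
      (g0 ϖ / ϖ) ^ j = (g ϖ / ϖ) * (g0 ϖ / ϖ) ^ i := by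
    intro i
    have hgi : g * g0 ^ i ∈ Iq p := (Iq p).mul_mem hg ((Iq p).pow_mem hg0 i)
    obtain ⟨j, hj, s, hs, hgs⟩ := exists_pow_mul hϖ hg0 hprim hgi
    refine ⟨j, hj, ?_, ?_⟩
    · have h1 : g ((g0 ^ i) x) = (g * g0 ^ i) x := rfl
      rw [h1, hgs]
      have h2 : (g0 ^ j * s) x = (g0 ^ j) (s x) := rfl
      rw [h2, (mem_FL.1 hx) s hs]
    · have h1 := theta_mul hϖ hg (g0 ^ i)
      rw [theta_pow' hϖ hg0, hgs, theta_mul hϖ ((Iq p).pow_mem hg0 j) s, theta_pow' hϖ hg0,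
        (mem_IL.1 hs).2, div_self hϖ0, mul_one] at h1
      exact h1
  choose σ hσlt hσx hσθ using key
  have hθg : g ϖ / ϖ ≠ 0 := div_ne_zero (by simpa using hϖ0) hϖ0
  have hinj : Set.InjOn σ (Finset.range (p ^ 2 - 1) : Set ℕ) := by
    intro i hi j hj hij
    have h1 : (g ϖ / ϖ) * (g0 ϖ / ϖ) ^ i = (g ϖ / ϖ) * (g0 ϖ / ϖ) ^ j := by
      rw [← hσθ i, ← hσθ j, hij]
    exact hprim.pow_inj (Finset.mem_range.1 hi) (Finset.mem_range.1 hj) (mul_left_cancel₀ hθg h1)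
  have himg : (Finset.range (p ^ 2 - 1)).image σ = Finset.range (p ^ 2 - 1) := by
    apply Finset.eq_of_subset_of_card_le
    · intro j hj
      obtain ⟨i, -, rfl⟩ := Finset.mem_image.1 hj
      exact Finset.mem_range.2 (hσlt i)
    · rw [Finset.card_image_of_injOn hinj]
  rw [map_prod]
  conv_rhs => rw [← himg]
  rw [Finset.prod_image hinj]
  exact Finset.prod_congr rfl (fun i _ => hσx i)

/-- **the value group of `FL` is `|ϖ|^ℤ`.**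
Proof.  `g0` from `exists_prim`, `e = p²-1`, `N := ∏_{i<e} g0^i x`.  `N` is fixed by `I`: for `g ∈ I`,
`g * g0^i = g0^(m+i) * s'` with `s' ∈ IL` (`exists_pow_mul`, `IL_conj_mem`) and `g0^e ∈ IL`, so `g` permutes the
factors (`i ↦ (m+i) mod e`).  `|N| = |x|^e` (`nrm_map_of_mem_Dq`).  `nrm_of_unramified` (`E = ℚ⟮N⟯`): `|x|^e = p^m
= (|ϖ|^e)^(-m)`; take `e`-th roots (`pow_left_injective`/`zpow`). -/
theorem exists_zpow_of_mem_FL (hϖ : ϖ ^ (p ^ 2 - 1) = -(p : Qbar)) {x : Qbar} (hx : x ∈ FL p ϖ)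
    (h0 : x ≠ 0) : ∃ n : ℤ, nrm p x = nrm p ϖ ^ n := by
  obtain ⟨g0, hg0, hprim⟩ := exists_prim hϖ
  set N : Qbar := ∏ i ∈ Finset.range (p ^ 2 - 1), (g0 ^ i) x with hN
  have hN0 : N ≠ 0 := by
    rw [hN, Finset.prod_ne_zero_iff]
    intro i _
    exact (map_ne_zero_iff (g0 ^ i) (g0 ^ i).injective).2 h0
  have hnN : nrm p N = nrm p x ^ (p ^ 2 - 1) := by
    rw [hN, nrm_prod]
    rw [Finset.prod_congr rfl (fun i _ =>
      nrm_map_of_mem_Dq p (Iq_le_Dq p ((Iq p).pow_mem hg0 i)) x)]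
    rw [Finset.prod_const, Finset.card_range]
  have hfd := cyclo_finiteDimensional_adjoin N
  have hI : Iq p ≤ (IntermediateField.adjoin ℚ {N} : NF).fixingSubgroup := fun g hg =>
    cyclo_mem_fixingSubgroup_adjoin (Pi_norm_fixed hϖ hg0 hprim hx hg)
  obtain ⟨k, hk⟩ := nrm_of_unramified (q := p) (IntermediateField.adjoin ℚ {N} : NF) hI
    (IntermediateField.mem_adjoin_simple_self ℚ N) hN0
  refine ⟨-k, ?_⟩
  have hr := nrm_pi_pow hϖ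
  have hrpos := nrm_pi_pos hϖ
  have he : p ^ 2 - 1 ≠ 0 := (e_pos (p := p)).ne'
  rw [← pow_left_inj₀ (nrm_nonneg p x) (zpow_nonneg hrpos.le _) he, ← hnN, hk, ← zpow_natCast,
    ← zpow_mul, mul_comm, zpow_mul, zpow_natCast, hr, zpow_neg, inv_zpow, inv_inv]

/-- discreteness. -/
theorem nrm_le_pow_succ (hϖ : ϖ ^ (p ^ 2 - 1) = -(p : Qbar)) {x : Qbar} (hx : x ∈ FL p ϖ) {j : ℕ}
    (h : nrm p x < nrm p ϖ ^ j) : nrm p x ≤ nrm p ϖ ^ (j + 1) := by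
  have hrpos := nrm_pi_pos hϖ
  have hr1 := nrm_pi_lt_one hϖ
  by_cases h0 : x = 0
  · rw [h0, nrm_zero]
    exact (pow_pos hrpos _).le
  obtain ⟨n, hn⟩ := exists_zpow_of_mem_FL hϖ hx h0
  rw [hn, ← zpow_natCast] at h ⊢
  rw [zpow_lt_zpow_iff_right_of_lt_one₀ hrpos hr1] at h
  apply zpow_le_zpow_right_of_le_one₀ hrpos hr1.le
  push_cast
  omega

end Fermat.Agent.S56.F.C

end
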