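/-
S56 / F / C / GenA : formal properties of Kummer generators.          TASK S56/FC-GenA   (owner of the file: the claimer)

All proofs are short unfoldings of `Gen`, `chi`, `zt` (C/Defs).  `zt p = ((zeta p : Qbarˣ) : Qbar)`, `zeta_spec p : IsPrimitiveRoot (zeta p) p`
(S55/Arith/Defs; `IsPrimitiveRoot.coe_units_iff`), `cycloChar_spec`.
-/
import Fermat.Agent.S56.F.C.Pi

set_option autoImplicit false

noncomputable section

namespace Fermat.Agent.S56.F.C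

open Fermat.Agent.S55 Fermat.Agent.S55.Places ExtCitation Module Polynomial

variable {p : ℕ} [Fact p.Prime] {k : Type} [Field k] [Algebra (ZMod p) k] {ϖ : Qbar}

theorem zt_prim : IsPrimitiveRoot (zt p) p :=
  IsPrimitiveRoot.coe_units_iff.2 (zeta_spec p)

theorem zt_pow_p : zt p ^ p = 1 := zt_prim.pow_eq_one

theorem zt_ne_zero : zt p ≠ 0 := (zeta p).ne_zero

/-- `(a + b).val ≡ a.val + b.val mod p` (`ZMod.val_add`, `pow_mod`-style: `pow_eq_pow_mod _ zt_pow_p`). -/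
theorem zt_pow_val_add (a b : ZMod p) : zt p ^ (a + b).val = zt p ^ a.val * zt p ^ b.val := by
  rw [ZMod.val_add, ← pow_add, ← pow_eq_pow_mod _ zt_pow_p]

theorem zt_pow_val_mul (a b : ZMod p) : zt p ^ (a * b).val = (zt p ^ a.val) ^ b.val := by
  rw [ZMod.val_mul, ← pow_mul, ← pow_eq_pow_mod _ zt_pow_p]

/-- `IsPrimitiveRoot.pow_eq_one_iff_dvd`, `a.val < p`. -/
theorem zt_pow_val_eq_one_iff (a : ZMod p) : zt p ^ a.val = 1 ↔ a = 0 := by
  rw [zt_prim.pow_eq_one_iff_dvd]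
  constructor
  · intro h
    exact (ZMod.val_eq_zero a).1 (Nat.eq_zero_of_dvd_of_lt h (ZMod.val_lt a))
  · rintro rfl
    simp

/-- `cycloChar_spec p g (zeta p) (zeta_spec p).pow_eq_one`. -/
theorem map_zt (g : GQ) : g (zt p) = zt p ^ ((cycloChar p g : (ZMod p)ˣ) : ZMod p).val :=
  cycloChar_spec p g (zeta p) (zeta_spec p).pow_eq_one

/-- `M s = 1` gives `algebraMap (cycloChar s) = det 1 = 1`, so `cycloChar s = 1` (injectivity of `algebraMap (ZMod p) k`),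
then `map_zt`, `ZMod.val_one`. -/
theorem zt_fixed {M : GQ →* M2 k}
    (hdet : ∀ σ, (M σ).det = algebraMap (ZMod p) k ((cycloChar p σ : (ZMod p)ˣ) : ZMod p))
    (hker : ∀ s ∈ IL p ϖ, M s = 1) : ∀ s ∈ IL p ϖ, s (zt p) = zt p := by
  intro s hs
  have h1 := hdet s
  rw [hker s hs, Matrix.det_one] at h1
  have h2 : ((cycloChar p s : (ZMod p)ˣ) : ZMod p) = 1 := by
    apply (algebraMap (ZMod p) k).injective
    rw [← h1, map_one]
  rw [map_zt, h2, ZMod.val_one, pow_one]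

theorem chi_add_B (z : GQ → Ad0 p k) (B B' : Ad0 p k) (s : GQ) :
    chi z (B + B') s = chi z B s + chi z B' s := by
  unfold chi
  rw [map_add, LinearMap.add_apply]

theorem chi_add_z (z z' : GQ → Ad0 p k) (B : Ad0 p k) (s : GQ) :
    chi (z + z') B s = chi z B s + chi z' B s := by
  unfold chi
  rw [Pi.add_apply, map_add]

/-- `z` is additive on `IL` (`ad0 p M s = 1` there: `Subtype.ext`, `ad0_apply_coe`, `hker`, `map_inv`/`hker s⁻¹`). -/
theorem z_mul_of_mem_IL {M : GQ →* M2 k} (hker : ∀ s ∈ IL p ϖ, M s = 1) {z : GQ → Ad0 p k}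
    (hz : z ∈ Z1 Lall (ad0 p M)) {s : GQ} (hs : s ∈ IL p ϖ) (t : GQ) : z (s * t) = z t + z s := by
  have h1 := (mem_Z1.1 hz).1 s t
  have h2 : ad0 p M s (z t) = z t := by
    apply Subtype.ext
    rw [ad0_apply_coe, hker s hs, hker s⁻¹ (inv_mem hs), one_mul, mul_one]
  rw [h1, h2]

theorem chi_mul {M : GQ →* M2 k} (hker : ∀ s ∈ IL p ϖ, M s = 1) {z : GQ → Ad0 p k}
    (hz : z ∈ Z1 Lall (ad0 p M)) (B : Ad0 p k) {s : GQ} (hs : s ∈ IL p ϖ) (t : GQ) :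
    chi z B (s * t) = chi z B s + chi z B t := by
  unfold chi
  rw [z_mul_of_mem_IL hker hz hs t, map_add, add_comm]

variable {z z' : GQ → Ad0 p k} {B B' : Ad0 p k} {x x' : Qbar}

theorem Gen.mem (h : Gen ϖ z B x) : x ∈ FL p ϖ := h.1

theorem Gen.ne_zero (h : Gen ϖ z B x) : x ≠ 0 := by
  obtain ⟨-, y, hy0, hyx, -⟩ := h
  rw [← hyx]
  exact pow_ne_zero _ hy0

/-- `y y'`. -/
theorem Gen.mul (h : Gen ϖ z B x) (h' : Gen ϖ z B' x') : Gen ϖ z (B + B') (x * x') := by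
  obtain ⟨hx, y, hy0, hyx, hy⟩ := h
  obtain ⟨hx', y', hy0', hyx', hy'⟩ := h'
  refine ⟨mul_mem hx hx', y * y', mul_ne_zero hy0 hy0', by rw [mul_pow, hyx, hyx'],
    fun s hs => ?_⟩
  rw [map_mul, hy s hs, hy' s hs, chi_add_B, zt_pow_val_add]
  ring

/-- `y y'`. -/
theorem Gen.mul_z (h : Gen ϖ z B x) (h' : Gen ϖ z' B x') : Gen ϖ (z + z') B (x * x') := by
  obtain ⟨hx, y, hy0, hyx, hy⟩ := h
  obtain ⟨hx', y', hy0', hyx', hy'⟩ := h'
  refine ⟨mul_mem hx hx', y * y', mul_ne_zero hy0 hy0', by rw [mul_pow, hyx, hyx'],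
    fun s hs => ?_⟩
  rw [map_mul, hy s hs, hy' s hs, chi_add_z, zt_pow_val_add]
  ring

/-- `y w`. -/
theorem Gen.mul_pow (h : Gen ϖ z B x) {w : Qbar} (hw : w ∈ FL p ϖ) (hw0 : w ≠ 0) :
    Gen ϖ z B (x * w ^ p) := by
  obtain ⟨hx, y, hy0, hyx, hy⟩ := h
  refine ⟨mul_mem hx (pow_mem hw p), y * w, mul_ne_zero hy0 hw0, by rw [_root_.mul_pow, hyx],
    fun s hs => ?_⟩
  rw [map_mul, hy s hs, mem_FL.1 hw s hs, mul_assoc]

/-- `w = y'/y` is fixed by `IL`. -/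
theorem Gen.unique (h : Gen ϖ z B x) (h' : Gen ϖ z B x') :
    ∃ w ∈ FL p ϖ, w ≠ 0 ∧ x' = x * w ^ p := by
  obtain ⟨hx, y, hy0, hyx, hy⟩ := h
  obtain ⟨hx', y', hy0', hyx', hy'⟩ := h'
  refine ⟨y' / y, mem_FL.2 fun s hs => ?_, div_ne_zero hy0' hy0, ?_⟩
  · rw [map_div₀, hy s hs, hy' s hs]
    exact mul_div_mul_left _ _ (pow_ne_zero _ zt_ne_zero)
  · rw [← hyx, ← hyx', div_pow, mul_div_cancel₀ _ (pow_ne_zero _ hy0)]

/-- monotonicity of levels (`nrm_pi_lt_one`, `pow_le_pow_of_le_one`). -/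
theorem Lev.mono (hϖ : ϖ ^ (p ^ 2 - 1) = -(p : Qbar)) {i j : ℕ} (hij : i ≤ j) (h : Lev ϖ z B j) :
    Lev ϖ z B i := by
  obtain ⟨x, hx, hle⟩ := h
  exact ⟨x, hx, hle.trans (pow_le_pow_of_le_one (nrm_nonneg p _) (nrm_pi_lt_one hϖ).le hij)⟩

end Fermat.Agent.S56.F.C

end
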