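/-
S56 / F / C / GenB : existence of Kummer generators (Hilbert 90).          TASK S56/FC-GenB
-/
import Fermat.Agent.S56.F.C.GenA
import Fermat.Agent.S55.Arith.H90

set_option autoImplicit false

noncomputable section

namespace Fermat.Agent.S56.F.C

open Fermat.Agent.S55 Fermat.Agent.S55.Places ExtCitation Module Polynomial

variable {p : ℕ} [Fact p.Prime] {k : Type} [Field k] [Algebra (ZMod p) k] {ϖ : Qbar}

/-- **Kummer theory over `FL`.**
Proof.  `c : ↥(IL p ϖ) → Additive Qbarˣ`, `c s := iota p (chi z B s)` (`iota_apply : iota p a = ofMul (zeta p ^ a.val)`).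
`c ∈ Z1 (Lall.sub (IL p ϖ)) (rsub Gm (IL p ϖ))` (`mem_Z1`): cocycle identity from `chi_mul` and `Gm s (iota p a) = iota p a` for `s ∈ IL`
(`iota_compat`, `cycloChar s = 1` as in `zt_fixed`; or directly with `zt_fixed`, `Units.ext`, `Gm_apply`);
level: if `z (g * s) = z g` for `s ∈ U` (`(mem_Z1.1 hz).2`), use `U.subgroupOf (IL p ϖ)`, open for `Lall.sub` (see the def of `Levels.sub`,
S55/Coh/Defs; e.g. `⟨U, hU, le_rfl⟩`).   `h90_Gm (IL p ϖ)` + `mem_B1` give `β : Additive Qbarˣ` with `c s = Gm s β - β`.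
`y := (β.toMul : Qbar)`, `x := y ^ p`:  `s y = zt ^ (chi s).val * y`; `s x = (s y)^p = x` (`zt_pow_p`), so `x ∈ FL` (`mem_FL`). -/
theorem exists_gen {M : GQ →* M2 k}
    (hdet : ∀ σ, (M σ).det = algebraMap (ZMod p) k ((cycloChar p σ : (ZMod p)ˣ) : ZMod p))
    (hker : ∀ s ∈ IL p ϖ, M s = 1) {z : GQ → Ad0 p k} (hz : z ∈ Z1 Lall (ad0 p M)) (B : Ad0 p k) :
    ∃ x : Qbar, Gen ϖ z B x := by
  have hfix := zt_fixed hdet hker
  let c : ↥(IL p ϖ) → Additive Qbarˣ := fun s => iota p (chi z B s)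
  have hGm : ∀ (s : IL p ϖ) (a : ZMod p), Gm (s : GQ) (iota p a) = iota p a := by
    intro s a
    apply Additive.toMul.injective
    apply Units.ext
    rw [Gm_apply, iota_apply]
    change (s : GQ) (((zeta p ^ a.val : Qbarˣ)) : Qbar) = ((zeta p ^ a.val : Qbarˣ) : Qbar)
    rw [Units.val_pow_eq_pow_val, map_pow, hfix s s.2]
  have hc : c ∈ Z1 (Lall.sub (IL p ϖ)) (rsub Gm (IL p ϖ)) := by
    rw [mem_Z1]
    refine ⟨fun g h => ?_, ?_⟩
    · change iota p (chi z B ((g * h : IL p ϖ) : GQ))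
        = Gm (g : GQ) (iota p (chi z B h)) + iota p (chi z B g)
      rw [hGm, Subgroup.coe_mul, chi_mul hker hz B g.2, map_add, add_comm]
    · obtain ⟨U, hU, hUz⟩ := (mem_Z1.1 hz).2
      refine ⟨U.subgroupOf (IL p ϖ), ⟨U, hU, le_rfl⟩, fun g s hs => ?_⟩
      change iota p (chi z B ((g * s : IL p ϖ) : GQ)) = iota p (chi z B g)
      rw [Subgroup.coe_mul]
      unfold chi
      rw [hUz g s hs]
  obtain ⟨β, hβ⟩ := mem_B1.1 (h90_Gm (IL p ϖ) hc)
  set y : Qbar := ((β.toMul : Qbarˣ) : Qbar) with hy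
  have hy0 : y ≠ 0 := Units.ne_zero _
  have hsy : ∀ s ∈ IL p ϖ, s y = zt p ^ (chi z B s).val * y := by
    intro s hs
    have h1 := hβ ⟨s, hs⟩
    have h2 : (((c ⟨s, hs⟩).toMul : Qbarˣ) : Qbar) = s y / y := by
      rw [h1, toMul_sub, Units.val_div_eq_div_val]
      rfl
    have h3 : (((c ⟨s, hs⟩).toMul : Qbarˣ) : Qbar) = zt p ^ (chi z B s).val := by
      change (((iota p (chi z B s)).toMul : Qbarˣ) : Qbar) = _
      rw [iota_apply, toMul_ofMul, Units.val_pow_eq_pow_val]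
    rw [← h3, h2, div_mul_cancel₀ _ hy0]
  refine ⟨y ^ p, mem_FL.2 fun s hs => ?_, y, hy0, rfl, hsy⟩
  rw [map_pow, hsy s hs, mul_pow, ← pow_mul, mul_comm _ p, pow_mul, zt_pow_p, one_pow, one_mul]

end Fermat.Agent.S56.F.C

end
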