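/-
S56 / F / C / GenC : Galois equivariance of Kummer generators.          TASK S56/FC-GenC
-/
import Fermat.Agent.S56.F.C.GenA

set_option autoImplicit false

noncomputable section

namespace Fermat.Agent.S56.F.C

open Fermat.Agent.S55 Fermat.Agent.S55.Places ExtCitation Module Polynomial

variable {p : ℕ} [Fact p.Prime] {k : Type} [Field k] [Algebra (ZMod p) k] {ϖ : Qbar}

/-- `z(g⁻¹ s g) = g⁻¹ z(s)` for `s` acting trivially:
`z(g⁻¹ (s g)) = g⁻¹ z(s g) + z(g⁻¹) = g⁻¹ (z g + z s) + z g⁻¹` (`z_mul_of_mem_IL`) and `0 = z(g⁻¹ g) = g⁻¹ z(g) + z(g⁻¹)`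
(`Z1.map_one` or the cocycle identity at `(1,1)`). -/
theorem z_conj {M : GQ →* M2 k} (hker : ∀ s ∈ IL p ϖ, M s = 1) {z : GQ → Ad0 p k}
    (hz : z ∈ Z1 Lall (ad0 p M)) {s : GQ} (hs : s ∈ IL p ϖ) (g : GQ) :
    z (g⁻¹ * s * g) = ad0 p M g⁻¹ (z s) := by
  have hc := (mem_Z1.mp hz).1
  have h1 : z 1 = 0 := by
    have h := hc 1 1
    rw [mul_one, map_one, Module.End.one_apply] at h
    exact left_eq_add.mp h
  have h2 : ad0 p M g⁻¹ (z g) + z g⁻¹ = 0 := by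
    rw [← hc, inv_mul_cancel, h1]
  rw [mul_assoc, hc, z_mul_of_mem_IL hker hz hs, map_add]
  calc ad0 p M g⁻¹ (z g) + ad0 p M g⁻¹ (z s) + z g⁻¹
      = ad0 p M g⁻¹ (z s) + (ad0 p M g⁻¹ (z g) + z g⁻¹) := by abel
    _ = ad0 p M g⁻¹ (z s) := by rw [h2, add_zero]

/-- `χ_{T(g) B}(s) = ω(g) χ_B(g⁻¹ s g)`.  Apply `TW.dualT_trForm M hdet g B` to `z s`
(`Representation.twist_apply_apply`, `Representation.dual_apply`, `Module.Dual.transpose_apply`, see the proof of `dualT_trForm`), then `z_conj`. -/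
theorem chi_T {M : GQ →* M2 k}
    (hdet : ∀ σ, (M σ).det = algebraMap (ZMod p) k ((cycloChar p σ : (ZMod p)ˣ) : ZMod p))
    (hker : ∀ s ∈ IL p ϖ, M s = 1) {z : GQ → Ad0 p k}
    (hz : z ∈ Z1 Lall (ad0 p M)) (B : Ad0 p k) {s : GQ} (hs : s ∈ IL p ϖ) (g : GQ) :
    chi z (T M g B) s = ((cycloChar p g : (ZMod p)ˣ) : ZMod p) * chi z B (g⁻¹ * s * g) := by
  have h := LinearMap.congr_fun (TW.dualT_trForm M hdet g B) (z s)
  rw [Representation.twist_apply_apply, LinearMap.smul_apply, Representation.dual_apply,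
    Module.Dual.transpose_apply, LinearMap.comp_apply] at h
  rw [chi, chi, T, ← h, z_conj hker hz hs g]
  rfl

/-- **Equivariance.**  If `y^p = x`, `s y = ζ^{χ_B(s)} y`, then `g y` is a `p`-th root of `g x` and, for `s ∈ IL`, `s' := g⁻¹ s g ∈ IL`
(`IL_conj_mem hϖ (inv_mem hg) hs`, `inv_inv`), `s (g y) = g (s' y) = g (ζ^{χ_B(s')} y) = (g ζ)^{χ_B(s')} g y = ζ^{ω(g) χ_B(s')} g y`
(`map_zt`, `zt_pow_val_mul`, `mul_comm`), `= ζ^{χ_{T(g)B}(s)} g y` (`chi_T`).   `g x ∈ FL`: `map_mem_FL`. -/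
theorem Gen.map (hϖ : ϖ ^ (p ^ 2 - 1) = -(p : Qbar)) {M : GQ →* M2 k}
    (hdet : ∀ σ, (M σ).det = algebraMap (ZMod p) k ((cycloChar p σ : (ZMod p)ˣ) : ZMod p))
    (hker : ∀ s ∈ IL p ϖ, M s = 1) {z : GQ → Ad0 p k}
    (hz : z ∈ Z1 Lall (ad0 p M)) {B : Ad0 p k} {x : Qbar} {g : GQ} (hg : g ∈ Dq p)
    (h : Gen ϖ z B x) : Gen ϖ z (T M g B) (g x) := by
  obtain ⟨hx, y, hy0, hyx, hy⟩ := h
  refine ⟨map_mem_FL hϖ hg hx, g y, ?_, ?_, ?_⟩
  · exact (map_ne_zero_iff g g.injective).mpr hy0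
  · rw [← map_pow, hyx]
  · intro s hs
    have hs' : g⁻¹ * s * g ∈ IL p ϖ := by
      have := IL_conj_mem hϖ ((Dq p).inv_mem hg) hs
      rwa [inv_inv] at this
    have h1 : s (g y) = g ((g⁻¹ * s * g) y) := by
      have h2 : (g⁻¹ * s * g) y = g⁻¹ (s (g y)) := rfl
      have h3 : g (g⁻¹ (s (g y))) = (g * g⁻¹) (s (g y)) := rfl
      rw [h2, h3, mul_inv_cancel, AlgEquiv.one_apply]
    rw [h1, hy _ hs', map_mul, map_pow, map_zt, chi_T hdet hker hz B hs g, zt_pow_val_mul]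

end Fermat.Agent.S56.F.C

end
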