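/-
S56 / F / C / Teich : the unit filtration of `FL = K^nr(ϖ)` modulo `p`-th powers ("level calculus").
`r = |ϖ|`, `e = p²-1`, `|p| = r^e`, `|ζ_p - 1| = r^(p+1)`, `p e/(p-1) = p²+p`.      TASK S56/FC-Teich.
Black boxes: `Rd.lean`, `Pi.lean` and the imported files.
-/
import Fermat.Agent.S56.F.C.Rd
import Fermat.Agent.S56.F.C.Pi

set_option autoImplicit false

noncomputable section

namespace Fermat.Agent.S56.F.C

open Fermat.Agent.S55 Fermat.Agent.S55.Places

variable {p : ℕ} [Fact p.Prime] {ϖ : Qbar}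

/-! ### LevE (first part, used by LevC) : Teichmüller representatives -/

/-- every unit is congruent to a root of unity `ζ'` of order prime to `p`, which is the `p`-th power of a
root of unity `ζ''` fixed by inertia.  Proof: `exists_residue_degree (ℚ⟮u⟯)` (`S55/Places/Residue.lean`) gives
`n > 0` with `|u^(p^n) - u| < 1`; `exists_root_near`; `ζ'' := ζ'^(p^(n-1))`; `map_root_of_mem_Iq`. -/
theorem exists_teich {u : Qbar} (hu : nrm p u = 1) :
    ∃ ζ' ζ'' : Qbar, (∀ s ∈ Iq p, s ζ'' = ζ'') ∧ ζ'' ^ p = ζ' ∧ nrm p ζ'' = 1 ∧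
      nrm p (u - ζ') < 1 := by
  have hcl := isAlgClosureQbar
  have halg : Algebra.IsAlgebraic ℚ Qbar := IsAlgClosure.isAlgebraic
  have hfd : FiniteDimensional ℚ (IntermediateField.adjoin ℚ {u}) :=
    IntermediateField.adjoin.finiteDimensional (halg.isAlgebraic u).isIntegral
  obtain ⟨n, hn, hJ⟩ := exists_residue_degree p (IntermediateField.adjoin ℚ {u})
  have h1 := (hJ n).2 dvd_rfl u (IntermediateField.mem_adjoin_simple_self ℚ u) hu.le
  obtain ⟨ζ', hζ', hlt⟩ := exists_root_near hn hu h1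
  have hcop : Nat.Coprime (p ^ n - 1) p := Roots_coprime hn
  refine ⟨ζ', ζ' ^ (p ^ (n - 1)), ?_, ?_, ?_, hlt⟩
  · intro s hs
    refine map_root_of_mem_Iq hcop ?_ hs
    rw [← pow_mul, mul_comm, pow_mul, hζ', one_pow]
  · have h2 : 1 < p ^ n := Roots_one_lt_pow hn
    have h3 : p ^ n = (p ^ n - 1) + 1 := by omega
    rw [← pow_mul, ← pow_succ, Nat.sub_add_cancel hn, h3, pow_succ, hζ', one_mul]
  · rw [nrm_pow, nrm_eq_one_of_pow_eq_one p (Roots_pos_of_coprime hcop) hζ', one_pow]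

end Fermat.Agent.S56.F.C

end
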