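/-
S56 / F / C / LevE : the unit filtration of `FL = K^nr(ϖ)` modulo `p`-th powers ("level calculus").
`r = |ϖ|`, `e = p²-1`, `|p| = r^e`, `|ζ_p - 1| = r^(p+1)`, `p e/(p-1) = p²+p`.      TASK S56/FC-LevE.
Black boxes: `Rd.lean`, `Pi.lean` and the imported files.
-/
import Fermat.Agent.S56.F.C.Teich

set_option autoImplicit false

noncomputable section

namespace Fermat.Agent.S56.F.C

open Fermat.Agent.S55 Fermat.Agent.S55.Places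

variable {p : ℕ} [Fact p.Prime] {ϖ : Qbar}

/-! ### LevE (second part) : the valuation, level `0 → 1` -/

/-- the normalised valuation of `FL` (junk outside `FL^×`). -/
def vL (p : ℕ) [Fact p.Prime] (ϖ : Qbar) (x : Qbar) : ℤ :=
  open Classical in if h : ∃ n : ℤ, nrm p x = nrm p ϖ ^ n then h.choose else 0

theorem vL_spec (hϖ : ϖ ^ (p ^ 2 - 1) = -(p : Qbar)) {x : Qbar} (hx : x ∈ FL p ϖ) (h0 : x ≠ 0) :
    nrm p x = nrm p ϖ ^ vL p ϖ x := by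
  have h := exists_zpow_of_mem_FL hϖ hx h0
  unfold vL
  rw [dif_pos h]
  exact h.choose_spec

theorem vL_eq (hϖ : ϖ ^ (p ^ 2 - 1) = -(p : Qbar)) {x : Qbar} {n : ℤ}
    (h : nrm p x = nrm p ϖ ^ n) : vL p ϖ x = n := by
  have h' : ∃ n : ℤ, nrm p x = nrm p ϖ ^ n := ⟨n, h⟩
  have h1 : nrm p x = nrm p ϖ ^ vL p ϖ x := by
    unfold vL
    rw [dif_pos h']
    exact h'.choose_spec
  exact zpow_right_injective₀ (nrm_pi_pos hϖ) (nrm_pi_lt_one hϖ).ne (h1.symm.trans h)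

theorem vL_mul (hϖ : ϖ ^ (p ^ 2 - 1) = -(p : Qbar)) {x x' : Qbar} (hx : x ∈ FL p ϖ) (h0 : x ≠ 0)
    (hx' : x' ∈ FL p ϖ) (h0' : x' ≠ 0) : vL p ϖ (x * x') = vL p ϖ x + vL p ϖ x' := by
  apply vL_eq hϖ
  rw [nrm_mul, vL_spec hϖ hx h0, vL_spec hϖ hx' h0', ← zpow_add₀ (nrm_pi_pos hϖ).ne']

theorem vL_pow (hϖ : ϖ ^ (p ^ 2 - 1) = -(p : Qbar)) {x : Qbar} (hx : x ∈ FL p ϖ) (h0 : x ≠ 0)
    (n : ℕ) : vL p ϖ (x ^ n) = n * vL p ϖ x := by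
  apply vL_eq hϖ
  have h1 := vL_spec hϖ hx h0
  rw [nrm_pow, mul_comm, zpow_mul, zpow_natCast, ← h1]

theorem vL_map {g : GQ} (hg : g ∈ Dq p) (x : Qbar) : vL p ϖ (g x) = vL p ϖ x := by
  have key : ∀ a b : ℝ, a = b →
      (open Classical in if h : ∃ n : ℤ, a = nrm p ϖ ^ n then h.choose else 0) =
      (open Classical in if h : ∃ n : ℤ, b = nrm p ϖ ^ n then h.choose else 0) := by
    rintro a b rfl
    rfl
  exact key _ _ (nrm_map_of_mem_Dq p hg x)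

/-- Proof.  `vL x = p n`; `x' := x ϖ^(-p n)` is a unit of `FL`; `ζ', ζ''` from `exists_teich x'`;
`w := ϖ^(-n) ζ''⁻¹ ∈ FL`; `x w^p = x'/ζ'`, `|x'/ζ' - 1| < 1`; `nrm_le_pow_succ` with `j = 0`. -/
theorem exists_mul_pow_le_one (hϖ : ϖ ^ (p ^ 2 - 1) = -(p : Qbar)) {x : Qbar} (hx : x ∈ FL p ϖ)
    (h0 : x ≠ 0) (hv : (p : ℤ) ∣ vL p ϖ x) :
    ∃ w ∈ FL p ϖ, w ≠ 0 ∧ nrm p (x * w ^ p - 1) ≤ nrm p ϖ ^ 1 := by
  obtain ⟨n, hn⟩ := hv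
  have hϖ0 := pi_ne_zero hϖ
  have hr0 := (nrm_pi_pos hϖ).ne'
  have hu : nrm p (x * ϖ ^ (-((p : ℤ) * n))) = 1 := by
    rw [nrm_mul, nrm_zpow, vL_spec hϖ hx h0, hn, ← zpow_add₀ hr0, add_neg_cancel, zpow_zero]
  obtain ⟨ζ', ζ'', hfix, hpow, hnrm, hlt⟩ := exists_teich hu
  have hζ0 : ζ'' ≠ 0 := by
    intro h
    rw [h, nrm_zero] at hnrm
    exact zero_ne_one hnrm
  have hζ'0 : ζ' ≠ 0 := by
    rw [← hpow]
    exact pow_ne_zero _ hζ0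
  have hζ'n : nrm p ζ' = 1 := by
    rw [← hpow, nrm_pow, hnrm, one_pow]
  have hwmem : ϖ ^ (-n) * ζ''⁻¹ ∈ FL p ϖ :=
    (FL p ϖ).mul_mem (zpow_mem pi_mem_FL _) ((FL p ϖ).inv_mem (mem_FL_of_fixed hfix))
  refine ⟨ϖ ^ (-n) * ζ''⁻¹, hwmem, mul_ne_zero (zpow_ne_zero _ hϖ0) (inv_ne_zero hζ0), ?_⟩
  have e1 : x * (ϖ ^ (-n) * ζ''⁻¹) ^ p - 1 = (x * ϖ ^ (-((p : ℤ) * n)) - ζ') / ζ' := by
    have e2 : (ϖ ^ (-n)) ^ p = ϖ ^ (-((p : ℤ) * n)) := by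
      rw [← zpow_natCast (ϖ ^ (-n)) p, ← zpow_mul]
      congr 1
      ring
    rw [mul_pow, inv_pow, hpow, e2, sub_div, div_self hζ'0, div_eq_mul_inv, mul_assoc]
  apply nrm_le_pow_succ hϖ (j := 0)
  · exact (FL p ϖ).sub_mem ((FL p ϖ).mul_mem hx (pow_mem hwmem p)) (FL p ϖ).one_mem
  · rw [e1, nrm_div, hζ'n, div_one, pow_zero]
    exact hlt

end Fermat.Agent.S56.F.C

end
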