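/-
S56 / F / C / Theta : `θ0` has exact order `p² - 1` in the residue field; arithmetic of the special exponents.
TASK S56/FC-Theta
-/
import Fermat.Agent.S56.F.C.Pi
import Fermat.Agent.S56.F.C.Rd
import Fermat.Agent.S55.Places.Roots

set_option autoImplicit false

noncomputable section

namespace Fermat.Agent.S56.F.C

open Fermat.Agent.S55 Fermat.Agent.S55.Places ExtCitation Module Polynomial

variable {p : ℕ} [Fact p.Prime] {k : Type} [Field k] [Algebra (ZMod p) k] {ϖ : Qbar}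
  {M : GQ →* M2 k}

/-- reduction is injective on roots of unity of order prime to `p`:  `rd (ξ^i) = rd ξ ^ i` (`rd_pow`, `|ξ| = 1`: `nrm_theta` or
`nrm_eq_one_of_pow_eq_one`); `rd ξ ^ i = 1 = rd 1` gives `|ξ^i - 1| < 1` (`rd_eq_iff`), so `ξ^i = 1` (`eq_of_nrm_sub_lt_one e_coprime`), so `e ∣ i`.
Use `IsPrimitiveRoot.mk_of_lt` or `IsPrimitiveRoot.iff_def`. -/
theorem Setup.θ0_prim (S : Setup p M ϖ) : IsPrimitiveRoot S.θ0 (p ^ 2 - 1) := by
  have h1 : nrm p (S.g0 ϖ / ϖ) = 1 := nrm_theta S.hϖ S.g0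
  have hpow : ∀ l : ℕ, S.θ0 ^ l = rd p ((S.g0 ϖ / ϖ) ^ l) := fun l => (rd_pow h1.le l).symm
  rw [IsPrimitiveRoot.iff_def]
  refine ⟨?_, fun l hl => ?_⟩
  · rw [hpow, theta_pow S.hϖ, rd_one]
  · rw [hpow, ← rd_one (p := p), rd_eq_iff (by rw [nrm_pow, h1, one_pow])
      (by rw [nrm_one])] at hl
    have h2 : (S.g0 ϖ / ϖ) ^ l = 1 := by
      refine eq_of_nrm_sub_lt_one (e_coprime (p := p)) ?_ (one_pow _) hl
      rw [← pow_mul, mul_comm, pow_mul, theta_pow S.hϖ, one_pow]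
    exact S.prim.dvd_of_pow_eq_one l h2

theorem Setup.θ0_ne_zero (S : Setup p M ϖ) : S.θ0 ≠ 0 := by
  exact S.θ0_prim.ne_zero (e_pos (p := p)).ne'

/-- `IsPrimitiveRoot.pow_eq_pow_iff_of_...`; or wlog `i ≤ j`, cancel `θ0^i`, `pow_eq_one_iff_dvd`, `Nat.modEq_iff_dvd'`. -/
theorem Setup.θ0_pow_eq_iff (S : Setup p M ϖ) (i j : ℕ) :
    S.θ0 ^ i = S.θ0 ^ j ↔ i ≡ j [MOD p ^ 2 - 1] := by
  constructor
  · intro h
    wlog hij : i ≤ j generalizing i j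
    · exact (this j i h.symm (le_of_not_ge hij)).symm
    rw [Nat.modEq_iff_dvd' hij]
    apply S.θ0_prim.dvd_of_pow_eq_one
    have h1 : S.θ0 ^ j = S.θ0 ^ i * S.θ0 ^ (j - i) := by rw [← pow_add, Nat.add_sub_cancel' hij]
    rw [h1] at h
    exact (mul_eq_left₀ (pow_ne_zero i S.θ0_ne_zero)).mp h.symm
  · intro h
    rw [pow_eq_pow_mod i S.θ0_prim.pow_eq_one, pow_eq_pow_mod j S.θ0_prim.pow_eq_one, h]

theorem Setup.ι_a (S : Setup p M ϖ) : S.ι S.a = S.θ0 := S.ιa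

/-- `ι` is injective (`RingHom.injective`), `θ0^(p^2) = θ0^(p^2-1) θ0 = θ0`. -/
theorem Setup.a_pow (S : Setup p M ϖ) : S.a ^ (p ^ 2) = S.a := by
  apply S.ι.injective
  have he := e_pos (p := p)
  have h1 : p ^ 2 = (p ^ 2 - 1) + 1 := by omega
  rw [map_pow, S.ι_a]
  conv_lhs => rw [h1, pow_succ, S.θ0_prim.pow_eq_one, one_mul]

/-- `a^p = a` would give `θ0^p = θ0^1`, `p ≡ 1 mod p²-1`, impossible (`1 < p < p² - 1 + 1`). -/
theorem Setup.a_pow_ne (S : Setup p M ϖ) : S.a ^ p ≠ S.a := by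
  intro h
  have hp2 := (Fact.out : p.Prime).two_le
  have h1 := congrArg S.ι h
  rw [map_pow, S.ι_a] at h1
  have h2 : S.θ0 ^ p = S.θ0 ^ 1 := by rw [h1, pow_one]
  have h3 := ((S.θ0_pow_eq_iff p 1).1 h2).symm
  rw [Nat.modEq_iff_dvd' (by omega)] at h3
  have h4 := Nat.le_of_dvd (by omega) h3
  have h5 : p * 2 ≤ p ^ 2 := by nlinarith
  omega

theorem Theta_arith (hp2 : p ≠ 2) : ∃ e : ℕ, p ^ 2 - 1 = e ∧ p ^ 2 = e + 1 ∧ 3 * p ≤ e + 1 ∧ 3 ≤ p := by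
  have h2 := (Fact.out : p.Prime).two_le
  have h3 : 3 ≤ p := by omega
  have h4 : 3 * p ≤ p ^ 2 := by nlinarith
  exact ⟨p ^ 2 - 1, rfl, by omega, by omega, h3⟩

/-- **Arithmetic.**  With `e = p² - 1 ≥ 8`, `p ≥ 3`.  For `1 ≤ j < p² + p = e + p + 1`:
`j ≡ 2`  iff `j = 2` or `j = e + 2 = p² + 1`;  `j ≡ p+1` iff `j = p+1` (`j = e + p + 1` is out of range);
`j ≡ 2p` iff `j = 2p` (`2p < e`; `e + 2p ≥ e + p + 1` out of range), which is divisible by `p`.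
(`Nat.ModEq`, `Nat.modEq_iff_dvd`, write `j = r + e q`; `nlinarith`/`omega` after setting `e`, using `p * p = e + 1`.) -/
theorem not_special (hp2 : p ≠ 2) {j : ℕ} (hj1 : 1 ≤ j) (hj : j < p ^ 2 + p) (hpj : ¬ p ∣ j)
    (h2 : j ≠ 2) (h3 : j ≠ p + 1) (h4 : j ≠ p ^ 2 + 1) :
    ¬ j ≡ 2 [MOD p ^ 2 - 1] ∧ ¬ j ≡ 2 * p [MOD p ^ 2 - 1] ∧ ¬ j ≡ p + 1 [MOD p ^ 2 - 1] := by
  obtain ⟨e, he, he', h3p, hp3⟩ := Theta_arith (p := p) hp2
  rw [he]
  rw [he'] at hj h4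
  have hq : j / e < 2 := Nat.div_lt_of_lt_mul (by omega)
  have hdm := Nat.div_add_mod j e
  have hcases : j / e = 0 ∨ j / e = 1 := by
    generalize j / e = q at hq
    omega
  refine ⟨fun h => ?_, fun h => ?_, fun h => ?_⟩
  · have h' : j % e = 2 := by
      have : j % e = 2 % e := h
      rwa [Nat.mod_eq_of_lt (show 2 < e by omega)] at this
    rcases hcases with hc | hc <;> rw [hc, h'] at hdm <;> omega
  · have h' : j % e = 2 * p := by
      have : j % e = (2 * p) % e := h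
      rwa [Nat.mod_eq_of_lt (show 2 * p < e by omega)] at this
    rcases hcases with hc | hc <;> rw [hc, h'] at hdm
    · exact hpj ⟨2, by omega⟩
    · omega
  · have h' : j % e = p + 1 := by
      have : j % e = (p + 1) % e := h
      rwa [Nat.mod_eq_of_lt (show p + 1 < e by omega)] at this
    rcases hcases with hc | hc <;> rw [hc, h'] at hdm <;> omega

/-- `0` is not special either. -/
theorem zero_not_special (hp2 : p ≠ 2) :
    ¬ 0 ≡ 2 [MOD p ^ 2 - 1] ∧ ¬ 0 ≡ 2 * p [MOD p ^ 2 - 1] ∧ ¬ 0 ≡ p + 1 [MOD p ^ 2 - 1] := by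
  obtain ⟨e, he, he', h3p, hp3⟩ := Theta_arith (p := p) hp2
  rw [he]
  refine ⟨fun h => ?_, fun h => ?_, fun h => ?_⟩
  · have : 0 % e = 2 % e := h
    rw [Nat.mod_eq_of_lt (by omega : 2 < e), Nat.zero_mod] at this
    omega
  · have : 0 % e = (2 * p) % e := h
    rw [Nat.mod_eq_of_lt (by omega : 2 * p < e), Nat.zero_mod] at this
    omega
  · have : 0 % e = (p + 1) % e := h
    rw [Nat.mod_eq_of_lt (by omega : p + 1 < e), Nat.zero_mod] at this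
    omega

/-- `p² + 1 ≡ 2`. -/
theorem Setup.θ0_pow_top (S : Setup p M ϖ) : S.θ0 ^ (p ^ 2 + 1) = S.θ0 ^ 2 := by
  rw [S.θ0_pow_eq_iff]
  have he := e_pos (p := p)
  have h1 : p ^ 2 + 1 = (p ^ 2 - 1) + 2 := by omega
  rw [h1]
  exact Nat.add_mod_left _ _

end Fermat.Agent.S56.F.C

end
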