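/-
S56 / F / C / Climb0 : level `0 → 1` (the valuation of a Kummer generator is divisible by `p`).      TASK S56/FC-Climb0
-/
import Fermat.Agent.S56.F.C.GenB
import Fermat.Agent.S56.F.C.GenC
import Fermat.Agent.S56.F.C.LevE
import Fermat.Agent.S56.F.C.EqB
import Fermat.Agent.S56.F.C.Theta

set_option autoImplicit false

noncomputable section

namespace Fermat.Agent.S56.F.C

open Fermat.Agent.S55 Fermat.Agent.S55.Places ExtCitation Module Polynomial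

variable {p : ℕ} [Fact p.Prime] {k : Type} [Field k] [Algebra (ZMod p) k] {ϖ : Qbar}
  {M : GQ →* M2 k} {z : GQ → Ad0 p k}

/-- **EQ lemma in the setup** : `eq_zero_of_equivariant S.ι (TW.rGL M S.g0) S.a S.a_pow S.char` (`TW.rGL_val`; `T M g B = TW.twAd (TW.rGL M g) B` by `rfl`;
`S.ι S.a = S.θ0`), with `c = θ0^j`: `Setup.θ0_pow_eq_iff`. -/
theorem Setup.eq_zero (S : Setup p M ϖ) (h : Ad0 p k → Om p)
    (hadd : ∀ B B', h (B + B') = h B + h B') {j : ℕ}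
    (hc : ∀ B, h (T M S.g0 B) = S.θ0 ^ j * h B)
    (hj : ¬ j ≡ 2 [MOD p ^ 2 - 1] ∧ ¬ j ≡ 2 * p [MOD p ^ 2 - 1] ∧ ¬ j ≡ p + 1 [MOD p ^ 2 - 1]) :
    ∀ B, h B = 0 := by
  refine eq_zero_of_equivariant S.ι (TW.rGL M S.g0) S.a S.a_pow ?_ h hadd (S.θ0 ^ j) hc ?_ ?_ ?_
  · rw [TW.rGL_val]
    exact S.char
  · rw [S.ι_a, Ne, S.θ0_pow_eq_iff]
    exact hj.1
  · rw [S.ι_a, Ne, S.θ0_pow_eq_iff]
    exact hj.2.1
  · rw [S.ι_a, Ne, S.θ0_pow_eq_iff]
    exact hj.2.2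

/-- **Level 1.**  `h0 B := ((vL p ϖ (exists_gen hdet S.ker hz B).choose : ℤ) : Om p)`.
(i) for ANY generator `x` of `χ_B`: `h0 B = (vL p ϖ x : Om p)`: `Gen.unique` : `x' = x w^p`, `vL_mul`, `vL_pow`, `((p : ℤ) : Om p) = 0` (`CharP.cast_eq_zero`; instance `residueKq_charP`).
(ii) additive: `Gen.mul`, `vL_mul` (`Gen.mem`, `Gen.ne_zero`).   (iii) `h0 (T M g0 B) = h0 B`: `Gen.map` (`Iq_le_Dq`), `vL_map`.
(iv) `Setup.eq_zero` with `j = 0` (`pow_zero`, `one_mul`, `zero_not_special hp2`): `h0 = 0`, so `(p : ℤ) ∣ vL p ϖ x` (`CharP.intCast_eq_zero_iff (Om p) p`).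
(v) `exists_mul_pow_le_one` + `Gen.mul_pow`. -/
theorem step_zero (hp2 : p ≠ 2) (S : Setup p M ϖ)
    (hdet : ∀ σ, (M σ).det = algebraMap (ZMod p) k ((cycloChar p σ : (ZMod p)ˣ) : ZMod p))
    (hz : z ∈ Z1 Lall (ad0 p M)) : ∀ B, Lev ϖ z B 1 := by
  have hchar : CharP (Om p) p := inferInstance
  have hp0 : ((p : ℤ) : Om p) = 0 := by
    rw [Int.cast_natCast]
    exact CharP.cast_eq_zero (Om p) p
  set h0 : Ad0 p k → Om p :=
    fun B => ((vL p ϖ (exists_gen hdet S.ker hz B).choose : ℤ) : Om p) with hh0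
  have hgen : ∀ B, Gen ϖ z B (exists_gen hdet S.ker hz B).choose :=
    fun B => (exists_gen hdet S.ker hz B).choose_spec
  -- (i)
  have hi : ∀ (B : Ad0 p k) (x : Qbar), Gen ϖ z B x → h0 B = ((vL p ϖ x : ℤ) : Om p) := by
    intro B x hx
    obtain ⟨w, hw, hw0, hxw⟩ := Gen.unique hx (hgen B)
    show ((vL p ϖ (exists_gen hdet S.ker hz B).choose : ℤ) : Om p) = _
    rw [hxw, vL_mul S.hϖ hx.mem hx.ne_zero (pow_mem hw p) (pow_ne_zero _ hw0),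
      vL_pow S.hϖ hw hw0, Int.cast_add, Int.cast_mul, hp0, zero_mul, add_zero]
  -- (ii)
  have hadd : ∀ B B', h0 (B + B') = h0 B + h0 B' := by
    intro B B'
    rw [hi (B + B') _ ((hgen B).mul (hgen B')),
      vL_mul S.hϖ (hgen B).mem (hgen B).ne_zero (hgen B').mem (hgen B').ne_zero, Int.cast_add]
  -- (iii)
  have hT : ∀ B, h0 (T M S.g0 B) = S.θ0 ^ 0 * h0 B := by
    intro B
    have hD : S.g0 ∈ Dq p := Iq_le_Dq p S.g0_mem
    rw [hi (T M S.g0 B) _ (Gen.map S.hϖ hdet S.ker hz hD (hgen B)), vL_map hD, pow_zero, one_mul]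
  -- (iv)
  have hzero := S.eq_zero h0 hadd hT (zero_not_special hp2)
  intro B
  have hdvd : (p : ℤ) ∣ vL p ϖ (exists_gen hdet S.ker hz B).choose :=
    (CharP.intCast_eq_zero_iff (Om p) p _).mp (hzero B)
  -- (v)
  obtain ⟨w, hw, hw0, hle⟩ := exists_mul_pow_le_one S.hϖ (hgen B).mem (hgen B).ne_zero hdvd
  exact ⟨_, (hgen B).mul_pow hw hw0, hle⟩

end Fermat.Agent.S56.F.C

end
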