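/-
S56 / F / C / LevA : the unit filtration of `FL = K^nr(ϖ)` modulo `p`-th powers ("level calculus").
`r = |ϖ|`, `e = p²-1`, `|p| = r^e`, `|ζ_p - 1| = r^(p+1)`, `p e/(p-1) = p²+p`.      TASK S56/FC-LevA.
Black boxes: `Rd.lean`, `Pi.lean` and the imported files.
-/
import Fermat.Agent.S56.F.C.Rd
import Fermat.Agent.S56.F.C.Pi

set_option autoImplicit false

noncomputable section

namespace Fermat.Agent.S56.F.C

open Fermat.Agent.S55 Fermat.Agent.S55.Places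

variable {p : ℕ} [Fact p.Prime] {ϖ : Qbar}

/-! ### LevA : leading coefficients -/

theorem nrm_mul_sub_one_le {x x' : Qbar} {ρ : ℝ} (hρ : ρ ≤ 1) (hx : nrm p (x - 1) ≤ ρ)
    (hx' : nrm p (x' - 1) ≤ ρ) : nrm p (x * x' - 1) ≤ ρ := by
  have e : x * x' - 1 = (x - 1) * (x' - 1) + (x - 1) + (x' - 1) := by ring
  rw [e]
  refine (nrm_add_le_max p _ _).trans (max_le ((nrm_add_le_max p _ _).trans (max_le ?_ hx)) hx')
  rw [nrm_mul]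
  calc nrm p (x - 1) * nrm p (x' - 1) ≤ 1 * nrm p (x' - 1) :=
        mul_le_mul_of_nonneg_right (hx.trans hρ) (nrm_nonneg p _)
    _ ≤ ρ := by rw [one_mul]; exact hx'

theorem nrm_map_sub_one {g : GQ} (hg : g ∈ Dq p) (x : Qbar) :
    nrm p (g x - 1) = nrm p (x - 1) := by
  rw [← nrm_map_of_mem_Dq p hg (x - 1), map_sub, map_one]

theorem LevA_nrm_div_le (hϖ : ϖ ^ (p ^ 2 - 1) = -(p : Qbar)) {j : ℕ} {x : Qbar}
    (hx : nrm p (x - 1) ≤ nrm p ϖ ^ j) : nrm p ((x - 1) / ϖ ^ j) ≤ 1 := by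
  rw [nrm_div, nrm_pow]
  exact (div_le_one (pow_pos (nrm_pi_pos hϖ) j)).2 hx

/-- the common computation for `lc_map_*`. -/
theorem LevA_map_div (hϖ : ϖ ^ (p ^ 2 - 1) = -(p : Qbar)) (g : GQ) (j : ℕ) (x : Qbar) :
    (g x - 1) / ϖ ^ j = (g ϖ / ϖ) ^ j * g ((x - 1) / ϖ ^ j) := by
  have h0 := pi_ne_zero hϖ
  have h1 : g ϖ ≠ 0 := (map_ne_zero_iff g g.injective).2 h0
  rw [map_div₀, map_sub, map_one, map_pow, div_pow]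
  field_simp

/-- `x x' - 1 = (x-1) + (x'-1) + (x-1)(x'-1)`. -/
theorem lc_mul (hϖ : ϖ ^ (p ^ 2 - 1) = -(p : Qbar)) {j : ℕ} (hj : 1 ≤ j) {x x' : Qbar}
    (hx : nrm p (x - 1) ≤ nrm p ϖ ^ j) (hx' : nrm p (x' - 1) ≤ nrm p ϖ ^ j) :
    lc p ϖ j (x * x') = lc p ϖ j x + lc p ϖ j x' := by
  have h0 := pi_ne_zero hϖ
  have hu := LevA_nrm_div_le hϖ hx
  have hu' := LevA_nrm_div_le hϖ hx'
  have hr1 := nrm_pi_lt_one hϖ
  have hrpos := nrm_pi_pos hϖ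
  have e : (x * x' - 1) / ϖ ^ j
      = (x - 1) / ϖ ^ j + (x' - 1) / ϖ ^ j + (x - 1) / ϖ ^ j * ((x' - 1) / ϖ ^ j) * ϖ ^ j := by
    field_simp
    ring
  have h3 : nrm p ((x - 1) / ϖ ^ j * ((x' - 1) / ϖ ^ j) * ϖ ^ j) < 1 := by
    rw [nrm_mul, nrm_mul, nrm_pow]
    have h4 : nrm p ϖ ^ j < 1 := pow_lt_one₀ hrpos.le hr1 (by omega)
    calc nrm p ((x - 1) / ϖ ^ j) * nrm p ((x' - 1) / ϖ ^ j) * nrm p ϖ ^ j
        ≤ 1 * nrm p ϖ ^ j := mul_le_mul_of_nonneg_right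
          (mul_le_one₀ hu (nrm_nonneg p _) hu') (pow_pos hrpos j).le
      _ < 1 := by rw [one_mul]; exact h4
  unfold lc
  rw [e, rd_add ((nrm_add_le_max p _ _).trans (max_le hu hu')) h3.le, rd_add hu hu',
    (rd_eq_zero_iff h3.le).2 h3, add_zero]

theorem lc_eq_zero_of_le (hϖ : ϖ ^ (p ^ 2 - 1) = -(p : Qbar)) {j : ℕ} {x : Qbar}
    (hx : nrm p (x - 1) ≤ nrm p ϖ ^ (j + 1)) : lc p ϖ j x = 0 := by
  have hr1 := nrm_pi_lt_one hϖ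
  have hrpos := nrm_pi_pos hϖ
  have h1 : nrm p ((x - 1) / ϖ ^ j) < 1 := by
    rw [nrm_div, nrm_pow, div_lt_one (pow_pos hrpos j)]
    refine hx.trans_lt ?_
    rw [pow_succ]
    calc nrm p ϖ ^ j * nrm p ϖ < nrm p ϖ ^ j * 1 :=
          mul_lt_mul_of_pos_left hr1 (pow_pos hrpos j)
      _ = nrm p ϖ ^ j := mul_one _
  unfold lc
  exact (rd_eq_zero_iff h1.le).2 h1

/-- uses the discreteness `nrm_le_pow_succ`. -/
theorem le_succ_of_lc_eq_zero (hϖ : ϖ ^ (p ^ 2 - 1) = -(p : Qbar)) {j : ℕ} {x : Qbar}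
    (hxL : x ∈ FL p ϖ) (hx : nrm p (x - 1) ≤ nrm p ϖ ^ j) (h0 : lc p ϖ j x = 0) :
    nrm p (x - 1) ≤ nrm p ϖ ^ (j + 1) := by
  have hrpos := nrm_pi_pos hϖ
  have h1 := (rd_eq_zero_iff (LevA_nrm_div_le hϖ hx)).1 h0
  rw [nrm_div, nrm_pow, div_lt_one (pow_pos hrpos j)] at h1
  exact nrm_le_pow_succ hϖ ((FL p ϖ).sub_mem hxL (FL p ϖ).one_mem) h1

/-- `(g x - 1)/ϖ^j = g((x-1)/ϖ^j) (g ϖ/ϖ)^j`. -/
theorem lc_map_of_mem_Iq (hϖ : ϖ ^ (p ^ 2 - 1) = -(p : Qbar)) {g : GQ} (hg : g ∈ Iq p) {j : ℕ}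
    {x : Qbar} (hx : nrm p (x - 1) ≤ nrm p ϖ ^ j) :
    lc p ϖ j (g x) = rd p (g ϖ / ϖ) ^ j * lc p ϖ j x := by
  have hθ := nrm_theta hϖ g
  have hu := LevA_nrm_div_le hϖ hx
  unfold lc
  rw [LevA_map_div hϖ, rd_mul (by rw [nrm_pow, hθ, one_pow])
    (by rw [nrm_map_of_mem_Dq p (Iq_le_Dq p hg)]; exact hu), rd_pow hθ.le, rd_map_of_mem_Iq hg]

theorem lc_map_of_isFrob (hϖ : ϖ ^ (p ^ 2 - 1) = -(p : Qbar)) {φ : GQ} (hφ : IsFrob p φ) {j : ℕ}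
    {x : Qbar} (hx : nrm p (x - 1) ≤ nrm p ϖ ^ j) :
    lc p ϖ j (φ x) = rd p (φ ϖ / ϖ) ^ j * lc p ϖ j x ^ p := by
  have hθ := nrm_theta hϖ φ
  have hu := LevA_nrm_div_le hϖ hx
  unfold lc
  rw [LevA_map_div hϖ, rd_mul (by rw [nrm_pow, hθ, one_pow])
    (by rw [nrm_map_of_mem_Dq p hφ.1]; exact hu), rd_pow hθ.le, rd_map_of_isFrob hφ]

end Fermat.Agent.S56.F.C

end
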