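/-
S56 / F / C / LevB : the unit filtration of `FL = K^nr(ϖ)` modulo `p`-th powers ("level calculus").
`r = |ϖ|`, `e = p²-1`, `|p| = r^e`, `|ζ_p - 1| = r^(p+1)`, `p e/(p-1) = p²+p`.      TASK S56/FC-LevB.
Black boxes: `Rd.lean`, `Pi.lean` and the imported files.
-/
import Fermat.Agent.S56.F.C.Rd
import Fermat.Agent.S56.F.C.Pi
import Fermat.Agent.S55.Places.PthPower

set_option autoImplicit false

noncomputable section

namespace Fermat.Agent.S56.F.C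

open Fermat.Agent.S55 Fermat.Agent.S55.Places

variable {p : ℕ} [Fact p.Prime] {ϖ : Qbar}

/-! ### LevB : `p`-th powers have no leading coefficient at levels prime to `p` -/

/-- binomial expansion. -/
theorem exists_one_add_pow {t : Qbar} (ht : nrm p t ≤ 1) :
    ∃ c : Qbar, nrm p c ≤ 1 ∧ (1 + t) ^ p = 1 + t ^ p + (p : Qbar) * t * c := by
  have hp : p.Prime := Fact.out
  refine ⟨_, ?_, by
    have := add_pow_prime_eq hp (1 : Qbar) t
    rw [one_pow, mul_one] at this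
    exact this⟩
  apply nrm_sum_le p _ _ 1 zero_le_one
  intro k _
  rw [nrm_mul, nrm_mul, nrm_pow, nrm_pow, nrm_one, one_pow, one_mul]
  exact mul_le_one₀ (pow_le_one₀ (nrm_nonneg p t) ht) (nrm_nonneg p _) (nrm_natCast_le_one p _)

theorem LevB_arith {p m : ℕ} (hp : 2 ≤ p) (hm : m ≤ p) :
    p * m < p ^ 2 - 1 + m := by
  have h1 : (0 : ℤ) ≤ ((p : ℤ) - m) * ((p : ℤ) - 1) := mul_nonneg (by omega) (by omega)
  have h2 : p * m + 2 ≤ p ^ 2 + m := by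
    zify
    nlinarith [h1]
  have h3 : 1 ≤ p ^ 2 := Nat.one_le_pow _ _ (by omega)
  omega

/-- Proof.  `|w^p - 1| < 1` gives `|w| = 1`, `rd w ^ p = 1`, `rd w = 1` (char `p`: `(rd w - 1)^p = 0`,
`sub_pow_char`), so `t := w - 1 ∈ FL` has `|t| < 1`; `t = 0` is trivial; `|t| = r^m`, `m ≥ 1`
(`exists_zpow_of_mem_FL`).  `w^p - 1 = t^p + p t c`, `|t^p| = r^(pm)`, `|p t c| ≤ r^(e+m)`.
If `m ≥ p+1`: both terms are `≤ r^(p²+p) ≤ r^(j+1)`.  If `m ≤ p`: `pm < e + m`, so `|w^p - 1| = r^(pm)`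
(`nrm_add_eq_max_of_ne`), hence `pm ≥ j`, and `p ∤ j` gives `pm ≥ j+1`. -/
theorem nrm_pow_sub_one_le_succ (hϖ : ϖ ^ (p ^ 2 - 1) = -(p : Qbar)) {w : Qbar}
    (hw : w ∈ FL p ϖ) {j : ℕ} (hj1 : 1 ≤ j) (hj : j < p ^ 2 + p) (hpj : ¬ p ∣ j)
    (h : nrm p (w ^ p - 1) ≤ nrm p ϖ ^ j) : nrm p (w ^ p - 1) ≤ nrm p ϖ ^ (j + 1) := by
  have hp : p.Prime := Fact.out
  have hr0 := nrm_pi_pos hϖ
  have hr1 := nrm_pi_lt_one hϖ
  have hlt : nrm p (w ^ p - 1) < 1 :=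
    h.trans_lt (pow_lt_one₀ hr0.le hr1 (by omega))
  have hwp : nrm p (w ^ p) = 1 := nrm_eq_one_of_sub_one_lt hlt
  have hw1 : nrm p w = 1 := by
    rw [nrm_pow] at hwp
    exact (pow_eq_one_iff_of_nonneg (nrm_nonneg p w) hp.ne_zero).1 hwp
  have ht1 : nrm p (w - 1) < 1 := by
    refine nrm_sub_lt_one_of_pow (q := p) hw1.le (y := 1) (by rw [nrm_one]) 1 ?_
    rw [pow_one, one_pow]
    exact hlt
  by_cases h0 : w - 1 = 0
  · have : w = 1 := sub_eq_zero.1 h0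
    rw [this, one_pow, sub_self, nrm_zero]
    exact (pow_pos hr0 _).le
  have htF : w - 1 ∈ FL p ϖ := sub_mem hw (one_mem _)
  obtain ⟨n, hn⟩ := exists_zpow_of_mem_FL hϖ htF h0
  have hn0 : 0 < n := by
    by_contra hcon
    rw [not_lt] at hcon
    rw [hn] at ht1
    exact absurd (one_le_zpow_of_nonpos₀ hr0 hr1.le hcon) (not_le.2 ht1)
  obtain ⟨m, rfl⟩ := Int.eq_ofNat_of_zero_le hn0.le
  rw [zpow_natCast] at hn
  have hm1 : 1 ≤ m := by omega
  obtain ⟨c, hc, hexp⟩ := exists_one_add_pow (p := p) ht1.le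
  have hexp' : w ^ p - 1 = (w - 1) ^ p + (p : Qbar) * (w - 1) * c := by
    rw [add_sub_cancel] at hexp
    rw [hexp]
    ring
  have hpn : nrm p (p : Qbar) = nrm p ϖ ^ (p ^ 2 - 1) := by
    rw [nrm_pi_pow hϖ, nrm_natCast_self]
  have hA : nrm p ((w - 1) ^ p) = nrm p ϖ ^ (p * m) := by
    rw [nrm_pow, hn, ← pow_mul, mul_comm]
  have hB : nrm p ((p : Qbar) * (w - 1) * c) ≤ nrm p ϖ ^ (p ^ 2 - 1 + m) := by
    rw [nrm_mul, nrm_mul, hpn, hn, ← pow_add]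
    exact mul_le_of_le_one_right (pow_pos hr0 _).le hc
  by_cases hmp : m ≤ p
  · have hlt2 : nrm p ((p : Qbar) * (w - 1) * c) < nrm p ((w - 1) ^ p) := by
      rw [hA]
      exact hB.trans_lt (pow_lt_pow_right_of_lt_one₀ hr0 hr1 (LevB_arith hp.two_le hmp))
    have heq : nrm p (w ^ p - 1) = nrm p ϖ ^ (p * m) := by
      rw [hexp', nrm_add_eq_max_of_ne p hlt2.ne', max_eq_left hlt2.le, hA]
    rw [heq] at h ⊢
    have h1 : j ≤ p * m := (pow_le_pow_iff_right_of_lt_one₀ hr0 hr1).1 h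
    have h2 : j ≠ p * m := fun e => hpj ⟨m, e⟩
    exact pow_le_pow_of_le_one hr0.le hr1.le (by omega)
  · rw [not_le] at hmp
    have h3 : 1 ≤ p ^ 2 := Nat.one_le_pow _ _ hp.pos
    rw [hexp']
    refine (nrm_add_le_max p _ _).trans (max_le ?_ ?_)
    · rw [hA]
      apply pow_le_pow_of_le_one hr0.le hr1.le
      have : p * (p + 1) ≤ p * m := Nat.mul_le_mul_left p hmp
      nlinarith
    · refine hB.trans (pow_le_pow_of_le_one hr0.le hr1.le ?_)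
      omega

end Fermat.Agent.S56.F.C

end
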