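/-
S56 / F / C / HfunA : the leading coefficient function `B ↦ lc_j(x_B)`; closure properties of levels.      TASK S56/FC-HfunA
-/
import Fermat.Agent.S56.F.C.GenA
import Fermat.Agent.S56.F.C.LevA
import Fermat.Agent.S56.F.C.LevB

set_option autoImplicit false

noncomputable section

namespace Fermat.Agent.S56.F.C

open Fermat.Agent.S55 Fermat.Agent.S55.Places ExtCitation Module Polynomial

variable {p : ℕ} [Fact p.Prime] {k : Type} [Field k] [Algebra (ZMod p) k] {ϖ : Qbar}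
  {z z' : GQ → Ad0 p k} {B B' : Ad0 p k} {x : Qbar}

/-- leading coefficient at level `j` of (any) Kummer generator of level `≥ j` of `χ_B`. -/
def hfun (ϖ : Qbar) (j : ℕ) (z : GQ → Ad0 p k) (B : Ad0 p k) : Om p :=
  open Classical in if h : Lev ϖ z B j then lc p ϖ j h.choose else 0

theorem HfunA_pow_le_one (hϖ : ϖ ^ (p ^ 2 - 1) = -(p : Qbar)) (j : ℕ) : nrm p ϖ ^ j ≤ 1 :=
  pow_le_one₀ (nrm_pi_pos hϖ).le (nrm_pi_lt_one hϖ).le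

/-- `Gen.mul`, `nrm_mul_sub_one_le` (`ρ = r^j ≤ 1`: `pow_le_one₀`, `nrm_pi_lt_one`, `nrm_pi_pos`). -/
theorem Lev.add_B (hϖ : ϖ ^ (p ^ 2 - 1) = -(p : Qbar)) {j : ℕ} (h : Lev ϖ z B j)
    (h' : Lev ϖ z B' j) : Lev ϖ z (B + B') j := by
  obtain ⟨x, hg, hx⟩ := h
  obtain ⟨x', hg', hx'⟩ := h'
  exact ⟨x * x', hg.mul hg', nrm_mul_sub_one_le (HfunA_pow_le_one hϖ j) hx hx'⟩

theorem Lev.add_z (hϖ : ϖ ^ (p ^ 2 - 1) = -(p : Qbar)) {j : ℕ} (h : Lev ϖ z B j)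
    (h' : Lev ϖ z' B j) : Lev ϖ (z + z') B j := by
  obtain ⟨x, hg, hx⟩ := h
  obtain ⟨x', hg', hx'⟩ := h'
  exact ⟨x * x', hg.mul_z hg', nrm_mul_sub_one_le (HfunA_pow_le_one hϖ j) hx hx'⟩

/-- generator `x = 1`, `y = 1` (`chi 0 B s = 0` by `map_zero`, `ZMod.val_zero`). -/
theorem Lev.zero_z (B : Ad0 p k) (j : ℕ) : Lev ϖ (0 : GQ → Ad0 p k) B j := by
  refine ⟨1, ⟨one_mem _, 1, one_ne_zero, one_pow _, fun s _ => ?_⟩, ?_⟩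
  · have h0 : chi (0 : GQ → Ad0 p k) B s = 0 := by
      unfold chi
      rw [Pi.zero_apply, map_zero]
    rw [h0, ZMod.val_zero, pow_zero, one_mul, map_one]
  · rw [sub_self, nrm_zero]
    exact pow_nonneg (nrm_nonneg p _) _

/-- `c • z = c.val • z` (`ZMod.natCast_zmod_val`, `Nat.cast_smul_eq_nsmul`), induction on the natural number with `Lev.zero_z`, `Lev.add_z`
(`succ_nsmul`). -/
theorem Lev.smul_z (hϖ : ϖ ^ (p ^ 2 - 1) = -(p : Qbar)) {j : ℕ} (c : ZMod p) (h : Lev ϖ z B j) :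
    Lev ϖ (c • z) B j := by
  have key : ∀ n : ℕ, Lev ϖ (n • z) B j := by
    intro n
    induction n with
    | zero =>
      rw [zero_smul]
      exact Lev.zero_z B j
    | succ n ih =>
      rw [succ_nsmul]
      exact ih.add_z hϖ h
  have h1 : c • z = c.val • z := by
    rw [← Nat.cast_smul_eq_nsmul (ZMod p), ZMod.natCast_zmod_val]
  rw [h1]
  exact key _

/-- **`hfun` is well defined.**  Let `x' := h.choose` for `h : Lev ϖ z B j := ⟨x, hg, hx⟩` (`dif_pos`, `h.choose_spec`).  `Gen.unique hg _` : `x' = x w^p`, `w ∈ FL`.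
`|x - 1| ≤ r^j < 1` gives `|x| = 1`; `|w^p - 1| = |x' - x| / |x| ≤ max(|x' - 1|, |x - 1|) ≤ r^j`; `nrm_pow_sub_one_le_succ` : `≤ r^(j+1)`;
`lc_eq_zero_of_le`; `lc_mul` : `lc (x w^p) = lc x + 0`. -/
theorem hfun_eq (hϖ : ϖ ^ (p ^ 2 - 1) = -(p : Qbar)) {j : ℕ} (hj1 : 1 ≤ j) (hj : j < p ^ 2 + p)
    (hpj : ¬ p ∣ j) (hg : Gen ϖ z B x) (hx : nrm p (x - 1) ≤ nrm p ϖ ^ j) :
    hfun ϖ j z B = lc p ϖ j x := by
  have h : Lev ϖ z B j := ⟨x, hg, hx⟩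
  unfold hfun
  rw [dif_pos h]
  obtain ⟨hg', hx'⟩ := h.choose_spec
  obtain ⟨w, hw, hw0, hxw⟩ := hg.unique hg'
  have hr0 := nrm_pi_pos hϖ
  have hr1 := nrm_pi_lt_one hϖ
  have hlt : nrm p ϖ ^ j < 1 := pow_lt_one₀ hr0.le hr1 (by omega)
  have hx1 : nrm p x = 1 := nrm_eq_one_of_sub_one_lt (hx.trans_lt hlt)
  have hx0 := hg.ne_zero
  have hwp : nrm p (w ^ p - 1) ≤ nrm p ϖ ^ j := by
    have e : w ^ p - 1 = ((h.choose - 1) - (x - 1)) / x := by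
      rw [hxw]
      field_simp
      ring
    rw [e, nrm_div, hx1, div_one]
    exact (nrm_sub_le_max p _ _).trans (max_le hx' hx)
  have hwp' := nrm_pow_sub_one_le_succ hϖ hw hj1 hj hpj hwp
  rw [hxw, lc_mul hϖ hj1 hx hwp, lc_eq_zero_of_le hϖ hwp', add_zero]

/-- `hfun_eq` three times, `Gen.mul`, `nrm_mul_sub_one_le`, `lc_mul`. -/
theorem hfun_add_B (hϖ : ϖ ^ (p ^ 2 - 1) = -(p : Qbar)) {j : ℕ} (hj1 : 1 ≤ j)
    (hj : j < p ^ 2 + p) (hpj : ¬ p ∣ j) (h : Lev ϖ z B j) (h' : Lev ϖ z B' j) :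
    hfun ϖ j z (B + B') = hfun ϖ j z B + hfun ϖ j z B' := by
  obtain ⟨x, hg, hx⟩ := h
  obtain ⟨x', hg', hx'⟩ := h'
  rw [hfun_eq hϖ hj1 hj hpj hg hx, hfun_eq hϖ hj1 hj hpj hg' hx',
    hfun_eq hϖ hj1 hj hpj (hg.mul hg') (nrm_mul_sub_one_le (HfunA_pow_le_one hϖ j) hx hx'),
    lc_mul hϖ hj1 hx hx']

theorem hfun_add_z (hϖ : ϖ ^ (p ^ 2 - 1) = -(p : Qbar)) {j : ℕ} (hj1 : 1 ≤ j)
    (hj : j < p ^ 2 + p) (hpj : ¬ p ∣ j) (h : Lev ϖ z B j) (h' : Lev ϖ z' B j) :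
    hfun ϖ j (z + z') B = hfun ϖ j z B + hfun ϖ j z' B := by
  obtain ⟨x, hg, hx⟩ := h
  obtain ⟨x', hg', hx'⟩ := h'
  rw [hfun_eq hϖ hj1 hj hpj hg hx, hfun_eq hϖ hj1 hj hpj hg' hx',
    hfun_eq hϖ hj1 hj hpj (hg.mul_z hg') (nrm_mul_sub_one_le (HfunA_pow_le_one hϖ j) hx hx'),
    lc_mul hϖ hj1 hx hx']

/-- `hfun_eq`, `le_succ_of_lc_eq_zero`. -/
theorem lev_succ_of_hfun_eq_zero (hϖ : ϖ ^ (p ^ 2 - 1) = -(p : Qbar)) {j : ℕ} (hj1 : 1 ≤ j)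
    (hj : j < p ^ 2 + p) (hpj : ¬ p ∣ j) (h : Lev ϖ z B j) (h0 : hfun ϖ j z B = 0) :
    Lev ϖ z B (j + 1) := by
  obtain ⟨x, hg, hx⟩ := h
  rw [hfun_eq hϖ hj1 hj hpj hg hx] at h0
  exact ⟨x, hg, le_succ_of_lc_eq_zero hϖ hg.mem hx h0⟩

end Fermat.Agent.S56.F.C

end
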