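/-
S56 / F / C / HfunB : Galois equivariance of the leading coefficient function.      TASK S56/FC-HfunB
-/
import Fermat.Agent.S56.F.C.HfunA
import Fermat.Agent.S56.F.C.GenC

set_option autoImplicit false

noncomputable section

namespace Fermat.Agent.S56.F.C

open Fermat.Agent.S55 Fermat.Agent.S55.Places ExtCitation Module Polynomial

variable {p : ℕ} [Fact p.Prime] {k : Type} [Field k] [Algebra (ZMod p) k] {ϖ : Qbar}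
  {M : GQ →* M2 k} {z : GQ → Ad0 p k} {B : Ad0 p k}

/-- `Gen.map`, `nrm_map_sub_one`. -/
theorem Lev.T (hϖ : ϖ ^ (p ^ 2 - 1) = -(p : Qbar))
    (hdet : ∀ σ, (M σ).det = algebraMap (ZMod p) k ((cycloChar p σ : (ZMod p)ˣ) : ZMod p))
    (hker : ∀ s ∈ IL p ϖ, M s = 1) (hz : z ∈ Z1 Lall (ad0 p M)) {g : GQ} (hg : g ∈ Dq p) {j : ℕ}
    (h : Lev ϖ z B j) : Lev ϖ z (T M g B) j := by
  obtain ⟨x, hx, hxn⟩ := h
  exact ⟨g x, Gen.map hϖ hdet hker hz hg hx, by rw [nrm_map_sub_one hg]; exact hxn⟩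

/-- `hfun_eq` for `x` and for `g x` (`Gen.map`, `Iq p ≤ Dq p`: `Iq_le_Dq`), `lc_map_of_mem_Iq`. -/
theorem hfun_T_of_mem_Iq (hϖ : ϖ ^ (p ^ 2 - 1) = -(p : Qbar))
    (hdet : ∀ σ, (M σ).det = algebraMap (ZMod p) k ((cycloChar p σ : (ZMod p)ˣ) : ZMod p))
    (hker : ∀ s ∈ IL p ϖ, M s = 1) (hz : z ∈ Z1 Lall (ad0 p M)) {g : GQ} (hg : g ∈ Iq p) {j : ℕ}
    (hj1 : 1 ≤ j) (hj : j < p ^ 2 + p) (hpj : ¬ p ∣ j) (h : Lev ϖ z B j) :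
    hfun ϖ j z (T M g B) = rd p (g ϖ / ϖ) ^ j * hfun ϖ j z B := by
  obtain ⟨x, hx, hxn⟩ := h
  have hgD : g ∈ Dq p := Iq_le_Dq p hg
  rw [hfun_eq hϖ hj1 hj hpj hx hxn,
    hfun_eq hϖ hj1 hj hpj (Gen.map hϖ hdet hker hz hgD hx)
      (by rw [nrm_map_sub_one hgD]; exact hxn)]
  exact lc_map_of_mem_Iq hϖ hg hxn

/-- `hfun_eq` for `x` and for `φ x` (`hφ.1 : φ ∈ Dq p`), `lc_map_of_isFrob`. -/
theorem hfun_T_of_isFrob (hϖ : ϖ ^ (p ^ 2 - 1) = -(p : Qbar))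
    (hdet : ∀ σ, (M σ).det = algebraMap (ZMod p) k ((cycloChar p σ : (ZMod p)ˣ) : ZMod p))
    (hker : ∀ s ∈ IL p ϖ, M s = 1) (hz : z ∈ Z1 Lall (ad0 p M)) {φ : GQ} (hφ : IsFrob p φ) {j : ℕ}
    (hj1 : 1 ≤ j) (hj : j < p ^ 2 + p) (hpj : ¬ p ∣ j) (h : Lev ϖ z B j) :
    hfun ϖ j z (T M φ B) = rd p (φ ϖ / ϖ) ^ j * hfun ϖ j z B ^ p := by
  obtain ⟨x, hx, hxn⟩ := h
  have hgD : φ ∈ Dq p := hφ.1
  rw [hfun_eq hϖ hj1 hj hpj hx hxn,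
    hfun_eq hϖ hj1 hj hpj (Gen.map hϖ hdet hker hz hgD hx)
      (by rw [nrm_map_sub_one hgD]; exact hxn)]
  exact lc_map_of_isFrob hϖ hφ hxn

end Fermat.Agent.S56.F.C

end
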