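/-
S56 / F / C / LevC : the unit filtration of `FL = K^nr(ϖ)` modulo `p`-th powers ("level calculus").
`r = |ϖ|`, `e = p²-1`, `|p| = r^e`, `|ζ_p - 1| = r^(p+1)`, `p e/(p-1) = p²+p`.      TASK S56/FC-LevC.
Black boxes: `Rd.lean`, `Pi.lean` and the imported files.
-/
import Fermat.Agent.S56.F.C.LevB
import Fermat.Agent.S56.F.C.Teich

set_option autoImplicit false

noncomputable section

namespace Fermat.Agent.S56.F.C

open Fermat.Agent.S55 Fermat.Agent.S55.Places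

variable {p : ℕ} [Fact p.Prime] {ϖ : Qbar}

/-! ### LevC : levels divisible by `p` -/

theorem LevC_arith (p i : ℕ) (hp : 2 ≤ p) (hi1 : 1 ≤ i) (hi : i ≤ p) :
    p * i < p ^ 2 - 1 + i := by
  obtain ⟨d, rfl⟩ := Nat.exists_eq_add_of_le hi
  have h1 : (i + d) * i + (i + d) ≤ (i + d) ^ 2 + i := by
    nlinarith [Nat.mul_le_mul_left d hi1]
  have h2 : 1 ≤ (i + d) ^ 2 := Nat.one_le_pow _ _ (by omega)
  generalize (i + d) * i = a at *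
  generalize (i + d) ^ 2 = b at *
  omega

/-- Proof.  `u := (x-1)/ϖ^j ∈ FL`, `|u| ≤ 1`.  If `|u| < 1` take `w = 1` (`nrm_le_pow_succ`).  Otherwise
`ζ', ζ''` from `exists_teich`, `j = p i`, `w := 1 - ζ'' ϖ^i ∈ FL`; `w^p = 1 - ζ' ϖ^j + p (ζ''ϖ^i) c` (`p` odd),
`|p ϖ^i| = r^(e+i) < r^j` because `e + i > p i` for `i ≤ p` (`j < p²+p`).  So
`x w^p - 1 = (u - ζ') ϖ^j + (terms of norm < r^j)`; conclude by `nrm_le_pow_succ`.  `w ≠ 0` as `|w - 1| < 1`. -/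
theorem exists_mul_pow_le_succ (hp2 : p ≠ 2) (hϖ : ϖ ^ (p ^ 2 - 1) = -(p : Qbar)) {x : Qbar}
    (hx : x ∈ FL p ϖ) {j : ℕ} (hj1 : 1 ≤ j) (hj : j < p ^ 2 + p) (hpj : p ∣ j)
    (h : nrm p (x - 1) ≤ nrm p ϖ ^ j) :
    ∃ w ∈ FL p ϖ, w ≠ 0 ∧ nrm p (x * w ^ p - 1) ≤ nrm p ϖ ^ (j + 1) := by
  have hpp : p.Prime := Fact.out
  have hr0 : 0 < nrm p ϖ := nrm_pi_pos hϖ
  have hr1 : nrm p ϖ < 1 := nrm_pi_lt_one hϖ
  have hϖ0 : ϖ ≠ 0 := pi_ne_zero hϖ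
  have hϖL : ϖ ∈ FL p ϖ := pi_mem_FL
  have hrj0 : 0 < nrm p ϖ ^ j := pow_pos hr0 j
  have hrj1 : nrm p ϖ ^ j < 1 := pow_lt_one₀ hr0.le hr1 (by omega)
  have hx1L : x - 1 ∈ FL p ϖ := sub_mem hx (one_mem _)
  by_cases hlt : nrm p (x - 1) < nrm p ϖ ^ j
  · refine ⟨1, one_mem _, one_ne_zero, ?_⟩
    rw [one_pow, mul_one]
    exact nrm_le_pow_succ hϖ hx1L hlt
  have heq : nrm p (x - 1) = nrm p ϖ ^ j := le_antisymm h (not_lt.1 hlt)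
  have hu : nrm p ((x - 1) / ϖ ^ j) = 1 := by
    rw [nrm_div, nrm_pow, heq, div_self hrj0.ne']
  obtain ⟨ζ', ζ'', hfix, hζp, hζ1, hnear⟩ := exists_teich hu
  obtain ⟨i, rfl⟩ := hpj
  have hi1 : 1 ≤ i := by
    rcases Nat.eq_zero_or_pos i with h0 | h0
    · rw [h0, mul_zero] at hj1; omega
    · exact h0
  have hip : i ≤ p := by
    by_contra hcon
    have h1 : p * (p + 1) ≤ p * i := Nat.mul_le_mul_left p (by omega)
    have h2 : p * (p + 1) = p ^ 2 + p := by ring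
    omega
  have hζ'1 : nrm p ζ' = 1 := by rw [← hζp, nrm_pow, hζ1, one_pow]
  have hζL : ζ'' ∈ FL p ϖ := mem_FL_of_fixed hfix
  have ht : nrm p (-(ζ'' * ϖ ^ i)) = nrm p ϖ ^ i := by
    rw [nrm_neg, nrm_mul, nrm_pow, hζ1, one_mul]
  have hri1 : nrm p ϖ ^ i < 1 := pow_lt_one₀ hr0.le hr1 (by omega)
  obtain ⟨c, hc, hexp⟩ := exists_one_add_pow (p := p) (t := -(ζ'' * ϖ ^ i)) (by rw [ht]; exact hri1.le)
  have htp : (-(ζ'' * ϖ ^ i)) ^ p = -(ζ' * ϖ ^ (p * i)) := by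
    rw [(hpp.odd_of_ne_two hp2).neg_pow, mul_pow, hζp, ← pow_mul, mul_comm i p]
  have hwL : 1 + -(ζ'' * ϖ ^ i) ∈ FL p ϖ :=
    add_mem (one_mem _) (neg_mem (mul_mem hζL (pow_mem hϖL i)))
  refine ⟨1 + -(ζ'' * ϖ ^ i), hwL, ?_, ?_⟩
  · intro h0
    have h1 : -(ζ'' * ϖ ^ i) = -1 := by linear_combination h0
    rw [h1, nrm_neg, nrm_one] at ht
    rw [← ht] at hri1
    exact lt_irrefl _ hri1
  · apply nrm_le_pow_succ hϖ (sub_mem (mul_mem hx (pow_mem hwL p)) (one_mem _))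
    have hdecomp : x * (1 + -(ζ'' * ϖ ^ i)) ^ p - 1 =
        ((x - 1) / ϖ ^ (p * i) - ζ') * ϖ ^ (p * i) +
          (x * ((p : Qbar) * -(ζ'' * ϖ ^ i) * c) - (x - 1) * (ζ' * ϖ ^ (p * i))) := by
      rw [hexp, htp, sub_mul, div_mul_cancel₀ _ (pow_ne_zero _ hϖ0)]
      ring
    rw [hdecomp]
    have hA : nrm p (((x - 1) / ϖ ^ (p * i) - ζ') * ϖ ^ (p * i)) < nrm p ϖ ^ (p * i) := by
      rw [nrm_mul, nrm_pow]
      calc nrm p ((x - 1) / ϖ ^ (p * i) - ζ') * nrm p ϖ ^ (p * i) < 1 * nrm p ϖ ^ (p * i) :=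
            mul_lt_mul_of_pos_right hnear hrj0
        _ = _ := one_mul _
    have hxle : nrm p x ≤ 1 := by
      have h1 : x = (x - 1) + 1 := by ring
      rw [h1]
      refine (nrm_add_le_max p _ _).trans (max_le (h.trans hrj1.le) ?_)
      rw [nrm_one]
    have hB : nrm p (x * ((p : Qbar) * -(ζ'' * ϖ ^ i) * c)) < nrm p ϖ ^ (p * i) := by
      rw [nrm_mul, nrm_mul, nrm_mul, ht, nrm_natCast_self, ← nrm_pi_pow hϖ, ← pow_add]
      have h1 : nrm p ϖ ^ (p ^ 2 - 1 + i) < nrm p ϖ ^ (p * i) :=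
        pow_lt_pow_right_of_lt_one₀ hr0 hr1 (LevC_arith p i hpp.two_le hi1 hip)
      have h2 : 0 ≤ nrm p ϖ ^ (p ^ 2 - 1 + i) := (pow_pos hr0 _).le
      calc nrm p x * (nrm p ϖ ^ (p ^ 2 - 1 + i) * nrm p c)
          ≤ 1 * (nrm p ϖ ^ (p ^ 2 - 1 + i) * 1) :=
            mul_le_mul hxle (mul_le_mul_of_nonneg_left hc h2)
              (mul_nonneg h2 (nrm_nonneg p c)) zero_le_one
        _ = nrm p ϖ ^ (p ^ 2 - 1 + i) := by ring
        _ < _ := h1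
    have hC : nrm p ((x - 1) * (ζ' * ϖ ^ (p * i))) < nrm p ϖ ^ (p * i) := by
      rw [nrm_mul, nrm_mul, nrm_pow, hζ'1, one_mul, heq]
      calc nrm p ϖ ^ (p * i) * nrm p ϖ ^ (p * i) < 1 * nrm p ϖ ^ (p * i) :=
            mul_lt_mul_of_pos_right hrj1 hrj0
        _ = _ := one_mul _
    exact lt_of_le_of_lt (nrm_add_le_max p _ _)
      (max_lt hA (lt_of_le_of_lt (nrm_sub_le_max p _ _) (max_lt hB hC)))

end Fermat.Agent.S56.F.C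

end
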