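/-
S56 / F / C / Climb1 : the three kinds of steps `j → j + 1`.      TASK S56/FC-Climb1
-/
import Fermat.Agent.S56.F.C.Climb0
import Fermat.Agent.S56.F.C.HfunB
import Fermat.Agent.S56.F.C.LevC

set_option autoImplicit false

noncomputable section

namespace Fermat.Agent.S56.F.C

open Fermat.Agent.S55 Fermat.Agent.S55.Places ExtCitation Module Polynomial

variable {p : ℕ} [Fact p.Prime] {k : Type} [Field k] [Algebra (ZMod p) k] {ϖ : Qbar}
  {M : GQ →* M2 k} {z : GQ → Ad0 p k}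

/-- `p ∣ j`: `exists_mul_pow_le_succ` + `Gen.mul_pow`. -/
theorem step_dvd (hp2 : p ≠ 2) (hϖ : ϖ ^ (p ^ 2 - 1) = -(p : Qbar)) {j : ℕ} (hj1 : 1 ≤ j)
    (hj : j < p ^ 2 + p) (hpj : p ∣ j) {B : Ad0 p k} (h : Lev ϖ z B j) : Lev ϖ z B (j + 1) := by
  obtain ⟨x, hx, hle⟩ := h
  obtain ⟨w, hw, hw0, hle'⟩ := exists_mul_pow_le_succ hp2 hϖ hx.mem hj1 hj hpj hle
  exact ⟨x * w ^ p, hx.mul_pow hw hw0, hle'⟩

/-- `NoLevel`: the generator `x` (with its root `y`) has `|x - 1| ≤ r^j`, `≠ r^j`, so `< r^j`, so `≤ r^(j+1)` by `nrm_le_pow_succ`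
(`x - 1 ∈ FL`: `sub_mem`, `one_mem`). -/
theorem step_nolevel (hϖ : ϖ ^ (p ^ 2 - 1) = -(p : Qbar)) {j : ℕ} (hno : NoLevel ϖ z j)
    {B : Ad0 p k} (h : Lev ϖ z B j) : Lev ϖ z B (j + 1) := by
  obtain ⟨x, hx, hle⟩ := h
  obtain ⟨hxL, y, -, hyx, hy⟩ := id hx
  have hne := hno B x y hxL hyx hy
  exact ⟨x, hx, nrm_le_pow_succ hϖ (sub_mem hxL (one_mem _)) (lt_of_le_of_ne hle hne)⟩

/-- `p ∤ j`, `j` not special: `h := hfun ϖ j z` is additive (`hfun_add_B`), `h (T g0 B) = θ0^j h B` (`hfun_T_of_mem_Iq`, `S.θ0 = rd p (S.g0 ϖ / ϖ)` by `rfl`),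
so `h = 0` (`Setup.eq_zero`, `not_special`), then `lev_succ_of_hfun_eq_zero`. -/
theorem step_eq (hp2 : p ≠ 2) (S : Setup p M ϖ)
    (hdet : ∀ σ, (M σ).det = algebraMap (ZMod p) k ((cycloChar p σ : (ZMod p)ˣ) : ZMod p))
    (hz : z ∈ Z1 Lall (ad0 p M)) {j : ℕ} (hj1 : 1 ≤ j) (hj : j < p ^ 2 + p) (hpj : ¬ p ∣ j)
    (h2 : j ≠ 2) (h3 : j ≠ p + 1) (h4 : j ≠ p ^ 2 + 1) (h : ∀ B, Lev ϖ z B j) :
    ∀ B, Lev ϖ z B (j + 1) := by
  have h0 : ∀ B, hfun ϖ j z B = 0 :=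
    S.eq_zero (hfun ϖ j z) (fun B B' => hfun_add_B S.hϖ hj1 hj hpj (h B) (h B'))
      (fun B => hfun_T_of_mem_Iq S.hϖ hdet S.ker hz S.g0_mem hj1 hj hpj (h B))
      (not_special hp2 hj1 hj hpj h2 h3 h4)
  exact fun B => lev_succ_of_hfun_eq_zero S.hϖ hj1 hj hpj (h B) (h0 B)

/-- induction on `j` (`Nat.le_induction` from `1`): `step_zero`; then `by_cases p ∣ j` (`step_dvd`), `j = 2`, `j = p + 1` (`step_nolevel`), else `step_eq`
(`j ≤ p²` gives `j ≠ p² + 1`, `j < p² + p`). -/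
theorem climb_low (hp2 : p ≠ 2) (S : Setup p M ϖ)
    (hdet : ∀ σ, (M σ).det = algebraMap (ZMod p) k ((cycloChar p σ : (ZMod p)ˣ) : ZMod p))
    (hz : z ∈ Z1 Lall (ad0 p M)) (hno2 : NoLevel ϖ z 2) (hno3 : NoLevel ϖ z (p + 1)) :
    ∀ B, Lev ϖ z B (p ^ 2 + 1) := by
  have key : ∀ j : ℕ, 1 ≤ j → j ≤ p ^ 2 + 1 → ∀ B, Lev ϖ z B j := by
    intro j hj1
    induction j, hj1 using Nat.le_induction with
    | base => exact fun _ => step_zero hp2 S hdet hz
    | succ j hj1 ih =>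
      intro hj
      have ih' := ih (by omega)
      have hjlt : j < p ^ 2 + p := by
        have := (Fact.out : p.Prime).pos
        omega
      by_cases hpj : p ∣ j
      · exact fun B => step_dvd hp2 S.hϖ hj1 hjlt hpj (ih' B)
      by_cases h2 : j = 2
      · subst h2
        exact fun B => step_nolevel S.hϖ hno2 (ih' B)
      by_cases h3 : j = p + 1
      · subst h3
        exact fun B => step_nolevel S.hϖ hno3 (ih' B)
      exact step_eq hp2 S hdet hz hj1 hjlt hpj h2 h3 (by omega) ih'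
  exact key _ (by omega) le_rfl

/-- induction from `p² + 2` to `p² + p` with `step_eq`: for `p² + 2 ≤ j < p² + p`: `p ∤ j` (`p² < j < p² + p`), `j ≠ 2, p + 1, p² + 1`. -/
theorem climb_high (hp2 : p ≠ 2) (S : Setup p M ϖ)
    (hdet : ∀ σ, (M σ).det = algebraMap (ZMod p) k ((cycloChar p σ : (ZMod p)ˣ) : ZMod p))
    (hz : z ∈ Z1 Lall (ad0 p M)) (h : ∀ B, Lev ϖ z B (p ^ 2 + 2)) :
    ∀ B, Lev ϖ z B (p ^ 2 + p) := by
  have hpp : p.Prime := Fact.out
  have hp3 : 3 ≤ p := by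
    have := hpp.two_le
    omega
  have key : ∀ j : ℕ, p ^ 2 + 2 ≤ j → j ≤ p ^ 2 + p → ∀ B, Lev ϖ z B j := by
    intro j hj1
    induction j, hj1 using Nat.le_induction with
    | base => exact fun _ => h
    | succ j hj1 ih =>
      intro hj
      have ih' := ih (by omega)
      have hpj : ¬ p ∣ j := by
        rintro ⟨c, rfl⟩
        have h1 : p * p < p * c := by
          have : p ^ 2 = p * p := sq p
          omega
        have h2 : p * c < p * (p + 1) := by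
          have : p * (p + 1) = p ^ 2 + p := by ring
          omega
        have h3 := Nat.lt_of_mul_lt_mul_left h1
        have h4 := Nat.lt_of_mul_lt_mul_left h2
        omega
      have hsq : p + 1 ≤ p ^ 2 := by nlinarith
      exact step_eq hp2 S hdet hz (by omega) (by omega) hpj (by omega) (by omega) (by omega) ih'
  exact key _ (by omega) le_rfl

end Fermat.Agent.S56.F.C

end
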