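/-
S56 / F / C / CountA : fixed vectors of a Frobenius-semilinear map.      TASK S56/FC-CountA       (pure algebra, Mathlib only)
-/
import Mathlib

set_option autoImplicit false

noncomputable section

namespace Fermat.Agent.S56.F.C

open Module

variable {p : ℕ} [Fact p.Prime] {Ω V : Type} [Field Ω] [Algebra (ZMod p) Ω] [AddCommGroup V]
  [Module Ω V] [Module (ZMod p) V] [IsScalarTower (ZMod p) Ω V]

/-- the fixed field of the Frobenius is the prime field (copy of `exists_zmod_of_pow_eq` of C/Rd.lean). -/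
theorem CountA_exists_zmod {F : Type} [Field F] [Algebra (ZMod p) F] {w : F} (hw : w ^ p = w) :
    ∃ n : ZMod p, algebraMap (ZMod p) F n = w := by
  classical
  have hp : p.Prime := Fact.out
  let P : Polynomial F := Polynomial.X ^ p - Polynomial.X
  have hP0 : P ≠ 0 := FiniteField.X_pow_card_sub_X_ne_zero F hp.one_lt
  have hdeg : P.natDegree = p := FiniteField.X_pow_card_sub_X_natDegree_eq F hp.one_lt
  let S : Finset F := Finset.univ.image (algebraMap (ZMod p) F)
  have hScard : S.card = p := by
    rw [Finset.card_image_of_injective _ (algebraMap (ZMod p) F).injective, Finset.card_univ,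
      ZMod.card]
  have hsub : S ⊆ P.roots.toFinset := by
    intro x hx
    obtain ⟨n, -, rfl⟩ := Finset.mem_image.mp hx
    rw [Multiset.mem_toFinset, Polynomial.mem_roots hP0]
    simp [P, Polynomial.IsRoot, ← map_pow, ZMod.pow_card]
  have hle : P.roots.toFinset.card ≤ S.card := by
    rw [hScard, ← hdeg]
    exact (Multiset.toFinset_card_le _).trans (Polynomial.card_roots' P)
  have heq := Finset.eq_of_subset_of_card_le hsub hle
  have hw' : w ∈ P.roots.toFinset := by
    rw [Multiset.mem_toFinset, Polynomial.mem_roots hP0]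
    simp [P, Polynomial.IsRoot, hw]
  rw [← heq] at hw'
  obtain ⟨n, -, hn⟩ := Finset.mem_image.mp hw'
  exact ⟨n, hn⟩

/-- **`𝔽_p`-independent fixed vectors of a `p`-semilinear map are `Ω`-independent.**
Proof (Artin/Dedekind).  Enough: for every finset `s` and `a : ι → Ω` with `∑ i ∈ s, a i • v i = 0`, all `a i = 0` (`linearIndependent_iff'`).
Strong induction on `s.card`.  Suppose some `a i0 ≠ 0`, `i0 ∈ s`; dividing by `a i0`, wlog `a i0 = 1`.  Applying `Ψ` : `∑ (a i)^p • v i = 0`
(`Ψ` of a finite sum: induction with `hadd`; `Ψ 0 = 0` from `hadd 0 0`).  Subtract: `∑ i ∈ s.erase i0, ((a i)^p - a i) • v i = 0`; by induction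
`(a i)^p = a i` for all `i ∈ s`, so `a i = algebraMap (ZMod p) Ω (n i)` (the polynomial `X^p - X` has at most `p` roots and the `p` elements of the prime
field are roots; cf. `exists_zmod_of_pow_eq` in C/Rd.lean, whose proof can be copied here under another name), and
`∑ i ∈ s, n i • v i = 0` (`algebraMap_smul`) contradicts `hli` as `n i0 = 1 ≠ 0`. -/
theorem linearIndependent_of_semilinear_fixed (Ψ : V → V) (hadd : ∀ v w, Ψ (v + w) = Ψ v + Ψ w)
    (hsemi : ∀ (a : Ω) (v : V), Ψ (a • v) = a ^ p • Ψ v) {ι : Type} (v : ι → V)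
    (hfix : ∀ i, Ψ (v i) = v i) (hli : LinearIndependent (ZMod p) v) : LinearIndependent Ω v := by
  classical
  have hΨ0 : Ψ 0 = 0 := by
    have h := hadd 0 0
    rw [add_zero] at h
    exact left_eq_add.1 h
  have hΨsum : ∀ (s : Finset ι) (f : ι → V), Ψ (∑ i ∈ s, f i) = ∑ i ∈ s, Ψ (f i) := by
    intro s f
    induction s using Finset.induction_on with
    | empty => simpa using hΨ0
    | insert a s ha ih => rw [Finset.sum_insert ha, Finset.sum_insert ha, hadd, ih]
  rw [linearIndependent_iff']
  intro s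
  induction s using Finset.strongInduction with
  | H s ih =>
    intro a hsum
    by_contra hcon
    simp only [not_forall] at hcon
    obtain ⟨i0, hi0, hai0⟩ := hcon
    obtain ⟨b, hb⟩ : ∃ b : ι → Ω, b = fun i => (a i0)⁻¹ * a i := ⟨_, rfl⟩
    have hbsum : ∑ i ∈ s, b i • v i = 0 := by
      have h1 : ∑ i ∈ s, b i • v i = (a i0)⁻¹ • ∑ i ∈ s, a i • v i := by
        rw [Finset.smul_sum, hb]
        exact Finset.sum_congr rfl fun i _ => by rw [smul_smul]
      rw [h1, hsum, smul_zero]
    have hb0 : b i0 = 1 := by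
      rw [hb]
      exact inv_mul_cancel₀ hai0
    have hΨb : ∑ i ∈ s, (b i) ^ p • v i = 0 := by
      have h1 := congrArg Ψ hbsum
      rw [hΨsum, hΨ0] at h1
      rw [← h1]
      exact Finset.sum_congr rfl fun i _ => by rw [hsemi, hfix]
    have hdiff : ∑ i ∈ s.erase i0, ((b i) ^ p - b i) • v i = 0 := by
      have h1 : ∑ i ∈ s, ((b i) ^ p - b i) • v i = 0 := by
        simp_rw [sub_smul]
        rw [Finset.sum_sub_distrib, hΨb, hbsum, sub_zero]
      rw [← Finset.add_sum_erase s _ hi0, hb0, one_pow, sub_self, zero_smul, zero_add] at h1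
      exact h1
    have hpow : ∀ i ∈ s, (b i) ^ p = b i := by
      intro i hi
      by_cases h : i = i0
      · rw [h, hb0, one_pow]
      · exact sub_eq_zero.1 (ih (s.erase i0) (Finset.erase_ssubset hi0) _ hdiff i
          (Finset.mem_erase.2 ⟨h, hi⟩))
    choose! n hn using fun i (hi : i ∈ s) => CountA_exists_zmod (hpow i hi)
    have hnsum : ∑ i ∈ s, n i • v i = 0 := by
      rw [← hbsum]
      exact Finset.sum_congr rfl fun i hi => by rw [← hn i hi, algebraMap_smul]
    have h0 := linearIndependent_iff'.1 hli s n hnsum i0 hi0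
    have h1 : algebraMap (ZMod p) Ω (n i0) = 1 := by rw [hn i0 hi0, hb0]
    rw [h0, map_zero] at h1
    exact zero_ne_one h1

/-- Consequence.  For a finset `t` of `↥S` which is `𝔽_p`-independent, the family `fun i : t => ((i : ↥S) : V)` is `𝔽_p`-independent
(`LinearIndependent.map'` with `S.subtype`, `Submodule.ker_subtype`), hence `Ω`-independent, and takes values in `E`, so
`t.card ≤ finrank Ω E` (`LinearIndependent.of_comp`/`LinearIndependent.codRestrict`-style: lift to `↥E` via `E.subtype`; `LinearIndependent.fintype_card_le_finrank`).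
Then `rank_le` gives `Module.rank (ZMod p) S ≤ finrank Ω E < ℵ₀`: `Module.rank_lt_aleph0_iff`/`Module.finite_of_rank_lt_aleph0`…, `Module.finrank_le_of_rank_le`. -/
theorem finrank_le_of_semilinear_fixed (Ψ : V → V) (hadd : ∀ v w, Ψ (v + w) = Ψ v + Ψ w)
    (hsemi : ∀ (a : Ω) (v : V), Ψ (a • v) = a ^ p • Ψ v) (E : Submodule Ω V)
    [FiniteDimensional Ω E] (S : Submodule (ZMod p) V) (hSE : ∀ v ∈ S, v ∈ E)
    (hfix : ∀ v ∈ S, Ψ v = v) :
    Module.Finite (ZMod p) S ∧ finrank (ZMod p) S ≤ finrank Ω E := by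
  classical
  let b := Basis.ofVectorSpace (ZMod p) S
  have h1 : LinearIndependent (ZMod p) (fun i => ((b i : S) : V)) :=
    b.linearIndependent.map' S.subtype (Submodule.ker_subtype S)
  have h2 : LinearIndependent Ω (fun i => ((b i : S) : V)) :=
    linearIndependent_of_semilinear_fixed Ψ hadd hsemi _ (fun i => hfix _ (b i).2) h1
  have h3 : LinearIndependent Ω (fun i => (⟨((b i : S) : V), hSE _ (b i).2⟩ : E)) := by
    apply LinearIndependent.of_comp E.subtype
    exact h2
  have hfin : Finite (Basis.ofVectorSpaceIndex (ZMod p) S) := h3.finite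
  have := Fintype.ofFinite (Basis.ofVectorSpaceIndex (ZMod p) S)
  refine ⟨Module.Finite.of_basis b, ?_⟩
  rw [finrank_eq_card_basis b]
  exact h3.fintype_card_le_finrank

end Fermat.Agent.S56.F.C

end
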