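/-
S56 / F / C / CountB : additive maps `ℓ : k → Ω` with `ℓ(α c) = β ℓ(c)`.      TASK S56/FC-CountB       (pure algebra, Mathlib only)
-/
import Mathlib

set_option autoImplicit false

noncomputable section

namespace Fermat.Agent.S56.F.C

open Module Polynomial

variable {p : ℕ} [Fact p.Prime] {k : Type} [Field k] [Algebra (ZMod p) k]
  {Ω : Type} [Field Ω] [Algebra (ZMod p) Ω]

/-- additive maps `ℓ : k → Ω` with `ℓ(α c) = β ℓ(c)`. -/
def Eab (α : k) (β : Ω) : Submodule Ω (k → Ω) where
  carrier := {ℓ | (∀ c c', ℓ (c + c') = ℓ c + ℓ c') ∧ ∀ c, ℓ (α * c) = β * ℓ c}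
  add_mem' := by
    rintro a b ⟨ha, ha'⟩ ⟨hb, hb'⟩
    refine ⟨fun c c' => ?_, fun c => ?_⟩
    · simp only [Pi.add_apply, ha, hb]; ring
    · simp only [Pi.add_apply, ha', hb']; ring
  zero_mem' := ⟨fun _ _ => by simp, fun _ => by simp⟩
  smul_mem' := by
    rintro t a ⟨ha, ha'⟩
    refine ⟨fun c c' => ?_, fun c => ?_⟩
    · simp only [Pi.smul_apply, ha, smul_eq_mul]; ring
    · simp only [Pi.smul_apply, ha', smul_eq_mul]; ring

/-- additive maps are `𝔽_p`-linear, hence `ℓ(P(α) c) = P(β) ℓ(c)` for `P ∈ 𝔽_p[X]` (`Polynomial.induction_on`; constants: `n • c = n.val • c`). -/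
theorem Eab_aeval {α : k} {β : Ω} {ℓ : k → Ω} (hℓ : ℓ ∈ Eab α β) (P : (ZMod p)[X]) (c : k) :
    ℓ (aeval α P * c) = aeval β P * ℓ c := by
  obtain ⟨hadd, hmul⟩ := hℓ
  have : NeZero p := ⟨(Fact.out : p.Prime).ne_zero⟩
  have h0 : ℓ 0 = 0 := by
    have h := hadd 0 0
    rw [add_zero] at h
    exact left_eq_add.1 h
  have h1 : ∀ (n : ℕ) (c : k), ℓ ((n : k) * c) = (n : Ω) * ℓ c := by
    intro n c
    induction n with
    | zero => rw [Nat.cast_zero, zero_mul, h0, Nat.cast_zero, zero_mul]
    | succ n ih => rw [Nat.cast_succ, add_mul, one_mul, hadd, ih, Nat.cast_succ, add_mul, one_mul]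
  have h2 : ∀ (a : ZMod p) (c : k),
      ℓ (algebraMap (ZMod p) k a * c) = algebraMap (ZMod p) Ω a * ℓ c := by
    intro a c
    rw [← ZMod.natCast_zmod_val a, map_natCast, map_natCast, h1]
  have h3 : ∀ (n : ℕ) (c : k), ℓ (α ^ n * c) = β ^ n * ℓ c := by
    intro n c
    induction n with
    | zero => rw [pow_zero, one_mul, pow_zero, one_mul]
    | succ n ih => rw [pow_succ', mul_assoc, hmul, ih, pow_succ', mul_assoc]
  induction P using Polynomial.induction_on' with
  | add P Q hP hQ => rw [map_add, add_mul, hadd, hP, hQ, map_add, add_mul]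
  | monomial n a =>
    rw [aeval_monomial, aeval_monomial, mul_assoc, h2, h3, mul_assoc]

/-- **Bound.**  `F := IntermediateField.adjoin (ZMod p) {α}`;  `finrank (ZMod p) F * finrank F k = finrank (ZMod p) k` (`Module.finrank_mul_finrank`);
`finrank (ZMod p) F ≠ 1` since `α ∉ ⊥` (`IntermediateField.finrank_adjoin_simple_eq_one_iff`; `α = algebraMap n` would give `α^p = α`, `ZMod.pow_card`), and `≠ 0`, so `≥ 2`.
Let `b := Module.finBasis F k`.  The `Ω`-linear map `Eab α β → (Fin _ → Ω)`, `ℓ ↦ fun i => ℓ (b i)` is injective: every `λ ∈ F` is `aeval α P`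
(`α` is integral as `k` is finite: `IntermediateField.adjoin_simple_toSubalgebra_of_integral`/`..._of_isAlgebraic`, `Algebra.adjoin_singleton_eq_range_aeval`), every `c` is `∑ λ_i • b i` (`Basis.sum_repr`),
`ℓ` of a finite sum is the sum (induction), `Eab_aeval`.  `LinearMap.finrank_le_finrank_of_injective`, `Module.finrank_fin_fun`. -/
theorem finrank_Eab_le [Finite k] (α : k) (hα : α ^ p ≠ α) (β : Ω) :
    2 * finrank Ω (Eab α β) ≤ finrank (ZMod p) k := by
  classical
  have hp : p.Prime := Fact.out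
  set F : IntermediateField (ZMod p) k := IntermediateField.adjoin (ZMod p) {α} with hF
  have hfin1 : Module.Finite (ZMod p) k := Module.Finite.of_finite
  have hfin2 : Module.Finite (ZMod p) F := Module.Finite.of_finite
  have hfin3 : Module.Finite F k := Module.Finite.of_finite
  have hmul : finrank (ZMod p) F * finrank F k = finrank (ZMod p) k :=
    Module.finrank_mul_finrank (ZMod p) F k
  have hd1 : finrank (ZMod p) F ≠ 1 := by
    intro h1
    rw [hF, IntermediateField.finrank_adjoin_simple_eq_one_iff, IntermediateField.mem_bot] at h1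
    obtain ⟨a, ha⟩ := h1
    apply hα
    rw [← ha, ← map_pow, ZMod.pow_card]
  have hd0 : 0 < finrank (ZMod p) F := Module.finrank_pos
  have hd2 : 2 ≤ finrank (ZMod p) F := by omega
  -- every element of `F` is a polynomial in `α`
  have hpoly : ∀ x : F, ∃ P : (ZMod p)[X], aeval α P = (x : k) := by
    rintro ⟨x, hx⟩
    have hint : IsIntegral (ZMod p) α := Algebra.IsIntegral.isIntegral α
    have h1 : x ∈ F.toSubalgebra := hx
    rw [hF, IntermediateField.adjoin_simple_toSubalgebra_of_isAlgebraic hint.isAlgebraic,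
      Algebra.adjoin_singleton_eq_range_aeval] at h1
    exact h1
  set b := Module.finBasis F k with hb
  have hle : finrank Ω (Eab α β) ≤ finrank F k := by
    have hinj : Function.Injective
        ((LinearMap.funLeft Ω Ω (b : Fin (finrank F k) → k)) ∘ₗ (Eab α β).subtype) := by
      rw [← LinearMap.ker_eq_bot, LinearMap.ker_eq_bot']
      intro ℓ hℓ
      have hℓ0 : ∀ i, (ℓ : k → Ω) (b i) = 0 := fun i => congrFun hℓ i
      apply Subtype.ext
      funext c
      set L : k →+ Ω := AddMonoidHom.mk' (ℓ : k → Ω) ℓ.2.1 with hL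
      have hc : (ℓ : k → Ω) c = L (∑ i, b.repr c i • b i) := by
        rw [b.sum_repr]
        rfl
      rw [hc, map_sum]
      refine Finset.sum_eq_zero fun i _ => ?_
      obtain ⟨P, hP⟩ := hpoly (b.repr c i)
      have e1 : b.repr c i • b i = aeval α P * b i := by
        rw [hP]
        rfl
      rw [e1]
      change (ℓ : k → Ω) (aeval α P * b i) = 0
      rw [Eab_aeval ℓ.2, hℓ0, mul_zero]
    have h1 := LinearMap.finrank_le_finrank_of_injective hinj
    rwa [Module.finrank_fin_fun] at h1
  calc 2 * finrank Ω (Eab α β) ≤ finrank (ZMod p) F * finrank F k := Nat.mul_le_mul hd2 hle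
    _ = finrank (ZMod p) k := hmul

end Fermat.Agent.S56.F.C

end
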