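/-
S56 / F / C / CountC : eigen-decomposition of `W = Ad0` under `T(g)`, `g` with distinct eigenvalues in `k`.      TASK S56/FC-CountC
-/
import Fermat.Agent.S56.F.C.Defs

set_option autoImplicit false

noncomputable section

namespace Fermat.Agent.S56.F.C

open Fermat.Agent.S55 Fermat.Agent.S55.Places ExtCitation Module Polynomial

variable {p : ℕ} [Fact p.Prime] {k : Type} [Field k] [Algebra (ZMod p) k]

/-- explicit diagonalisation of a `2 × 2` matrix. -/
theorem CountC_diag_aux (x y u t a b : k) (hab : a ≠ b) (htr : x + t = a + b)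
    (hdet : x * t - y * u = a * b) :
    ∃ P : M2 k, P.det ≠ 0 ∧ !![x, y; u, t] * P = P * Matrix.diagonal ![a, b] := by
  have hba : b - a ≠ 0 := sub_ne_zero.mpr hab.symm
  have hab' : a - b ≠ 0 := sub_ne_zero.mpr hab
  by_cases hy : y = 0
  · by_cases hu : u = 0
    · subst hy hu
      have h1 : (x - a) * (x - b) = 0 := by linear_combination x * htr - hdet
      rcases mul_eq_zero.mp h1 with h2 | h2
      · have hx : x = a := sub_eq_zero.mp h2
        have ht : t = b := by linear_combination htr - hx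
        subst hx ht
        refine ⟨1, by simp, ?_⟩
        ext i j
        fin_cases i <;> fin_cases j <;> simp
      · have hx : x = b := sub_eq_zero.mp h2
        have ht : t = a := by linear_combination htr - hx
        subst hx ht
        refine ⟨!![0, 1; 1, 0], by simp [Matrix.det_fin_two], ?_⟩
        ext i j
        fin_cases i <;> fin_cases j <;> simp [Matrix.mul_apply, Fin.sum_univ_two]
    · refine ⟨!![a - t, b - t; u, u], ?_, ?_⟩
      · rw [Matrix.det_fin_two_of]
        have : (a - t) * u - (b - t) * u = (a - b) * u := by ring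
        rw [this]
        exact mul_ne_zero hab' hu
      · ext i j
        fin_cases i <;> fin_cases j <;> simp [Matrix.mul_apply, Fin.sum_univ_two]
        · linear_combination a * htr - hdet
        · linear_combination b * htr - hdet
        · ring
        · ring
  · refine ⟨!![y, y; a - x, b - x], ?_, ?_⟩
    · rw [Matrix.det_fin_two_of]
      have : y * (b - x) - y * (a - x) = y * (b - a) := by ring
      rw [this]
      exact mul_ne_zero hy hba
    · ext i j
      fin_cases i <;> fin_cases j <;> simp [Matrix.mul_apply, Fin.sum_univ_two]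
      · ring
      · ring
      · linear_combination a * htr - hdet
      · linear_combination b * htr - hdet

/-- diagonalisation.  `a`, `b` are roots of the characteristic polynomial, so eigenvalues: `det (a • 1 - A) = 0` (`Matrix.eval_charpoly`/`Matrix.charpoly` evaluated), so there are
`v ≠ 0`, `w ≠ 0` with `A v = a v`, `A w = b w` (`Matrix.exists_mulVec_eq_zero_iff`); `v, w` are independent as `a ≠ b`; `P := Matrix.of ![..]` with columns `v, w`;
`det P ≠ 0` (if `v 0 * w 1 = v 1 * w 0` then `v, w` are proportional);  `Matrix.GeneralLinearGroup.mkOfDetNeZero`.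
(Alternative, explicit: with `A = !![x, y; u, t]`: if `y ≠ 0` take `v = (y, a - x)`, `w = (y, b - x)`; if `u ≠ 0` take `(a - t, u)`, `(b - t, u)`; if `y = u = 0` then `{x, t} = {a, b}`.) -/
theorem exists_diag {A : M2 k} {a b : k} (hab : a ≠ b) (h : A.charpoly = (X - C a) * (X - C b)) :
    ∃ P : GL (Fin 2) k, A * P.val = P.val * Matrix.diagonal ![a, b] := by
  rw [Matrix.charpoly_fin_two] at h
  have ha := congrArg (Polynomial.eval a) h
  have hb := congrArg (Polynomial.eval b) h
  simp only [eval_add, eval_sub, eval_mul, eval_pow, eval_X, eval_C, sub_self, zero_mul,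
    mul_zero] at ha hb
  have hab' : a - b ≠ 0 := sub_ne_zero.mpr hab
  have htr : A.trace = a + b := by
    have : (a - b) * (a + b - A.trace) = 0 := by linear_combination ha - hb
    rcases mul_eq_zero.mp this with h1 | h1
    · exact absurd h1 hab'
    · exact (sub_eq_zero.mp h1).symm
  have hdet : A.det = a * b := by
    rw [htr] at ha
    linear_combination ha
  rw [Matrix.trace_fin_two] at htr
  rw [Matrix.det_fin_two] at hdet
  obtain ⟨P, hP, hAP⟩ := CountC_diag_aux (A 0 0) (A 0 1) (A 1 0) (A 1 1) a b hab htr hdet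
  rw [← Matrix.eta_fin_two A] at hAP
  exact ⟨Matrix.GeneralLinearGroup.mkOfDetNeZero P hP, hAP⟩

/-- `tw g` in a diagonalising basis. -/
theorem CountC_tw_conj (g P : GL (Fin 2) k) (D : M2 k) (hgP : g.val * P.val = P.val * D)
    (Y : M2 k) :
    GT.tw g (P.val * Y * (P⁻¹ : GL (Fin 2) k).val)
      = P.val * (D * Y * D.adjugate) * (P⁻¹ : GL (Fin 2) k).val := by
  have hPPi : P.val * (P⁻¹ : GL (Fin 2) k).val = 1 := by
    rw [← Units.val_mul, mul_inv_cancel, Units.val_one]
  have hdetP : P.val.det ≠ 0 := ((Matrix.isUnit_iff_isUnit_det _).mp P.isUnit).ne_zero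
  have hadjP : P.val.adjugate = P.val.det • (P⁻¹ : GL (Fin 2) k).val := by
    calc P.val.adjugate = P.val.adjugate * (P.val * (P⁻¹ : GL (Fin 2) k).val) := by
          rw [hPPi, mul_one]
      _ = (P.val.adjugate * P.val) * (P⁻¹ : GL (Fin 2) k).val := by rw [mul_assoc]
      _ = _ := by rw [Matrix.adjugate_mul, Matrix.smul_mul, one_mul]
  have hkey : (P⁻¹ : GL (Fin 2) k).val * g.val.adjugate = D.adjugate * (P⁻¹ : GL (Fin 2) k).val := by
    have h1 := congrArg Matrix.adjugate hgP
    rw [Matrix.adjugate_mul_distrib, Matrix.adjugate_mul_distrib, hadjP, Matrix.smul_mul,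
      Matrix.mul_smul] at h1
    exact smul_right_injective _ hdetP h1
  rw [GT.tw_def]
  calc g.val * (P.val * Y * (P⁻¹ : GL (Fin 2) k).val) * g.val.adjugate
      = (g.val * P.val) * Y * ((P⁻¹ : GL (Fin 2) k).val * g.val.adjugate) := by
        simp only [mul_assoc]
    _ = _ := by rw [hgP, hkey]; simp only [mul_assoc]

/-- **Decomposition.**  With `P` from `exists_diag` put `e1 c := P (c E₁₂) P⁻¹`, `e2 c := P (c E₂₁) P⁻¹`, `e0 c := P diag(c, -c) P⁻¹` (trace zero: `Matrix.trace_mul_comm`).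
`GT.tw g X = g X adj(g)` (`GT.tw_def`), `g = P D P⁻¹`, `adj g = P adj(D) P⁻¹` with `adj D = diag(b, a)` (e.g. from `g * adj g = det g`, or `GT.tw_eq_det_smul`):
`tw g (P Y P⁻¹) = P (D Y adj D) P⁻¹` and `D (c E₁₂) adj D = a² c E₁₂`, `D (c E₂₁) adj D = b² c E₂₁`, `D diag(c,-c) adj D = ab diag(c,-c)`.
Spanning: `Y := P⁻¹ B P` has trace zero, `Y = Y₀₁ E₁₂ + Y₁₀ E₂₁ + diag(Y₀₀, -Y₀₀)`. -/
theorem exists_decomp (g : GL (Fin 2) k) {a b : k} (hab : a ≠ b)
    (hchar : g.val.charpoly = (X - C a) * (X - C b)) :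
    ∃ e1 e2 e0 : k → Ad0 p k,
      (∀ c c', e1 (c + c') = e1 c + e1 c') ∧ (∀ c c', e2 (c + c') = e2 c + e2 c') ∧
      (∀ c c', e0 (c + c') = e0 c + e0 c') ∧
      (∀ c, TW.twAd g (e1 c) = e1 (a ^ 2 * c)) ∧ (∀ c, TW.twAd g (e2 c) = e2 (b ^ 2 * c)) ∧
      (∀ c, TW.twAd g (e0 c) = e0 (a * b * c)) ∧
      (∀ B : Ad0 p k, ∃ c1 c2 c0 : k, B = e1 c1 + e2 c2 + e0 c0) := by
  obtain ⟨P, hgP⟩ := exists_diag hab hchar
  have hPPi : P.val * (P⁻¹ : GL (Fin 2) k).val = 1 := by
    rw [← Units.val_mul, mul_inv_cancel, Units.val_one]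
  have hPiP : (P⁻¹ : GL (Fin 2) k).val * P.val = 1 := by
    rw [← Units.val_mul, inv_mul_cancel, Units.val_one]
  have htrF : ∀ Y : M2 k, (P.val * Y * (P⁻¹ : GL (Fin 2) k).val).trace = Y.trace := by
    intro Y
    rw [Matrix.trace_mul_comm, ← mul_assoc, hPiP, one_mul]
  have hadjD : (Matrix.diagonal ![a, b] : M2 k).adjugate = !![b, 0; 0, a] := by
    rw [Matrix.adjugate_fin_two]
    simp
  let F : (Y : M2 k) → Y.trace = 0 → Ad0 p k := fun Y hY =>
    ⟨P.val * Y * (P⁻¹ : GL (Fin 2) k).val, (mem_Ad0 p _).2 (by rw [htrF, hY])⟩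
  have hFadd : ∀ (Y Y' Z : M2 k) (hY : Y.trace = 0) (hY' : Y'.trace = 0) (hZ : Z.trace = 0),
      Z = Y + Y' → F Z hZ = F Y hY + F Y' hY' := by
    intro Y Y' Z hY hY' hZ h
    apply Subtype.ext
    show P.val * Z * (P⁻¹ : GL (Fin 2) k).val
      = P.val * Y * (P⁻¹ : GL (Fin 2) k).val + P.val * Y' * (P⁻¹ : GL (Fin 2) k).val
    rw [h, mul_add, add_mul]
  have hFtw : ∀ (Y Z : M2 k) (hY : Y.trace = 0) (hZ : Z.trace = 0),
      Matrix.diagonal ![a, b] * Y * !![b, 0; 0, a] = Z → TW.twAd g (F Y hY) = F Z hZ := by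
    intro Y Z hY hZ h
    apply Subtype.ext
    show GT.tw g (P.val * Y * (P⁻¹ : GL (Fin 2) k).val) = P.val * Z * (P⁻¹ : GL (Fin 2) k).val
    rw [CountC_tw_conj g P _ hgP, hadjD, h]
  have t1 : ∀ c : k, (!![0, c; 0, 0] : M2 k).trace = 0 := fun c => by simp [Matrix.trace_fin_two]
  have t2 : ∀ c : k, (!![0, 0; c, 0] : M2 k).trace = 0 := fun c => by simp [Matrix.trace_fin_two]
  have t0 : ∀ c : k, (!![c, 0; 0, -c] : M2 k).trace = 0 := fun c => by simp [Matrix.trace_fin_two]
  refine ⟨fun c => F _ (t1 c), fun c => F _ (t2 c), fun c => F _ (t0 c), ?_, ?_, ?_, ?_, ?_, ?_, ?_⟩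
  · intro c c'
    refine hFadd _ _ _ (t1 c) (t1 c') (t1 (c + c')) ?_
    ext i j
    fin_cases i <;> fin_cases j <;> simp
  · intro c c'
    refine hFadd _ _ _ (t2 c) (t2 c') (t2 (c + c')) ?_
    ext i j
    fin_cases i <;> fin_cases j <;> simp
  · intro c c'
    refine hFadd _ _ _ (t0 c) (t0 c') (t0 (c + c')) ?_
    ext i j
    fin_cases i <;> fin_cases j <;> simp
    ring
  · intro c
    refine hFtw _ _ (t1 c) (t1 (a ^ 2 * c)) ?_
    ext i j
    fin_cases i <;> fin_cases j <;> simp [Matrix.mul_apply, Fin.sum_univ_two]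
    ring
  · intro c
    refine hFtw _ _ (t2 c) (t2 (b ^ 2 * c)) ?_
    ext i j
    fin_cases i <;> fin_cases j <;> simp [Matrix.mul_apply, Fin.sum_univ_two]
    ring
  · intro c
    refine hFtw _ _ (t0 c) (t0 (a * b * c)) ?_
    ext i j
    fin_cases i <;> fin_cases j <;> simp [Matrix.mul_apply, Fin.sum_univ_two]
    · ring
    · ring
  · intro B
    set Y : M2 k := (P⁻¹ : GL (Fin 2) k).val * (B : M2 k) * P.val with hY
    have hYtr : Y.trace = 0 := by
      rw [hY, Matrix.trace_mul_comm, ← mul_assoc, hPPi, one_mul]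
      exact (mem_Ad0 p _).1 B.2
    have hBY : (B : M2 k) = P.val * Y * (P⁻¹ : GL (Fin 2) k).val := by
      rw [hY]
      calc (B : M2 k) = (P.val * (P⁻¹ : GL (Fin 2) k).val) * (B : M2 k)
            * (P.val * (P⁻¹ : GL (Fin 2) k).val) := by rw [hPPi, one_mul, mul_one]
        _ = _ := by simp only [mul_assoc]
    refine ⟨Y 0 1, Y 1 0, Y 0 0, ?_⟩
    apply Subtype.ext
    show (B : M2 k) = P.val * !![0, Y 0 1; 0, 0] * (P⁻¹ : GL (Fin 2) k).val
      + P.val * !![0, 0; Y 1 0, 0] * (P⁻¹ : GL (Fin 2) k).val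
      + P.val * !![Y 0 0, 0; 0, -Y 0 0] * (P⁻¹ : GL (Fin 2) k).val
    rw [← add_mul, ← add_mul, ← mul_add, ← mul_add, hBY]
    congr 2
    rw [Matrix.trace_fin_two] at hYtr
    have h11 : Y 1 1 = -Y 0 0 := by linear_combination hYtr
    ext i j
    fin_cases i <;> fin_cases j <;> simp [h11]

end Fermat.Agent.S56.F.C

end
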