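/-
S56 / F / C / CountD : the `θ0²`-eigenspace of `T(g0)` on additive functions `W → Ω` has `Ω`-dimension `≤ [k : 𝔽_p]`.      TASK S56/FC-CountD
-/
import Fermat.Agent.S56.F.C.CountB
import Fermat.Agent.S56.F.C.CountC
import Fermat.Agent.S56.F.C.Rd

set_option autoImplicit false

noncomputable section

namespace Fermat.Agent.S56.F.C

open Fermat.Agent.S55 Fermat.Agent.S55.Places ExtCitation Module Polynomial

variable {p : ℕ} [Fact p.Prime] {k : Type} [Field k] [Algebra (ZMod p) k]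
  {Ω : Type} [Field Ω] [Algebra (ZMod p) Ω]

/-- additive `h : W → Ω` with `h ∘ T(g) = β h`. -/
def Eeq (g : GL (Fin 2) k) (β : Ω) : Submodule Ω (Ad0 p k → Ω) where
  carrier := {h | (∀ B B', h (B + B') = h B + h B') ∧ ∀ B, h (TW.twAd g B) = β * h B}
  add_mem' := by
    rintro a b ⟨ha, ha'⟩ ⟨hb, hb'⟩
    refine ⟨fun c c' => ?_, fun c => ?_⟩
    · simp only [Pi.add_apply, ha, hb]; ring
    · simp only [Pi.add_apply, ha', hb']; ring
  zero_mem' := ⟨fun _ _ => by simp, fun _ => by simp⟩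
  smul_mem' := by
    rintro t a ⟨ha, ha'⟩
    refine ⟨fun c c' => ?_, fun c => ?_⟩
    · simp only [Pi.smul_apply, ha, smul_eq_mul]; ring
    · simp only [Pi.smul_apply, ha', smul_eq_mul]; ring

/-- **Bound.**  `exists_decomp g (a := a) (b := a^p)` (`a ≠ a^p` follows from `h1`).  The `Ω`-linear map
`Eeq g β → Eab (a^2) β × Eab ((a^p)^2) β`, `h ↦ (h ∘ e1, h ∘ e2)`, `β = ι a ^ 2`, is injective: `ℓ := h ∘ e0` is additive with `ℓ (a * a^p * c) = β ℓ c`;
`d := a * a^p` satisfies `d^p = d` (`ha`), so `d = algebraMap n` (`exists_zmod_of_pow_eq`), `ℓ (d * c) = ℓ (n • c) = ι d * ℓ c`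
(additive maps are `𝔽_p`-linear: `n • c = n.val • c`; `ι (algebraMap n) = (n.val : Ω)`), so `(ι a ^ (p+1) - ι a ^ 2) * ℓ c = 0`, `ℓ = 0` by `h2`; then `h B = h (e1 c1) + h (e2 c2) + h (e0 c0)`.
`finrank_Eab_le (a^2) h1 β`, `finrank_Eab_le ((a^p)^2) _ β` (`((a^p)^2)^p = a^2 ≠ (a^p)^2 = (a^2)^p`), `Module.finrank_prod`, `LinearMap.finrank_le_finrank_of_injective`
(finite dimensionality: `k → Ω` with `k` finite). -/
theorem finrank_Eeq_le [Finite k] (ι : k →+* Ω) (g : GL (Fin 2) k) (a : k) (ha : a ^ (p ^ 2) = a)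
    (hchar : g.val.charpoly = (X - C a) * (X - C (a ^ p))) (h1 : (a ^ 2) ^ p ≠ a ^ 2)
    (h2 : ι a ^ (p + 1) ≠ ι a ^ 2) :
    finrank Ω (Eeq (p := p) g (ι a ^ 2)) ≤ finrank (ZMod p) k := by
  have hab : a ≠ a ^ p := by
    intro h
    apply h1
    rw [← pow_mul, mul_comm, pow_mul, ← h]
  obtain ⟨e1, e2, e0, ha1, ha2, ha0, ht1, ht2, ht0, hspan⟩ := exists_decomp (p := p) g hab hchar
  set β : Ω := ι a ^ 2 with hβ
  -- the components
  have hm1 : ∀ h : Eeq (p := p) g β, (fun c => (h : Ad0 p k → Ω) (e1 c)) ∈ Eab (a ^ 2) β :=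
    fun h => ⟨fun c c' => by beta_reduce; rw [ha1, h.2.1], fun c => by beta_reduce; rw [← ht1, h.2.2]⟩
  have hm2 : ∀ h : Eeq (p := p) g β, (fun c => (h : Ad0 p k → Ω) (e2 c)) ∈ Eab ((a ^ p) ^ 2) β :=
    fun h => ⟨fun c c' => by beta_reduce; rw [ha2, h.2.1], fun c => by beta_reduce; rw [← ht2, h.2.2]⟩
  have hm0 : ∀ h : Eeq (p := p) g β, (fun c => (h : Ad0 p k → Ω) (e0 c)) ∈ Eab (a * a ^ p) β :=
    fun h => ⟨fun c c' => by beta_reduce; rw [ha0, h.2.1], fun c => by beta_reduce; rw [← ht0, h.2.2]⟩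
  -- the `e0`-component vanishes
  have hd : (a * a ^ p) ^ p = a * a ^ p := by
    rw [mul_pow, ← pow_mul, ← sq, ha, mul_comm]
  obtain ⟨n, hn⟩ := exists_zmod_of_pow_eq hd
  have hιn : algebraMap (ZMod p) Ω n = ι (a * a ^ p) := by
    rw [← hn]
    exact (RingHom.congr_fun (RingHom.ext_zmod (ι.comp (algebraMap (ZMod p) k))
      (algebraMap (ZMod p) Ω)) n).symm
  have hz0 : ∀ (h : Eeq (p := p) g β) (c : k), (h : Ad0 p k → Ω) (e0 c) = 0 := by
    intro h c
    have h3 := Eab_aeval (hm0 h) (C n) c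
    rw [aeval_C, aeval_C, hn, hιn] at h3
    have h4 := (hm0 h).2 c
    have h5 : (ι a ^ (p + 1) - ι a ^ 2) * (h : Ad0 p k → Ω) (e0 c) = 0 := by
      have h6 : ι (a * a ^ p) = ι a ^ (p + 1) := by
        rw [map_mul, map_pow, pow_succ, mul_comm]
      rw [h6] at h3
      simp only at h3 h4
      rw [sub_mul, ← h3, h4]
      exact sub_self _
    exact (mul_eq_zero.mp h5).resolve_left (sub_ne_zero.mpr h2)
  -- the map
  let Φ : Eeq (p := p) g β →ₗ[Ω] (Eab (a ^ 2) β × Eab ((a ^ p) ^ 2) β) :=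
    { toFun := fun h => (⟨_, hm1 h⟩, ⟨_, hm2 h⟩)
      map_add' := fun h h' => rfl
      map_smul' := fun t h => rfl }
  have hinj : Function.Injective Φ := by
    rw [← LinearMap.ker_eq_bot, LinearMap.ker_eq_bot']
    intro h hh
    have q1 : ∀ c, (h : Ad0 p k → Ω) (e1 c) = 0 := fun c =>
      congrFun (congrArg (fun x => ((x.1 : Eab (a ^ 2) β) : k → Ω)) hh) c
    have q2 : ∀ c, (h : Ad0 p k → Ω) (e2 c) = 0 := fun c =>
      congrFun (congrArg (fun x => ((x.2 : Eab ((a ^ p) ^ 2) β) : k → Ω)) hh) c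
    apply Subtype.ext
    funext B
    obtain ⟨c1, c2, c0, rfl⟩ := hspan B
    rw [h.2.1, h.2.1, q1, q2, hz0]
    simp
  have hle := LinearMap.finrank_le_finrank_of_injective hinj
  rw [Module.finrank_prod] at hle
  have hf1 := finrank_Eab_le (p := p) (a ^ 2) h1 β
  have hf2 := finrank_Eab_le (p := p) ((a ^ p) ^ 2) (by
    intro h
    apply h1
    have e : ((a ^ p) ^ 2) ^ p = a ^ 2 := by
      rw [← pow_mul, ← pow_mul, show p * (2 * p) = p ^ 2 * 2 by ring, pow_mul, ha]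
    rw [e] at h
    rw [← pow_mul, mul_comm, pow_mul]
    exact h.symm) β
  omega

end Fermat.Agent.S56.F.C

end
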