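/-
S56 / F / C / CountE : the space of possible leading coefficient functions has `𝔽_p`-dimension `≤ [k : 𝔽_p]`.      TASK S56/FC-CountE
-/
import Fermat.Agent.S56.F.C.CountA
import Fermat.Agent.S56.F.C.CountD

set_option autoImplicit false

noncomputable section

namespace Fermat.Agent.S56.F.C

open Fermat.Agent.S55 Fermat.Agent.S55.Places ExtCitation Module Polynomial

variable {p : ℕ} [Fact p.Prime] {k : Type} [Field k] [Algebra (ZMod p) k]
  {Ω : Type} [Field Ω] [Algebra (ZMod p) Ω]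

/-- additive `h : W → Ω` with `h ∘ T(g) = β h` and `h ∘ T(φ) = c h^p`.
(closure under `+`: `add_pow_char`/`add_pow_expChar` with `CharP Ω p` (`charP_of_injective_algebraMap (algebraMap (ZMod p) Ω).injective p`);
under `n • ·`, `n : ZMod p`: `n • h = algebraMap n • h`, `(algebraMap n)^p = algebraMap n` (`ZMod.pow_card`).) -/
def Sinv (g φ : GL (Fin 2) k) (β c : Ω) : Submodule (ZMod p) (Ad0 p k → Ω) where
  carrier := {h | (∀ B B', h (B + B') = h B + h B') ∧ (∀ B, h (TW.twAd g B) = β * h B) ∧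
    ∀ B, h (TW.twAd φ B) = c * h B ^ p}
  add_mem' := by
    rintro a b ⟨ha, ha', ha''⟩ ⟨hb, hb', hb''⟩
    have : CharP Ω p := charP_of_injective_algebraMap (algebraMap (ZMod p) Ω).injective p
    refine ⟨fun c c' => ?_, fun c => ?_, fun B => ?_⟩
    · simp only [Pi.add_apply, ha, hb]; ring
    · simp only [Pi.add_apply, ha', hb']; ring
    · simp only [Pi.add_apply, ha'', hb'', add_pow_char]; ring
  zero_mem' := by
    refine ⟨fun _ _ => by simp, fun _ => by simp, fun _ => ?_⟩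
    simp [(Fact.out : p.Prime).ne_zero]
  smul_mem' := by
    rintro n a ⟨ha, ha', ha''⟩
    refine ⟨fun c c' => ?_, fun c => ?_, fun B => ?_⟩
    · simp only [Pi.smul_apply, ha, smul_add]
    · simp only [Pi.smul_apply, ha', Algebra.smul_def]; ring
    · simp only [Pi.smul_apply, ha'', Algebra.smul_def, mul_pow, ← map_pow, ZMod.pow_card]; ring

/-- **Count.**  `Ψ h := fun B => c * h (TW.twAd φ⁻¹ B) ^ p` is additive, `Ψ (a • h) = a^p • Ψ h`, and fixes `Sinv`:
`c * h (T(φ⁻¹) B)^p = h (T(φ) (T(φ⁻¹) B)) = h B` (`GT.tw_mul`, `mul_inv_cancel`, `GT.tw_one`, `Subtype.ext`).  `Sinv ⊆ Eeq g β`.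
`finrank_le_of_semilinear_fixed Ψ _ _ (Eeq g β) (Sinv g φ β c)` and `finrank_Eeq_le`.
(`FiniteDimensional Ω (Eeq ..)`: submodule of `Ad0 p k → Ω`, `Ad0 p k` finite.) -/
theorem finrank_Sinv_le [Finite k] (ι : k →+* Ω) (g φ : GL (Fin 2) k) (a : k)
    (ha : a ^ (p ^ 2) = a) (hchar : g.val.charpoly = (X - C a) * (X - C (a ^ p)))
    (h1 : (a ^ 2) ^ p ≠ a ^ 2) (h2 : ι a ^ (p + 1) ≠ ι a ^ 2) (c : Ω) :
    Module.Finite (ZMod p) (Sinv (p := p) g φ (ι a ^ 2) c) ∧
      finrank (ZMod p) (Sinv (p := p) g φ (ι a ^ 2) c) ≤ finrank (ZMod p) k := by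
  have hchp : CharP Ω p := charP_of_injective_algebraMap (algebraMap (ZMod p) Ω).injective p
  have hfinA : Finite (Ad0 p k) := Finite.of_injective (fun x : Ad0 p k => (x : M2 k))
    Subtype.val_injective
  have hfd : FiniteDimensional Ω (Eeq (p := p) g (ι a ^ 2)) :=
    FiniteDimensional.finiteDimensional_submodule _
  have key := finrank_le_of_semilinear_fixed (p := p) (Ω := Ω) (V := Ad0 p k → Ω)
    (fun h => fun B => c * h (TW.twAd φ⁻¹ B) ^ p)
    (by
      intro v w
      funext B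
      simp only [Pi.add_apply, add_pow_char, mul_add])
    (by
      intro t v
      funext B
      simp only [Pi.smul_apply, smul_eq_mul, mul_pow]
      ring)
    (Eeq (p := p) g (ι a ^ 2)) (Sinv (p := p) g φ (ι a ^ 2) c)
    (fun v hv => ⟨hv.1, hv.2.1⟩)
    (by
      intro v hv
      funext B
      have e : TW.twAd φ (TW.twAd φ⁻¹ B) = B := by
        apply Subtype.ext
        rw [TW.twAd_coe, TW.twAd_coe, ← GT.tw_mul, mul_inv_cancel, GT.tw_one]
      show c * v (TW.twAd φ⁻¹ B) ^ p = v B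
      rw [← hv.2.2, e])
  exact ⟨key.1, key.2.trans (finrank_Eeq_le ι g a ha hchar h1 h2)⟩

end Fermat.Agent.S56.F.C

end
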