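/-
S56 / F / C / LevD : the unit filtration of `FL = K^nr(ϖ)` modulo `p`-th powers ("level calculus").
`r = |ϖ|`, `e = p²-1`, `|p| = r^e`, `|ζ_p - 1| = r^(p+1)`, `p e/(p-1) = p²+p`.      TASK S56/FC-LevD.
Black boxes: `Rd.lean`, `Pi.lean` and the imported files.
-/
import Fermat.Agent.S56.F.C.Rd
import Fermat.Agent.S56.F.C.Pi

set_option autoImplicit false

noncomputable section

namespace Fermat.Agent.S56.F.C

open Fermat.Agent.S55 Fermat.Agent.S55.Places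

variable {p : ℕ} [Fact p.Prime] {ϖ : Qbar}

/-! ### LevD : the top level -/

theorem LevD_zt_prim : IsPrimitiveRoot (zt p) p :=
  IsPrimitiveRoot.coe_units_iff.2 (zeta_spec p)

/-- `nrm_one_sub_zeta` (`n = 0`), `zeta_spec`, `nrm_pi_pow`, injectivity of `t ↦ t^(p-1)` on `t ≥ 0`. -/
theorem nrm_zt_sub_one (hϖ : ϖ ^ (p ^ 2 - 1) = -(p : Qbar)) :
    nrm p (zt p - 1) = nrm p ϖ ^ (p + 1) := by
  have hp : p.Prime := Fact.out
  have hprim : IsPrimitiveRoot (zt p) (p ^ (0 + 1)) := by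
    rw [zero_add, pow_one]; exact LevD_zt_prim
  have h1 := nrm_one_sub_zeta hprim
  rw [pow_zero, one_mul, nrm_sub_comm] at h1
  have he : (p + 1) * (p - 1) = p ^ 2 - 1 := by
    have := Nat.sq_sub_sq p 1
    rw [one_pow] at this
    exact this.symm
  have hne : p - 1 ≠ 0 := by have := hp.two_le; omega
  rw [← pow_left_inj₀ (nrm_nonneg p _) (pow_nonneg (nrm_nonneg p _) _) hne, h1, ← pow_mul, he,
    nrm_pi_pow hϖ]

/-- `|ζ^m - 1| = |ζ - 1|` for `p ∤ m` (`cyclo_nrm_one_sub_eq` in `S55/Places/Cyclo.lean`). -/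
theorem nrm_zt_pow_sub_one {m : ℕ} (hm : ¬ p ∣ m) :
    nrm p (zt p ^ m - 1) = nrm p (zt p - 1) := by
  have hp : p.Prime := Fact.out
  have hcop : Nat.Coprime m p := ((Nat.Prime.coprime_iff_not_dvd hp).2 hm).symm
  rw [nrm_sub_comm, nrm_sub_comm p (zt p)]
  exact cyclo_nrm_one_sub_eq p hp.ne_zero LevD_zt_prim (LevD_zt_prim.pow_of_coprime m hcop)

/-- **elements of level `≥ p²+p` are `p`-th powers in `FL`.**
Proof.  `y^p - 1 = ∏_{i<p} (y - ζ^i)`.  If `|y - ζ^i| > |ζ - 1|` for all `i` then all these norms are equal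
(ultrametric) and `|x - 1| = |y - 1|^p > |ζ-1|^p = r^(p²+p)`: contradiction.  So `|y ζ^(-i) - 1| ≤ |ζ - 1|` for
some `i`; `t := (y ζ^(-i) - 1)/(ζ - 1)` is integral.  Let `s ∈ IL`; `(s y)^p = x = y^p` so `s y = ζ^m y`, `m < p`;
`s t - t = (ζ^m - 1) y ζ^(-i)/(ζ - 1)` has norm `< 1` (`mem_Iq_iff`), so `|ζ^m - 1| < |ζ - 1|`, i.e. `m = 0`. -/
theorem fixed_of_top (hϖ : ϖ ^ (p ^ 2 - 1) = -(p : Qbar))
    (hζ : ∀ s ∈ IL p ϖ, s (zt p) = zt p) {x y : Qbar} (hx : x ∈ FL p ϖ)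
    (h : nrm p (x - 1) ≤ nrm p ϖ ^ (p ^ 2 + p)) (hy : y ^ p = x) : y ∈ FL p ϖ := by
  classical
  have hp : p.Prime := Fact.out
  have hprim : IsPrimitiveRoot (zt p) p := LevD_zt_prim
  have hrpos := nrm_pi_pos hϖ
  have hr1 := nrm_pi_lt_one hϖ
  have hc := nrm_zt_sub_one hϖ
  have hcpos : 0 < nrm p (zt p - 1) := by rw [hc]; exact pow_pos hrpos _
  have hc1 : nrm p (zt p - 1) < 1 := by
    rw [hc]; exact pow_lt_one₀ hrpos.le hr1 (Nat.succ_ne_zero p)
  have hζ1 : zt p - 1 ≠ 0 := (nrm_pos_iff p).1 hcpos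
  by_cases hy0 : y = 0
  · rw [hy0]; exact zero_mem _
  -- a root of unity close to `y`
  obtain ⟨μ, hμ, hμy⟩ : ∃ μ ∈ Polynomial.nthRootsFinset p (1 : Qbar),
      nrm p (y - μ) ≤ nrm p (zt p - 1) := by
    by_contra hcon
    push Not at hcon
    have hfac := hprim.pow_sub_pow_eq_prod_sub_mul y 1 hp.pos
    rw [one_pow, hy] at hfac
    have hlt : ∏ _μ ∈ Polynomial.nthRootsFinset p (1 : Qbar), nrm p (zt p - 1) <
        ∏ μ ∈ Polynomial.nthRootsFinset p (1 : Qbar), nrm p (y - μ * 1) := by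
      apply Finset.prod_lt_prod_of_nonempty
      · intro _ _; exact hcpos
      · intro μ hμ; rw [mul_one]; exact hcon μ hμ
      · rw [← Finset.card_pos, hprim.card_nthRootsFinset]; exact hp.pos
    rw [Finset.prod_const, hprim.card_nthRootsFinset, hc, ← pow_mul, ← nrm_prod, ← hfac] at hlt
    have he : (p + 1) * p = p ^ 2 + p := by ring
    rw [he] at hlt
    exact absurd h (not_le.2 hlt)
  have hμp : μ ^ p = 1 := (Polynomial.mem_nthRootsFinset hp.pos 1).1 hμ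
  have hμn : nrm p μ = 1 := nrm_eq_one_of_pow_eq_one p hp.ne_zero hμp
  have hyn : nrm p y = 1 := by
    have h1 : nrm p (y - μ) ≠ nrm p μ := by rw [hμn]; exact (lt_of_le_of_lt hμy hc1).ne
    have h2 := nrm_add_eq_max_of_ne p h1
    rw [sub_add_cancel, hμn, max_eq_right (lt_of_le_of_lt hμy hc1).le] at h2
    exact h2
  rw [mem_FL]
  intro s hs
  have hsI : s ∈ Iq p := (mem_IL.1 hs).1
  have hsζ := hζ s hs
  have hsμ : s μ = μ := by
    have : NeZero p := ⟨hp.ne_zero⟩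
    obtain ⟨i, -, rfl⟩ := hprim.eq_pow_of_pow_eq_one hμp
    rw [map_pow, hsζ]
  have hsx : s x = x := (mem_FL.1 hx) s hs
  have hpow : (s y / y) ^ p = 1 := by
    rw [div_pow, ← map_pow, hy, hsx, div_self]
    rw [← hy]; exact pow_ne_zero p hy0
  have : NeZero p := ⟨hp.ne_zero⟩
  obtain ⟨m, hm, hmy⟩ := hprim.eq_pow_of_pow_eq_one hpow
  have hsy : s y = zt p ^ m * y := by
    rw [hmy]; field_simp
  by_cases hm0 : m = 0
  · rw [hsy, hm0, pow_zero, one_mul]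
  exfalso
  have hndvd : ¬ p ∣ m := Nat.not_dvd_of_pos_of_lt (Nat.pos_of_ne_zero hm0) hm
  have ht : nrm p ((y - μ) / (zt p - 1)) ≤ 1 := by
    rw [nrm_div, div_le_one hcpos]; exact hμy
  have hlt := ((mem_Iq_iff p).1 hsI).2 _ ht
  have hcalc : s ((y - μ) / (zt p - 1)) - (y - μ) / (zt p - 1) =
      (zt p ^ m - 1) * y / (zt p - 1) := by
    rw [map_div₀, map_sub, map_sub, map_one, hsζ, hsμ, hsy]
    field_simp
    ring
  rw [hcalc, nrm_div, nrm_mul, nrm_zt_pow_sub_one hndvd, hyn, mul_one, div_self hcpos.ne'] at hlt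
  exact lt_irrefl _ hlt

end Fermat.Agent.S56.F.C

end
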