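/-
S56 / F / C / GenD : top level => the cocycle vanishes on `IL`.          TASK S56/FC-GenD
-/
import Fermat.Agent.S56.F.C.GenA
import Fermat.Agent.S56.F.C.LevD

set_option autoImplicit false

noncomputable section

namespace Fermat.Agent.S56.F.C

open Fermat.Agent.S55 Fermat.Agent.S55.Places ExtCitation Module Polynomial

variable {p : ℕ} [Fact p.Prime] {k : Type} [Field k] [Algebra (ZMod p) k] {ϖ : Qbar}

/-- `y ∈ FL` gives `y = s y = ζ^{χ(s)} y`, `y ≠ 0`, `zt_pow_val_eq_one_iff`. -/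
theorem chi_eq_zero_of_fixed {z : GQ → Ad0 p k} {B : Ad0 p k} {x : Qbar} (h : Gen ϖ z B x)
    (hfix : ∀ y : Qbar, y ^ p = x → y ∈ FL p ϖ) {s : GQ} (hs : s ∈ IL p ϖ) : chi z B s = 0 := by
  obtain ⟨-, y, hy0, hyx, hy⟩ := h
  have h1 := (mem_FL.1 (hfix y hyx)) s hs
  rw [hy s hs] at h1
  rw [← zt_pow_val_eq_one_iff]
  exact mul_right_cancel₀ hy0 (h1.trans (one_mul y).symm)

/-- the trace form is symmetric (`Matrix.trace_mul_comm`) and non degenerate (`TW.trForm_injective hp2`). -/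
theorem eq_zero_of_trForm [Finite k] (hp2 : p ≠ 2) (w : Ad0 p k)
    (h : ∀ B : Ad0 p k, TW.trForm p k B w = 0) : w = 0 := by
  apply TW.trForm_injective hp2
  rw [map_zero]
  ext B
  rw [LinearMap.zero_apply, ← h B, TW.trForm_apply, TW.trForm_apply, Matrix.trace_mul_comm]

/-- `fixed_of_top`, `chi_eq_zero_of_fixed`, `eq_zero_of_trForm` (`chi z B s = TW.trForm p k B (z s)` by `rfl`). -/
theorem z_eq_zero_of_top [Finite k] (hp2 : p ≠ 2) (hϖ : ϖ ^ (p ^ 2 - 1) = -(p : Qbar))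
    (hζ : ∀ s ∈ IL p ϖ, s (zt p) = zt p) {z : GQ → Ad0 p k}
    (h : ∀ B : Ad0 p k, Lev ϖ z B (p ^ 2 + p)) : ∀ s ∈ IL p ϖ, z s = 0 := by
  intro s hs
  refine eq_zero_of_trForm hp2 _ fun B => ?_
  obtain ⟨x, hgen, hx⟩ := h B
  exact chi_eq_zero_of_fixed hgen (fun y hy => fixed_of_top hϖ hζ hgen.mem hx hy) hs

end Fermat.Agent.S56.F.C

end
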