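/-
S56 / F / C / LinAlg : a dimension count.      TASK S56/FC-LinAlg       (pure linear algebra, Mathlib only)
-/
import Mathlib

set_option autoImplicit false

noncomputable section

namespace Fermat.Agent.S56.F.C

open Module

/-- `dim π(G) ≤ dim U + dim S` if `π(ker h) ⊆ U`, `h : G → S`.
Proof.  `q := U.mkQ`.  (a) `finrank (G.map π) ≤ finrank U + finrank ((G.map π).map q)`: rank–nullity for `q` restricted to `G.map π`
(`LinearMap.finrank_range_add_finrank_ker` for `(q.domRestrict (G.map π))`; its kernel embeds in `U`; its range is `(G.map π).map q`; `Submodule.finrank_mono`/`LinearMap.finrank_le_finrank_of_injective`).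
(b) `f := q ∘ₗ π ∘ₗ G.subtype : G → H ⧸ U` kills `ker h`, so it factors through `G ⧸ ker h ≃ range h` (`LinearMap.quotKerEquivRange`, `Submodule.liftQ`):
`finrank (range f) ≤ finrank (range h) ≤ finrank S` (`LinearMap.finrank_range_le`-style for the induced surjection `range h → range f`), and `range f = (G.map π).map q`. -/
theorem finrank_map_le {K Z H S : Type} [Field K] [AddCommGroup Z] [Module K Z] [AddCommGroup H]
    [Module K H] [AddCommGroup S] [Module K S] [FiniteDimensional K H] [FiniteDimensional K S]
    (G : Submodule K Z) (π : Z →ₗ[K] H) (h : G →ₗ[K] S) (U : Submodule K H)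
    (hU : ∀ z : G, h z = 0 → π (z : Z) ∈ U) :
    finrank K (G.map π) ≤ finrank K U + finrank K S := by
  have h1 := LinearMap.finrank_range_add_finrank_ker (U.mkQ.domRestrict (G.map π))
  have h2 : finrank K (LinearMap.ker (U.mkQ.domRestrict (G.map π))) ≤ finrank K U := by
    let j : LinearMap.ker (U.mkQ.domRestrict (G.map π)) →ₗ[K] U :=
      LinearMap.codRestrict U
        ((G.map π).subtype ∘ₗ (LinearMap.ker (U.mkQ.domRestrict (G.map π))).subtype) (by
        intro x
        have hx := x.2
        rw [LinearMap.mem_ker, LinearMap.domRestrict_apply, Submodule.mkQ_apply,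
          Submodule.Quotient.mk_eq_zero] at hx
        exact hx)
    apply LinearMap.finrank_le_finrank_of_injective (f := j)
    intro a b hab
    have hab' := congrArg Subtype.val hab
    exact Subtype.ext (Subtype.ext hab')
  have h3 : finrank K (LinearMap.range (U.mkQ.domRestrict (G.map π))) ≤ finrank K S := by
    let f : G →ₗ[K] H ⧸ U := U.mkQ ∘ₗ π ∘ₗ G.subtype
    have hle : LinearMap.ker h ≤ LinearMap.ker f := by
      intro z hz
      rw [LinearMap.mem_ker] at hz ⊢
      exact (Submodule.Quotient.mk_eq_zero _).2 (hU z hz)
    have hr : LinearMap.range (U.mkQ.domRestrict (G.map π))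
        = LinearMap.range ((LinearMap.ker h).liftQ f hle) := by
      rw [Submodule.range_liftQ, LinearMap.range_domRestrict, LinearMap.range_comp,
        LinearMap.range_comp, Submodule.range_subtype]
    rw [hr]
    have e := h.quotKerEquivRange
    have hfin : Module.Finite K (G ⧸ LinearMap.ker h) := Module.Finite.equiv e.symm
    calc finrank K (LinearMap.range ((LinearMap.ker h).liftQ f hle))
        ≤ finrank K (G ⧸ LinearMap.ker h) := LinearMap.finrank_range_le _
      _ = finrank K (LinearMap.range h) := e.finrank_eq
      _ ≤ finrank K S := Submodule.finrank_le _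
  omega

end Fermat.Agent.S56.F.C

end
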