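/-
S56 / F / C / Main : **the count in the irreducible flat case**  (helper55).

`count_main` : given the tame setup `S : Setup p M ϖ` (block T), the span of the local classes at `p` of all global cocycles `z` without Kummer generators of exact
levels `2` and `p + 1` (blocks K + R) has dimension `≤ h⁰ + [k : 𝔽_p]`.
-/
import Fermat.Agent.S56.F.C.Climb1
import Fermat.Agent.S56.F.C.GenD
import Fermat.Agent.S56.F.C.CountE
import Fermat.Agent.S56.F.C.Ker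
import Fermat.Agent.S56.F.C.LinAlg
import Fermat.Agent.S55.Z.TargetL

set_option autoImplicit false

noncomputable section

namespace Fermat.Agent.S56.F.C

open Fermat.Agent.S55 Fermat.Agent.S55.Places ExtCitation Module Polynomial

variable {p : ℕ} [Fact p.Prime] {k : Type} [Field k] [Algebra (ZMod p) k] {ϖ : Qbar}
  {M : GQ →* M2 k}

/-- the residue field is an `𝔽_p`-algebra. -/
instance omAlgebra (p : ℕ) [Fact p.Prime] : Algebra (ZMod p) (Om p) := ZMod.algebra (Om p) p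

theorem top_arith : 1 ≤ p ^ 2 + 1 ∧ p ^ 2 + 1 < p ^ 2 + p ∧ ¬ p ∣ p ^ 2 + 1 := by
  have hp : p.Prime := Fact.out
  refine ⟨by omega, by have := hp.one_lt; omega, fun h => ?_⟩
  have h1 : p ∣ 1 := (Nat.dvd_add_right (Dvd.intro_left (p ^ 1) (by ring))).1 h
  exact hp.one_lt.ne' (Nat.dvd_one.1 h1)

theorem e_gt (hp2 : p ≠ 2) : 2 * p < p ^ 2 - 1 := by
  have hp : p.Prime := Fact.out
  have h3 : 3 ≤ p := by have := hp.two_le; omega
  have : 3 * p ≤ p ^ 2 := by nlinarith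
  omega

/-- cocycles all of whose characters `χ_B` have level `≥ p² + 1`. -/
def Good (M : GQ →* M2 k) {ϖ : Qbar} (hϖ : ϖ ^ (p ^ 2 - 1) = -(p : Qbar)) :
    Submodule (ZMod p) ↥(Z1 Lall (ad0 p M)) where
  carrier := {z | ∀ B, Lev ϖ (z : GQ → Ad0 p k) B (p ^ 2 + 1)}
  add_mem' := fun ha hb B => Lev.add_z hϖ (ha B) (hb B)
  zero_mem' := fun B => Lev.zero_z B _
  smul_mem' := fun c _ hz B => Lev.smul_z hϖ c (hz B)

/-- `z ↦ (B ↦ lc_{p²+1}(x_B))`, additive. -/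
def hAdd (M : GQ →* M2 k) {ϖ : Qbar} (hϖ : ϖ ^ (p ^ 2 - 1) = -(p : Qbar)) :
    ↥(Good M hϖ) →+ (Ad0 p k → Om p) :=
  AddMonoidHom.mk' (fun z => hfun ϖ (p ^ 2 + 1) ((z : ↥(Z1 Lall (ad0 p M))) : GQ → Ad0 p k))
    (fun z z' => funext fun B =>
      hfun_add_z hϖ top_arith.1 top_arith.2.1 top_arith.2.2 (z.2 B) (z'.2 B))

theorem hAdd_apply (hϖ : ϖ ^ (p ^ 2 - 1) = -(p : Qbar)) (z : ↥(Good M hϖ)) (B : Ad0 p k) :
    hAdd M hϖ z B = hfun ϖ (p ^ 2 + 1) ((z : ↥(Z1 Lall (ad0 p M))) : GQ → Ad0 p k) B := rfl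

theorem hAdd_mem (S : Setup p M ϖ)
    (hdet : ∀ σ, (M σ).det = algebraMap (ZMod p) k ((cycloChar p σ : (ZMod p)ˣ) : ZMod p))
    {φ : GQ} (hφ : IsFrob p φ) (z : ↥(Good M S.hϖ)) :
    hAdd M S.hϖ z ∈ Sinv (p := p) (TW.rGL M S.g0) (TW.rGL M φ) (S.ι S.a ^ 2)
      (rd p (φ ϖ / ϖ) ^ (p ^ 2 + 1)) := by
  obtain ⟨h1, h2, h3⟩ := top_arith (p := p)
  refine ⟨fun B B' => hfun_add_B S.hϖ h1 h2 h3 (z.2 B) (z.2 B'), fun B => ?_, fun B => ?_⟩
  · rw [S.ι_a, ← S.θ0_pow_top]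
    exact hfun_T_of_mem_Iq S.hϖ hdet S.ker z.1.2 S.g0_mem h1 h2 h3 (z.2 B)
  · exact hfun_T_of_isFrob S.hϖ hdet S.ker z.1.2 hφ h1 h2 h3 (z.2 B)

/-- the linear map `Good → Sinv`. -/
def hLin (S : Setup p M ϖ)
    (hdet : ∀ σ, (M σ).det = algebraMap (ZMod p) k ((cycloChar p σ : (ZMod p)ˣ) : ZMod p))
    {φ : GQ} (hφ : IsFrob p φ) :
    ↥(Good M S.hϖ) →ₗ[ZMod p] ↥(Sinv (p := p) (TW.rGL M S.g0) (TW.rGL M φ) (S.ι S.a ^ 2)
      (rd p (φ ϖ / ϖ) ^ (p ^ 2 + 1))) :=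
  LinearMap.codRestrict _ ((hAdd M S.hϖ).toZModLinearMap p) (fun z => hAdd_mem S hdet hφ z)

theorem Setup.sinv_hyp (hp2 : p ≠ 2) (S : Setup p M ϖ) :
    (S.a ^ 2) ^ p ≠ S.a ^ 2 ∧ S.ι S.a ^ (p + 1) ≠ S.ι S.a ^ 2 := by
  have hp : p.Prime := Fact.out
  have he := e_gt hp2
  constructor
  · intro h
    have h' := congrArg S.ι h
    rw [map_pow, map_pow, S.ι_a, ← pow_mul, S.θ0_pow_eq_iff] at h'
    have := Nat.ModEq.eq_of_lt_of_lt h' (by omega) (by have := hp.two_le; omega)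
    have := hp.one_lt
    omega
  · intro h
    rw [S.ι_a, S.θ0_pow_eq_iff] at h
    have := Nat.ModEq.eq_of_lt_of_lt h (by have := hp.two_le; omega) (by have := hp.two_le; omega)
    have := hp.one_lt
    omega

/-- **The count.** -/
theorem count_main [Finite k] (hp2 : p ≠ 2) (hM : ResHyp p M) (S : Setup p M ϖ) :
    finrank (ZMod p) ↥(Submodule.span (ZMod p)
      {x | ∃ z : ↥(Z1 Lall (ad0 p M)), NoLevel ϖ (z : GQ → Ad0 p k) 2 ∧
        NoLevel ϖ (z : GQ → Ad0 p k) (p + 1) ∧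
        x = (Pair.res Lall (ad0 p M) (DqP (pPrime p))).map1 (H1.mk Lall (ad0 p M) z)}) ≤
      finrank (ZMod p) ↥(H0 (rsub (ad0 p M) (DqP (pPrime p)))) + finrank (ZMod p) k := by
  have hsm : Smooth Lall (ad0 p M) := Loc.smooth_ad0 p M hM.fin
  have : Finite (M2 k) := inferInstance
  have : FiniteDimensional (ZMod p) (Ad0 p k) := Module.Finite.of_finite
  have hfd : FiniteDimensional (ZMod p) (H1 (Lq p) (rsub (ad0 p M) (Dq p))) := loc_fin1 hp2 _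
  have hfd' : FiniteDimensional (ZMod p)
      (H1 (Lall.sub (DqP (pPrime p))) (rsub (ad0 p M) (DqP (pPrime p)))) := hfd
  obtain ⟨φ, hφ⟩ := exists_isFrob p
  obtain ⟨hs1, hs2⟩ := S.sinv_hyp hp2
  obtain ⟨hSf, hSr⟩ := finrank_Sinv_le (p := p) S.ι (TW.rGL M S.g0) (TW.rGL M φ) S.a S.a_pow S.char
    hs1 hs2 (rd p (φ ϖ / ϖ) ^ (p ^ 2 + 1))
  set π : ↥(Z1 Lall (ad0 p M)) →ₗ[ZMod p]
      H1 (Lall.sub (DqP (pPrime p))) (rsub (ad0 p M) (DqP (pPrime p))) :=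
    (Pair.res Lall (ad0 p M) (DqP (pPrime p))).map1 ∘ₗ H1.mk Lall (ad0 p M) with hπ
  have hle : Submodule.span (ZMod p)
      {x | ∃ z : ↥(Z1 Lall (ad0 p M)), NoLevel ϖ (z : GQ → Ad0 p k) 2 ∧
        NoLevel ϖ (z : GQ → Ad0 p k) (p + 1) ∧
        x = (Pair.res Lall (ad0 p M) (DqP (pPrime p))).map1 (H1.mk Lall (ad0 p M) z)} ≤
      (Good M S.hϖ).map π := by
    refine Submodule.span_le.2 ?_
    rintro x ⟨z, h2, h3, rfl⟩
    exact ⟨z, climb_low hp2 S hM.det z.2 h2 h3, rfl⟩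
  have hU : ∀ z : ↥(Good M S.hϖ), hLin S hM.det hφ z = 0 →
      π (z : ↥(Z1 Lall (ad0 p M))) ∈ Lur (pPrime p) (ad0 p M) := by
    intro z hz
    obtain ⟨h1, h2, h3⟩ := top_arith (p := p)
    have hz' : ∀ B, hfun ϖ (p ^ 2 + 1) ((z : ↥(Z1 Lall (ad0 p M))) : GQ → Ad0 p k) B = 0 := by
      intro B
      have := congrArg (fun f : ↥(Sinv (p := p) (TW.rGL M S.g0) (TW.rGL M φ) (S.ι S.a ^ 2)
        (rd p (φ ϖ / ϖ) ^ (p ^ 2 + 1))) => (f : Ad0 p k → Om p) B) hz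
      exact this
    have hl : ∀ B, Lev ϖ ((z : ↥(Z1 Lall (ad0 p M))) : GQ → Ad0 p k) B (p ^ 2 + 2) :=
      fun B => lev_succ_of_hfun_eq_zero S.hϖ h1 h2 h3 (z.2 B) (hz' B)
    have ht := climb_high hp2 S hM.det z.1.2 hl
    have h0 := z_eq_zero_of_top hp2 S.hϖ (zt_fixed hM.det S.ker) ht
    exact mk_res_mem_Lur_of_vanish S z.1 h0
  have hfm : Module.Finite (ZMod p) ↥((Good M S.hϖ).map π) :=
    FiniteDimensional.finiteDimensional_submodule _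
  calc _ ≤ finrank (ZMod p) ↥((Good M S.hϖ).map π) := Submodule.finrank_mono hle
    _ ≤ finrank (ZMod p) ↥(Lur (pPrime p) (ad0 p M)) + finrank (ZMod p) ↥(Sinv (p := p)
        (TW.rGL M S.g0) (TW.rGL M φ) (S.ι S.a ^ 2) (rd p (φ ϖ / ϖ) ^ (p ^ 2 + 1))) :=
      finrank_map_le _ π (hLin S hM.det hφ) _ hU
    _ ≤ _ := Nat.add_le_add (Loc.ur_finrank (pPrime p) (ad0 p M)) hSr

end Fermat.Agent.S56.F.C

end
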