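/-
S56 / F / C / Ker : a global cocycle vanishing on `IL` has an unramified class at `p`.      TASK S56/FC-Ker
-/
import Fermat.Agent.S56.F.C.Pi
import Fermat.Agent.S56.Loc.UrMain

set_option autoImplicit false

noncomputable section

namespace Fermat.Agent.S56.F.C

open Fermat.Agent.S55 Fermat.Agent.S55.Places ExtCitation Module Polynomial

variable {p : ℕ} [Fact p.Prime] {k : Type} [Field k] [Algebra (ZMod p) k] {ϖ : Qbar}
  {M : GQ →* M2 k}

/-- pure algebra: `A^e = 1`, `e` invertible, `(1 + A + … + A^(e-1)) w = 0`  ⟹  `w = A m - m`.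
`m := (e : ZMod p)⁻¹ • ∑ i ∈ range e, (i : ZMod p) • (A^i) w`;  by induction on `n`:
`A (∑ i<n, i • A^i w) - ∑ i<n, i • A^i w = n • A^n w - ∑ i<n, A^(i+1) w`  … at `n = e`: `= e • w - (∑ i<e, A^i w) + w - A^e w = e • w`. -/
theorem exists_sub_of_norm_eq_zero {X : Type} [AddCommGroup X] [Module (ZMod p) X]
    (A : X →ₗ[ZMod p] X) {e : ℕ} (he : ((e : ℕ) : ZMod p) ≠ 0) (hA : A ^ e = 1) (w : X)
    (hw : ∑ i ∈ Finset.range e, (A ^ i) w = 0) : ∃ m : X, w = A m - m := by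
  have key : ∀ n : ℕ, A (∑ i ∈ Finset.range n, (i : ZMod p) • (A ^ i) w)
      - ∑ i ∈ Finset.range n, (i : ZMod p) • (A ^ i) w
      = (n : ZMod p) • (A ^ n) w - ∑ i ∈ Finset.range n, (A ^ (i + 1)) w := by
    intro n
    induction n with
    | zero => simp
    | succ n ih =>
      rw [Finset.sum_range_succ, Finset.sum_range_succ, map_add, map_smul]
      have h1 : A ((A ^ n) w) = (A ^ (n + 1)) w := by rw [pow_succ']; rfl
      rw [h1]
      have h2 : A (∑ i ∈ Finset.range n, (i : ZMod p) • (A ^ i) w) + (n : ZMod p) • (A ^ (n + 1)) w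
          - (∑ i ∈ Finset.range n, (i : ZMod p) • (A ^ i) w + (n : ZMod p) • (A ^ n) w)
          = (A (∑ i ∈ Finset.range n, (i : ZMod p) • (A ^ i) w)
            - ∑ i ∈ Finset.range n, (i : ZMod p) • (A ^ i) w)
            + (n : ZMod p) • (A ^ (n + 1)) w - (n : ZMod p) • (A ^ n) w := by abel
      rw [h2, ih]
      push_cast
      rw [add_smul, one_smul]
      abel
  have h3 : ∑ i ∈ Finset.range e, (A ^ (i + 1)) w = 0 := by
    have : ∑ i ∈ Finset.range e, (A ^ (i + 1)) w = A (∑ i ∈ Finset.range e, (A ^ i) w) := by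
      rw [map_sum]
      refine Finset.sum_congr rfl fun i _ => ?_
      rw [pow_succ']
      rfl
    rw [this, hw, map_zero]
  have h4 := key e
  rw [h3, sub_zero, hA, Module.End.one_apply] at h4
  refine ⟨((e : ℕ) : ZMod p)⁻¹ • ∑ i ∈ Finset.range e, (i : ZMod p) • (A ^ i) w, ?_⟩
  rw [map_smul, ← smul_sub, h4, smul_smul, inv_mul_cancel₀ he, one_smul]

/-- `z(g^n) = ∑_{i<n} g^i z(g)` (induction, `pow_succ'`/`pow_succ`, cocycle identity `z (g * h) = ρ g (z h) + z g`; `z 1 = 0`). -/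
theorem z_pow {X : Type} [AddCommGroup X] [Module (ZMod p) X] (ρ : Representation (ZMod p) GQ X)
    {z : GQ → X} (hz : ∀ g h : GQ, z (g * h) = ρ g (z h) + z g) (g : GQ) (n : ℕ) :
    z (g ^ n) = ∑ i ∈ Finset.range n, ((ρ g) ^ i) (z g) := by
  have h1 : z 1 = 0 := by
    have h := hz 1 1
    rw [mul_one, map_one, Module.End.one_apply] at h
    exact left_eq_add.1 h
  induction n with
  | zero => simpa using h1
  | succ n ih =>
    rw [pow_succ, hz, ih, Finset.sum_range_succ, map_pow, add_comm]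

/-- **`H¹(I/IL, W) = 0`.**  `e = p² - 1`, `(e : ZMod p) ≠ 0` (`e_coprime`; `ZMod.natCast_eq_zero_iff`), `A := ad0 p M g0`, `A^e = ad0 p M (g0^e) = 1` as `g0^e ∈ IL` (`pow_e_mem_IL`) and `M = 1` on `IL`
(`map_pow`; `ext`, `ad0_apply_coe`);  `0 = z (g0^e) = ∑ A^i (z g0)` (`z_pow`).  So `z g0 = A m - m`.  Put `z' σ := z σ - (ad0 p M σ m - m)`: a cocycle vanishing at `g0` and on `IL`
(`ad0 p M s = 1` there), hence at all `g0^i * s` (`z' (g0^i) = 0` by induction or `z_pow`; `z' (g * s) = g z'(s) + z'(g)`), i.e. on `Iq p` (`exists_pow_mul S.hϖ S.g0_mem S.prim`). -/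
theorem exists_coboundary_on_Iq (S : Setup p M ϖ) {z : GQ → Ad0 p k}
    (hz : ∀ g h : GQ, z (g * h) = ad0 p M g (z h) + z g) (h0 : ∀ s ∈ IL p ϖ, z s = 0) :
    ∃ m : Ad0 p k, ∀ σ ∈ Iq p, z σ = ad0 p M σ m - m := by
  have he : ((p ^ 2 - 1 : ℕ) : ZMod p) ≠ 0 := by
    intro h
    rw [ZMod.natCast_eq_zero_iff] at h
    have h1 : p ∣ Nat.gcd (p ^ 2 - 1) p := Nat.dvd_gcd h dvd_rfl
    rw [Nat.Coprime.gcd_eq_one e_coprime] at h1
    exact (Fact.out : p.Prime).one_lt.ne' (Nat.dvd_one.mp h1)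
  have had : ∀ s ∈ IL p ϖ, ad0 p M s = 1 := by
    intro s hs
    ext X : 2
    rw [ad0_apply_coe, S.ker s hs, S.ker s⁻¹ ((IL p ϖ).inv_mem hs), one_mul, mul_one]
    rfl
  have hmem : S.g0 ^ (p ^ 2 - 1) ∈ IL p ϖ := pow_e_mem_IL S.hϖ S.g0_mem
  have hA : (ad0 p M S.g0) ^ (p ^ 2 - 1) = 1 := by
    rw [← map_pow, had _ hmem]
  have hw : ∑ i ∈ Finset.range (p ^ 2 - 1), ((ad0 p M S.g0) ^ i) (z S.g0) = 0 := by
    rw [← z_pow (ad0 p M) hz S.g0 (p ^ 2 - 1), h0 _ hmem]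
  obtain ⟨m, hm⟩ := exists_sub_of_norm_eq_zero (ad0 p M S.g0) he hA (z S.g0) hw
  have hpow : ∀ i : ℕ, z (S.g0 ^ i) = ad0 p M (S.g0 ^ i) m - m := by
    intro i
    induction i with
    | zero =>
      have h1 : z 1 = 0 := h0 1 (IL p ϖ).one_mem
      rw [pow_zero, h1, map_one, Module.End.one_apply, sub_self]
    | succ i ih =>
      rw [pow_succ, hz, ih, hm, map_sub, map_mul, Module.End.mul_apply]
      abel
  refine ⟨m, fun σ hσ => ?_⟩
  obtain ⟨i, -, s, hs, rfl⟩ := exists_pow_mul S.hϖ S.g0_mem S.prim hσ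
  rw [hz, h0 s hs, map_zero, zero_add, hpow, map_mul, had s hs, mul_one]

/-- `Loc.mk_res_mem_Lur (pPrime p) (ad0 p M) z m _` (`IqP (pPrime p) = Iq p` by `rfl`/`show`), `(mem_Z1.1 z.2).1`. -/
theorem mk_res_mem_Lur_of_vanish (S : Setup p M ϖ) [Smooth Lall (ad0 p M)]
    (z : ↥(Z1 Lall (ad0 p M))) (h0 : ∀ s ∈ IL p ϖ, (z : GQ → Ad0 p k) s = 0) :
    (Pair.res Lall (ad0 p M) (DqP (pPrime p))).map1 (H1.mk Lall (ad0 p M) z) ∈
      Lur (pPrime p) (ad0 p M) := by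
  obtain ⟨m, hm⟩ := exists_coboundary_on_Iq S (mem_Z1.1 z.2).1 h0
  exact Loc.mk_res_mem_Lur (pPrime p) (ad0 p M) z m (fun σ hσ => hm σ hσ)

end Fermat.Agent.S56.F.C

end
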